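import Mathlib
import Fermat.Prelude.Def_ModularCurve_ReductionModL
import Fermat.Prelude.Def_ModularCurve_HeckeModule
import Fermat.Agent.E.Desc.Defs
import Fermat.Agent.MU.S17.W.Final
import Fermat.Agent.F3.Galois.HeckeComm
import Fermat.Agent.MU.F3.TorsFin.Final
import Fermat.Agent.Lib.Frobenius.Exists

section MergeWrap_E_Desc_Kum -- from E/Desc/Kum.lean

set_option autoImplicit false

noncomputable section

namespace Fermat.Agent.EDesc

open ModularCurve AlgebraicCurve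

local notation "Qb" => AlgebraicClosure ℚ
local notation "GQb" => (AlgebraicClosure ℚ ≃ₐ[ℚ] AlgebraicClosure ℚ)

variable {N : ℕ}

/-- `P ∈ J₀(N)(ℚ̄)` is rational (fixed by `G_ℚ`). -/
def RatPt (P : JZero N) : Prop := ∀ σ : GQb, σ • P = P

/-- the Kummer cocycle `σ ↦ σ R - R`. -/
def kum (R : JZero N) : GQb → JZero N := fun σ => σ • R - R

theorem kum_apply (R : JZero N) (σ : GQb) : kum R σ = σ • R - R := rfl

/-- the Galois action as an additive map. -/
def galAdd (σ : GQb) : JZero N →+ JZero N := DistribSMul.toAddMonoidHom (JZero N) σ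

theorem galAdd_apply (σ : GQb) (x : JZero N) : galAdd σ x = σ • x := rfl

theorem gal_smul_zero (σ : GQb) : σ • (0 : JZero N) = 0 := map_zero (galAdd σ)

theorem gal_smul_nsmul (σ : GQb) (m : ℕ) (x : JZero N) : σ • (m • x) = m • (σ • x) :=
  map_nsmul (galAdd σ) m x

theorem gal_smul_add (σ : GQb) (x y : JZero N) : σ • (x + y) = σ • x + σ • y :=
  map_add (galAdd σ) x y

theorem gal_smul_sub (σ : GQb) (x y : JZero N) : σ • (x - y) = σ • x - σ • y :=
  map_sub (galAdd σ) x y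

theorem gal_smul_neg (σ : GQb) (x : JZero N) : σ • (-x) = -(σ • x) :=
  map_neg (galAdd σ) x

theorem ratPt_zero : RatPt (0 : JZero N) := fun σ => gal_smul_zero σ

theorem RatPt.add {P Q : JZero N} (hP : RatPt P) (hQ : RatPt Q) : RatPt (P + Q) :=
  fun σ => by rw [gal_smul_add, hP σ, hQ σ]

theorem RatPt.neg {P : JZero N} (hP : RatPt P) : RatPt (-P) :=
  fun σ => by rw [gal_smul_neg, hP σ]

theorem RatPt.sub {P Q : JZero N} (hP : RatPt P) (hQ : RatPt Q) : RatPt (P - Q) :=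
  fun σ => by rw [gal_smul_sub, hP σ, hQ σ]

theorem RatPt.nsmul {P : JZero N} (hP : RatPt P) (m : ℕ) : RatPt (m • P) :=
  fun σ => by rw [gal_smul_nsmul, hP σ]

theorem ratPt_iff_kum_eq_zero (R : JZero N) : RatPt R ↔ ∀ σ, kum R σ = 0 := by
  constructor
  · intro h σ
    rw [kum_apply, h σ, sub_self]
  · intro h σ
    exact sub_eq_zero.mp (h σ)

/-- `kum R` is a 1-cocycle. -/
theorem kum_isCoc (R : JZero N) : IsCoc (kum R) := by
  intro σ τ
  simp only [kum_apply, mul_smul, gal_smul_sub]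
  abel

theorem kum_add (R R' : JZero N) (σ : GQb) : kum (R + R') σ = kum R σ + kum R' σ := by
  simp only [kum_apply, gal_smul_add]
  abel

theorem kum_sub (R R' : JZero N) (σ : GQb) : kum (R - R') σ = kum R σ - kum R' σ := by
  simp only [kum_apply, gal_smul_sub]
  abel

theorem kum_neg (R : JZero N) (σ : GQb) : kum (-R) σ = -kum R σ := by
  simp only [kum_apply, gal_smul_neg]
  abel

theorem kum_zero (σ : GQb) : kum (0 : JZero N) σ = 0 := by
  rw [kum_apply, gal_smul_zero, sub_self]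

theorem kum_nsmul (m : ℕ) (R : JZero N) (σ : GQb) : kum (m • R) σ = m • kum R σ := by
  rw [kum_apply, kum_apply, nsmul_sub, gal_smul_nsmul]

/-- compatibility with a Galois-equivariant additive map. -/
theorem kum_map (e : JZero N →+ JZero N) (he : ∀ (σ : GQb) (x : JZero N), e (σ • x) = σ • e x)
    (R : JZero N) (σ : GQb) : kum (e R) σ = e (kum R σ) := by
  rw [kum_apply, kum_apply, map_sub, he]

/-- the Kummer cocycle has values in the `n`-torsion if `n R` is rational. -/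
theorem nsmul_kum {n : ℕ} {R : JZero N} (hR : RatPt (n • R)) (σ : GQb) : n • kum R σ = 0 := by
  rw [← kum_nsmul, kum_apply, hR σ, sub_self]

/-- **injectivity of the Kummer map**: if `kum R` and `kum R'` differ by the coboundary of an
`n`-torsion class then `n R - n R' ∈ n J₀(N)(ℚ)`. -/
theorem exists_ratPt_of_cohom {n : ℕ} {R R' w : JZero N} (hw : n • w = 0)
    (h : ∀ σ : GQb, kum R σ - kum R' σ = σ • w - w) :
    ∃ Q : JZero N, RatPt Q ∧ n • R - n • R' = n • Q := by
  refine ⟨R - R' - w, fun σ => ?_, ?_⟩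
  · have h1 : kum (R - R' - w) σ = 0 := by
      rw [kum_sub, kum_sub, h σ, kum_apply, sub_self]
    exact sub_eq_zero.mp h1
  · rw [nsmul_sub, nsmul_sub, hw, sub_zero]

/-- conversely, if `n R - n R' ∈ n J₀(N)(ℚ)` the Kummer cocycles differ by the coboundary of an
`n`-torsion class. -/
theorem exists_cob_of_ratPt {n : ℕ} {R R' Q : JZero N} (hQ : RatPt Q)
    (h : n • R - n • R' = n • Q) :
    ∃ w : JZero N, n • w = 0 ∧ ∀ σ : GQb, kum R σ - kum R' σ = σ • w - w := by
  refine ⟨R - R' - Q, ?_, fun σ => ?_⟩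
  · rw [nsmul_sub, nsmul_sub, h, sub_self]
  · have h1 : kum (R - R' - Q) σ = kum R σ - kum R' σ := by
      rw [kum_sub, kum_sub, (ratPt_iff_kum_eq_zero Q).mp hQ σ, sub_zero]
    rw [← h1, kum_apply]

section Level

variable [NeZero N]

/-- `kum R` is locally constant. -/
theorem kum_isCtsCoc (R : JZero N) : IsCtsCoc (kum R) := by
  obtain ⟨L, hL, hfix⟩ := Fermat.Agent.S17W.openStab N R
  refine ⟨L, hL, fun σ τ hτ => ?_⟩
  have hτR : τ • R = R :=
    hfix τ fun a ha => (IntermediateField.mem_fixingSubgroup_iff L τ).mp hτ a ha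
  rw [kum_apply, kum_apply, mul_smul, hτR]

/-- **unramifiedness**: if `n R` is rational, `kum R` vanishes on the inertia groups at all
primes `r ∤ N n`. -/
theorem kum_unramCoc {n : ℕ} (hn : n ≠ 0) {R : JZero N} (hR : RatPt (n • R))
    (S : Set ℕ) (hS : ∀ r : ℕ, r.Prime → r ∣ N * n → r ∈ S) : UnramCoc S (kum R) := by
  intro r hr hrS A hA σ hσ
  have hrn : ¬ r ∣ N * n := fun h => hrS (hS r hr h)
  rw [kum_apply, sub_eq_zero]
  exact Fermat.Agent.S17.inertia_smul_eq_of_nsmul_fixed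
    (Fermat.Agent.GaussInt.keyLemmaAt_all N) n hn R hR r hr hrn A hA σ hσ

/-- divisibility of `J₀(N)(ℚ̄)`. -/
theorem exists_nsmul_eq {n : ℕ} (hn : 0 < n) (P : JZero N) : ∃ R : JZero N, n • R = P :=
  Fermat.Agent.Div.jZero_divisible N n hn P

/-- the Hecke operators commute with the Kummer cocycle. -/
theorem kum_hecke (ℓ : Nat.Primes) (R : JZero N) (σ : GQb) :
    kum (heckeOperatorBar N ℓ R) σ = heckeOperatorBar N ℓ (kum R σ) :=
  kum_map (heckeOperatorBar N ℓ).toAddMonoidHom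
    (fun τ x => Fermat.Agent.F3G.heckeGaloisComm N ℓ τ x) R σ

end Level

/-! ### cocycles with values in a Galois module embedded in `J₀(N)[n]` -/

/-- a Galois module `W` embedded (equivariantly) in `J₀(N)[n]`. -/
structure TorsEmb (N n : ℕ) (W : Type*) [AddCommGroup W] [DistribMulAction GQb W] where
  /-- the embedding -/
  ι : W →+ JZero N
  inj : Function.Injective ι
  smul : ∀ (σ : GQb) (w : W), ι (σ • w) = σ • ι w
  tors : ∀ w : W, n • ι w = 0

section Emb

variable {n : ℕ} {W : Type*} [AddCommGroup W] [DistribMulAction GQb W]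

/-- a cocycle with values in `W` whose image in `J₀(N)` is a cocycle. -/
theorem isCoc_of_emb (T : TorsEmb N n W) {c : GQb → W} {c' : GQb → JZero N}
    (hc : ∀ σ, T.ι (c σ) = c' σ) (h : IsCoc c') : IsCoc c := by
  intro σ τ
  apply T.inj
  rw [map_add, T.smul, hc, hc, hc]
  exact h σ τ

theorem isCtsCoc_of_emb (T : TorsEmb N n W) {c : GQb → W} {c' : GQb → JZero N}
    (hc : ∀ σ, T.ι (c σ) = c' σ) (h : IsCtsCoc c') : IsCtsCoc c := by
  obtain ⟨E, hE, hE'⟩ := h
  refine ⟨E, hE, fun σ τ hτ => T.inj ?_⟩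
  rw [hc, hc]
  exact hE' σ τ hτ

theorem unramCoc_of_emb (T : TorsEmb N n W) {c : GQb → W} {c' : GQb → JZero N}
    (hc : ∀ σ, T.ι (c σ) = c' σ) {S : Set ℕ} (h : UnramCoc S c') : UnramCoc S c := by
  intro r hr hrS A hA σ hσ
  apply T.inj
  rw [hc, map_zero]
  exact h r hr hrS A hA σ hσ

theorem cohom_of_emb (T : TorsEmb N n W) {c₁ c₂ : GQb → W} (h : Cohom c₁ c₂) :
    ∃ w : JZero N, n • w = 0 ∧ ∀ σ : GQb, T.ι (c₁ σ) - T.ι (c₂ σ) = σ • w - w := by
  obtain ⟨w, hw⟩ := h
  refine ⟨T.ι w, T.tors w, fun σ => ?_⟩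
  rw [← map_sub, hw σ, map_sub, T.smul]

variable [NeZero N]

/-- **DESC-KUM, packaged.**  Points `R i` with `n (R i)` rational, whose Kummer cocycles have
values in `W ⊆ J₀(N)[n]`, and such that the `n (R i)` are pairwise incongruent modulo
`n J₀(N)(ℚ)`, give pairwise non-cohomologous continuous cocycles with values in `W`, unramified
outside the primes dividing `N n`. -/
theorem exists_selmer_family (T : TorsEmb N n W) (hn : n ≠ 0) (S : Set ℕ)
    (hS : ∀ r : ℕ, r.Prime → r ∣ N * n → r ∈ S) (m : ℕ) (R : Fin m → JZero N)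
    (hrat : ∀ i, RatPt (n • R i)) (hval : ∀ i σ, kum (R i) σ ∈ Set.range T.ι)
    (hdist : ∀ i j, i ≠ j → ¬ ∃ Q : JZero N, RatPt Q ∧ n • R i - n • R j = n • Q) :
    ∃ c : Fin m → GQb → W, (∀ i σ, T.ι (c i σ) = kum (R i) σ) ∧ (∀ i, IsCoc (c i)) ∧
      (∀ i, IsCtsCoc (c i)) ∧ (∀ i, UnramCoc S (c i)) ∧
      ∀ i j, i ≠ j → ¬ Cohom (c i) (c j) := by
  choose c hc using hval
  refine ⟨c, hc, fun i => isCoc_of_emb T (hc i) (kum_isCoc _),
    fun i => isCtsCoc_of_emb T (hc i) (kum_isCtsCoc _),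
    fun i => unramCoc_of_emb T (hc i) (kum_unramCoc hn (hrat i) S hS), fun i j hij hco => ?_⟩
  obtain ⟨w, hw, hw'⟩ := cohom_of_emb T hco
  refine hdist i j hij (exists_ratPt_of_cohom hw fun σ => ?_)
  rw [← hc i σ, ← hc j σ]
  exact hw' σ

end Emb

end Fermat.Agent.EDesc
end
end MergeWrap_E_Desc_Kum

section MergeWrap_E_Desc_MainDefs -- from E/Desc/MainDefs.lean

set_option autoImplicit false

noncomputable section

namespace Fermat.Agent.EDesc

open ModularCurve AlgebraicCurve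

local notation "Qb" => AlgebraicClosure ℚ
local notation "GQb" => (AlgebraicClosure ℚ ≃ₐ[ℚ] AlgebraicClosure ℚ)

/-- the primes outside `S`. -/
abbrev OutPrimes (S : Finset ℕ) : Type := {r : Nat.Primes // (r : ℕ) ∉ S}

/-- the Eisenstein character `T_r ↦ 1 + r` of the free Hecke ring, modulo `l'`. -/
def eisChar (l' : ℕ) (S : Finset ℕ) : FreeAlgebra ℤ (OutPrimes S) →ₐ[ℤ] ZMod l' :=
  FreeAlgebra.lift ℤ fun r => ((1 + (r.1 : ℕ) : ℕ) : ZMod l')

variable (N : ℕ) [NeZero N]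

/-- the action of the free Hecke ring on `J₀(N)(ℚ̄)`. -/
def heckeAct (S : Finset ℕ) : FreeAlgebra ℤ (OutPrimes S) →ₐ[ℤ] Module.End ℤ (JZero N) :=
  FreeAlgebra.lift ℤ fun r => heckeOperatorBar N r.1

/-- the Eisenstein generator `η_r = T_r - (1 + r)`. -/
def eisGen (r : Nat.Primes) : JZero N →+ JZero N :=
  (heckeOperatorBar N r).toAddMonoidHom - nsmulAddMonoidHom (1 + (r : ℕ))

theorem eisGen_apply (r : Nat.Primes) (x : JZero N) :
    eisGen N r x = heckeOperatorBar N r x - (1 + (r : ℕ)) • x := rfl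

theorem eisGen_smul (r : Nat.Primes) (σ : GQb) (x : JZero N) :
    eisGen N r (σ • x) = σ • eisGen N r x := by
  rw [eisGen_apply, eisGen_apply, Fermat.Agent.F3G.heckeGaloisComm N r σ x, gal_smul_sub,
    gal_smul_nsmul]

/-- the classes killed by all products of `m` Eisenstein generators `η_r`, `r ∉ S`. -/
def eisKer (S : Finset ℕ) : ℕ → AddSubgroup (JZero N)
  | 0 => ⊥
  | m + 1 => ⨅ r : OutPrimes S, (eisKer S m).comap (eisGen N r.1)

theorem eisKer_zero (S : Finset ℕ) : eisKer N S 0 = ⊥ := rfl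

theorem mem_eisKer_succ {S : Finset ℕ} {m : ℕ} {x : JZero N} :
    x ∈ eisKer N S (m + 1) ↔ ∀ r : OutPrimes S, eisGen N r.1 x ∈ eisKer N S m := by
  show x ∈ (⨅ r : OutPrimes S, (eisKer N S m).comap (eisGen N r.1)) ↔ _
  simp only [AddSubgroup.mem_iInf, AddSubgroup.mem_comap]

theorem eisKer_mono (S : Finset ℕ) (m : ℕ) : eisKer N S m ≤ eisKer N S (m + 1) := by
  induction m with
  | zero => rw [eisKer_zero]; exact bot_le
  | succ m ih =>
    intro x hx
    rw [mem_eisKer_succ] at hx ⊢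
    exact fun r => ih (hx r)

theorem eisKer_le (S : Finset ℕ) {m m' : ℕ} (h : m ≤ m') : eisKer N S m ≤ eisKer N S m' :=
  monotone_nat_of_le_succ (eisKer_mono N S) h

theorem eisKer_smul_mem (S : Finset ℕ) (m : ℕ) (σ : GQb) {x : JZero N}
    (hx : x ∈ eisKer N S m) : σ • x ∈ eisKer N S m := by
  induction m generalizing x with
  | zero =>
    rw [eisKer_zero, AddSubgroup.mem_bot] at hx ⊢
    rw [hx, gal_smul_zero]
  | succ m ih =>
    rw [mem_eisKer_succ] at hx ⊢
    intro r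
    rw [eisGen_smul]
    exact ih (hx r)

/-- the Eisenstein part `W_k` of `J₀(N)[l'^k]`. -/
def eisTors (l' : ℕ) (S : Finset ℕ) (k : ℕ) : AddSubgroup (JZero N) where
  carrier := {x | l' ^ k • x = 0 ∧ ∃ m : ℕ, x ∈ eisKer N S m}
  zero_mem' := ⟨smul_zero _, 0, zero_mem _⟩
  add_mem' := by
    rintro x y ⟨hx, m, hm⟩ ⟨hy, m', hm'⟩
    refine ⟨by rw [nsmul_add, hx, hy, add_zero], max m m', add_mem ?_ ?_⟩
    · exact eisKer_le N S (le_max_left m m') hm
    · exact eisKer_le N S (le_max_right m m') hm'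
  neg_mem' := by
    rintro x ⟨hx, m, hm⟩
    exact ⟨by rw [neg_nsmul, hx, neg_zero], m, neg_mem hm⟩

theorem mem_eisTors {l' : ℕ} {S : Finset ℕ} {k : ℕ} {x : JZero N} :
    x ∈ eisTors N l' S k ↔ l' ^ k • x = 0 ∧ ∃ m : ℕ, x ∈ eisKer N S m := Iff.rfl

theorem eisTors_smul_mem (l' : ℕ) (S : Finset ℕ) (k : ℕ) (σ : GQb) {x : JZero N}
    (hx : x ∈ eisTors N l' S k) : σ • x ∈ eisTors N l' S k := by
  obtain ⟨hx, m, hm⟩ := hx
  exact ⟨by rw [← gal_smul_nsmul, hx, gal_smul_zero], m, eisKer_smul_mem N S m σ hm⟩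

/-- `W_k` as a type. -/
abbrev EisW (l' : ℕ) (S : Finset ℕ) (k : ℕ) : Type := ↥(eisTors N l' S k)

instance eisW_smul (l' : ℕ) (S : Finset ℕ) (k : ℕ) : SMul GQb (EisW N l' S k) :=
  ⟨fun σ w => ⟨σ • (w : JZero N), eisTors_smul_mem N l' S k σ w.2⟩⟩

@[simp] theorem eisW_coe_smul {l' : ℕ} {S : Finset ℕ} {k : ℕ} (σ : GQb) (w : EisW N l' S k) :
    ((σ • w : EisW N l' S k) : JZero N) = σ • (w : JZero N) := rfl

instance eisW_action (l' : ℕ) (S : Finset ℕ) (k : ℕ) : DistribMulAction GQb (EisW N l' S k) where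
  one_smul w := Subtype.ext (one_smul GQb (w : JZero N))
  mul_smul σ τ w := Subtype.ext (mul_smul σ τ (w : JZero N))
  smul_zero σ := Subtype.ext (gal_smul_zero σ)
  smul_add σ w w' := Subtype.ext (gal_smul_add σ (w : JZero N) (w' : JZero N))

instance eisW_finite (l' : ℕ) [Fact l'.Prime] (S : Finset ℕ) (k : ℕ) :
    Finite (EisW N l' S k) := by
  have h := Fermat.Agent.F3TF.torsionFinite N (l' ^ k) (pow_pos (Fact.out : l'.Prime).pos k)
  exact (h.subset fun x hx => hx.1).to_subtype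

/-- the embedding of `W_k` into `J₀(N)[l'^k]`. -/
def eisEmb (l' : ℕ) (S : Finset ℕ) (k : ℕ) : TorsEmb N (l' ^ k) (EisW N l' S k) where
  ι := (eisTors N l' S k).subtype
  inj := Subtype.coe_injective
  smul _ _ := rfl
  tors w := w.2.1

/-! ### the seats -/

/-- **DESC-EIS-1** (algebra): for every `k` there is `e_k` in the free Hecke ring with
`ε(e_k) = 1` which maps `J₀(N)[l'^k]` into `W_k`. -/
def EisIdem (l' : ℕ) (S : Finset ℕ) : Prop :=
  ∀ k : ℕ, ∃ e : FreeAlgebra ℤ (OutPrimes S), eisChar l' S e = 1 ∧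
    ∀ x : JZero N, l' ^ k • x = 0 → heckeAct N S e x ∈ eisTors N l' S k

/-- **DESC-EIS-2** (Eichler–Shimura + Frobenius density + DESC-JH): `W_k` has a typed chain. -/
def EisChain (l' : ℕ) (S : Finset ℕ) : Prop :=
  ∀ k : ℕ, Nonempty (TypedChain (EisW N l' S k) l')

/-- **(W)**, form for odd `l'`: at least half of the pieces of EVERY typed chain are `et`. -/
def EisOrd (l' : ℕ) (S : Finset ℕ) : Prop :=
  ∃ c : ℕ, 0 < c ∧ ∀ (k : ℕ) (C : TypedChain (EisW N l' S k) l'),
    Nat.card (EisW N l' S k) ≤ c * l' ^ (2 * C.alpha)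

/-- the flat local condition for the chain `C` of `W_k` at the place `Al`, containing the Kummer
cocycles of the points `R` with `l'^k R` rational. -/
def EisFlatAt (l' : ℕ) (S : Finset ℕ) (k : ℕ) (C : TypedChain (EisW N l' S k) l')
    (Al : ValuationSubring Qb) : Prop :=
  ∃ Flat : (GQb → EisW N l' S k) → Prop, FlatCond C Al Flat ∧
    ∀ (R : JZero N) (c : GQb → EisW N l' S k), RatPt (l' ^ k • R) →
      (∀ σ, ((c σ : EisW N l' S k) : JZero N) = kum R σ) → Flat c

/-- **(FL)**, form for odd `l'`: the flat condition exists for EVERY typed chain. -/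
def EisFlat (l' : ℕ) (S : Finset ℕ) : Prop :=
  ∀ (k : ℕ) (C : TypedChain (EisW N l' S k) l') (Al : ValuationSubring Qb),
    Al.LiesOverPrime l' → EisFlatAt N l' S k C Al

/-- **(W) + (FL)**, the form used by DESC-MAIN: SOME typed chain of `W_k` has at least half of
its pieces `et` and carries the flat condition at every place `Al` over `l'`. -/
def EisLocal (l' : ℕ) (S : Finset ℕ) : Prop :=
  ∃ c : ℕ, 0 < c ∧ ∀ k : ℕ, ∃ C : TypedChain (EisW N l' S k) l',
    Nat.card (EisW N l' S k) ≤ c * l' ^ (2 * C.alpha) ∧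
    ∀ Al : ValuationSubring Qb, Al.LiesOverPrime l' → EisFlatAt N l' S k C Al

theorem eisLocal_of {l' : ℕ} (_hl' : l'.Prime) {S : Finset ℕ} (hC : EisChain N l' S)
    (hO : EisOrd N l' S) (hF : EisFlat N l' S) : EisLocal N l' S := by
  obtain ⟨c, hc, h⟩ := hO
  refine ⟨c, hc, fun k => ?_⟩
  obtain ⟨C⟩ := hC k
  exact ⟨C, h k C, fun Al hAl => hF k C Al hAl⟩

/-! ### the route through the reduction at `l'` (needed for `l' = 2`, valid for every `l'`) -/

/-- the kernel of the reduction at `Al` on `W_k` (the "connected part" `W⁰`). -/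
def eisRedKer (l' : ℕ) (S : Finset ℕ) (k : ℕ) (Al : ValuationSubring Qb) :
    AddSubgroup (EisW N l' S k) :=
  ((reductionModL Al N).comp (eisTors N l' S k).subtype).ker

/-- **(ORD)**: the Eisenstein part is ordinary at `l'`: the kernel of the reduction is at most
"half" of `W_k`. -/
def EisOrdRed (l' : ℕ) (S : Finset ℕ) : Prop :=
  ∃ c : ℕ, 0 < c ∧ ∀ (k : ℕ) (Al : ValuationSubring Qb), Al.LiesOverPrime l' →
    Nat.card (eisRedKer N l' S k Al) ^ 2 ≤ c * Nat.card (EisW N l' S k)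

/-- local Kummer cocycles at `Al`: on the decomposition group, `c = (σ ↦ σR - R)` up to a
coboundary of `W_k`. -/
def LocKum (l' : ℕ) (S : Finset ℕ) (k : ℕ) (Al : ValuationSubring Qb)
    (c : GQb → EisW N l' S k) : Prop :=
  ∃ (R : JZero N) (w : EisW N l' S k), ∀ σ ∈ Al.decompositionSubgroup ℚ,
    ((c σ : EisW N l' S k) : JZero N) = σ • R - R + (σ • (w : JZero N) - w)

/-- a typed chain whose types are read off the reduction at `Al`:
`et i ↔ F (i+1) ∩ W⁰ ⊆ F i`. -/
def RedTyped {l' : ℕ} {S : Finset ℕ} {k : ℕ} (C : TypedChain (EisW N l' S k) l')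
    (Al : ValuationSubring Qb) : Prop :=
  ∀ i, i < C.L → (C.et i ↔ C.F (i + 1) ⊓ eisRedKer N l' S k Al ≤ C.F i)

/-- **(PEU)**: on a piece of `W_k` which meets the kernel of the reduction, the local Kummer
classes are Kummer classes of UNITS (flatness of the Kummer torsors). -/
def EisPeu (l' : ℕ) (S : Finset ℕ) : Prop :=
  ∀ (k : ℕ) (Al : ValuationSubring Qb), Al.LiesOverPrime l' →
    ∀ C : TypedChain (EisW N l' S k) l', RedTyped N C Al →
    ∀ i, i < C.L → ¬ C.et i → ∀ c : GQb → EisW N l' S k, IsCoc c → LocKum N l' S k Al c →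
      (∀ σ, c σ ∈ C.F (i + 1)) →
      ∃ a : Qb, a ∈ Al ∧ a⁻¹ ∈ Al ∧ a ≠ 0 ∧
        ∀ σ ∈ Al.decompositionSubgroup ℚ, C.ι i (c σ) * a = σ a

/-- **DESC-LOC2** (wiring, seat): for `l' = 2` every chain can be re-typed by the reduction
(`ℤ/2 = μ_2` as Galois modules), `et_unram` is automatic for local Kummer cocycles, `α` is the
index of `W⁰`. -/
def EisLocalTwoStatement : Prop :=
  ∀ S : Finset ℕ, EisChain N 2 S → EisOrdRed N 2 S → EisPeu N 2 S → EisLocal N 2 S

/-- **(T1), counting form**: the inertia at the level `N = p` fixes at least "half" of `W_k`. -/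
def EisToric (l' : ℕ) (S : Finset ℕ) : Prop :=
  ∃ c : ℕ, 0 < c ∧ ∀ (k : ℕ) (Ap : ValuationSubring Qb), Ap.LiesOverPrime N →
    Nat.card (EisW N l' S k) ≤
      c * Nat.card (fixedBy (EisW N l' S k) (Ap.inertiaSubgroupIn ℚ)) ^ 2

/-- **(K-p)**: the Kummer classes of `m J₀(N)(ℚ)` are trivial on the inertia at `N = p`
(`m` = exponent of the component group). -/
def EisKp (l' : ℕ) : Prop :=
  ∃ m : ℕ, 0 < m ∧ ∀ (k : ℕ) (P R : JZero N), RatPt P → l' ^ k • R = m • P →
    ∀ Ap : ValuationSubring Qb, Ap.LiesOverPrime N →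
      ∃ w : JZero N, l' ^ k • w = 0 ∧ ∀ σ ∈ Ap.inertiaSubgroupIn ℚ, σ • R - R = σ • w - w

/-- **DESC-MAIN**, the statement: there is `t` in the free Hecke ring, not in the Eisenstein
prime over `l'`, which maps the rational points into the torsion. -/
def EisDescentAt (l' : ℕ) (S : Finset ℕ) : Prop :=
  ∃ t : FreeAlgebra ℤ (OutPrimes S), eisChar l' S t ≠ 0 ∧
    ∀ z : JZero N, RatPt z → ∃ m : ℕ, 0 < m ∧ m • heckeAct N S t z = 0

end Fermat.Agent.EDesc
end
end MergeWrap_E_Desc_MainDefs
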