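import Mathlib
import Fermat.Agent.Lib.Kronecker.Formal
import Fermat.Agent.MU.Lib.Kronecker.ConjExp
import Fermat.Agent.MU.Lib.Kronecker.NormProd
import Fermat.Agent.MU.Lib.HeckeInputs.Qbar
import Fermat.Agent.F3.Galois.NormDesc
import Fermat.Agent.F3.Galois.HeckeComm
import Fermat.Agent.E.Desc.Defs
import Fermat.Agent.MU.E.Desc.MainDefs
import Fermat.Agent.Lib.Cyclo.ModChar
import Fermat.Agent.MU.F3.FrobDensityLiteFinal
import Fermat.Agent.MU.Lib.GaussInt.FrobPowFinal
import Fermat.Agent.MU.Lib.GaussInt.KeyAux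
import Fermat.Agent.Lib.Minkowski.InertiaLift

section MergeWrap_E_Desc_CommFormal -- from E/Desc/CommFormal.lean

set_option autoImplicit false

noncomputable section

namespace Fermat.Agent.EDesc

open ModularCurve Fermat.Agent.Kronecker

variable {R : Type*} [CommRing R]

/-- reindexing a product over the powers of a root of unity by a unit exponent. -/
theorem comm_prod_range_pow_mul {M : Type*} [CommMonoid M] (m a : ℕ) (ha : Nat.Coprime a m)
    (ζ : Rˣ) (hζ : ζ ^ m = 1) (g : Rˣ → M) :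
    ∏ b ∈ Finset.range m, g (ζ ^ (b * a)) = ∏ b ∈ Finset.range m, g (ζ ^ b) := by
  rcases Nat.eq_zero_or_pos m with hm | hm
  · subst hm
    simp
  have hmod : ∀ n : ℕ, ζ ^ n = ζ ^ (n % m) := fun n => pow_eq_pow_mod n hζ
  have hinj : Set.InjOn (fun b : ℕ => (b * a) % m) (Finset.range m : Set ℕ) := by
    intro b hb b' hb' h
    have hb1 : b < m := Finset.mem_range.mp hb
    have hb2 : b' < m := Finset.mem_range.mp hb'
    have h1 : b * a ≡ b' * a [MOD m] := h
    have h2 : b ≡ b' [MOD m] :=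
      Nat.ModEq.cancel_right_of_coprime (by rwa [Nat.coprime_comm] at ha) h1
    exact Nat.ModEq.eq_of_lt_of_lt h2 hb1 hb2
  have himg : (Finset.range m).image (fun b : ℕ => (b * a) % m) = Finset.range m := by
    apply Finset.eq_of_subset_of_card_le
    · intro x hx
      obtain ⟨b, -, rfl⟩ := Finset.mem_image.mp hx
      exact Finset.mem_range.mpr (Nat.mod_lt _ hm)
    · rw [Finset.card_image_of_injOn hinj]
  calc ∏ b ∈ Finset.range m, g (ζ ^ (b * a))
      = ∏ b ∈ Finset.range m, g (ζ ^ ((b * a) % m)) :=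
        Finset.prod_congr rfl fun b _ => by rw [← hmod]
    _ = ∏ x ∈ (Finset.range m).image (fun b : ℕ => (b * a) % m), g (ζ ^ x) :=
        (Finset.prod_image (f := fun x => g (ζ ^ x)) hinj).symm
    _ = ∏ b ∈ Finset.range m, g (ζ ^ b) := by rw [himg]

/-- `y(q^{ℓ²}) · ∏_{b<ℓ} y(ζ^b q)`. -/
def hkProd (ℓ : ℕ) [NeZero ℓ] (ζ : Rˣ) (y : LaurentSeries R) : LaurentSeries R :=
  qExpand R (ℓ * ℓ) y * ∏ b ∈ Finset.range ℓ, scaleL (ζ ^ b) y

theorem comm_qExpand_comm (m n : ℕ) [NeZero m] [NeZero n] (y : LaurentSeries R) :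
    qExpand R m (qExpand R n y) = qExpand R n (qExpand R m y) := by
  rw [qExpand_qExpand, qExpand_qExpand]
  exact qExpand_congr (mul_comm m n) y

theorem comm_scaleL_comm (z w : Rˣ) (y : LaurentSeries R) :
    scaleL z (scaleL w y) = scaleL w (scaleL z y) := by
  rw [← scaleL_mul, ← scaleL_mul, mul_comm]

/-- `∏_b (u(q^s))(ζ^b q) = (∏_b u(ζ^b q))(q^s)` for `s` prime to `r`. -/
theorem comm_prod_scaleL_qExpand (r s : ℕ) [NeZero s] (hcop : Nat.Coprime s r) (ζ : Rˣ)
    (hζ : ζ ^ r = 1) (u : LaurentSeries R) :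
    ∏ b ∈ Finset.range r, scaleL (ζ ^ b) (qExpand R s u) =
      qExpand R s (∏ b ∈ Finset.range r, scaleL (ζ ^ b) u) := by
  rw [map_prod]
  have h1 : ∀ b : ℕ, scaleL (ζ ^ b) (qExpand R s u) = qExpand R s (scaleL (ζ ^ (b * s)) u) := by
    intro b
    rw [scaleL_qExpand, ← pow_mul]
  simp_rw [h1]
  exact comm_prod_range_pow_mul r s hcop ζ hζ (fun z => qExpand R s (scaleL z u))

/-- `(hkProd r ζ u)(q^s) = hkProd r ζ (u(q^s))` for `s` prime to `r`. -/
theorem qExpand_hkProd (r s : ℕ) [NeZero r] [NeZero s] (hcop : Nat.Coprime s r) (ζ : Rˣ)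
    (hζ : ζ ^ r = 1) (u : LaurentSeries R) :
    qExpand R s (hkProd r ζ u) = hkProd r ζ (qExpand R s u) := by
  rw [hkProd, hkProd, map_mul, comm_qExpand_comm s (r * r),
    comm_prod_scaleL_qExpand r s hcop ζ hζ u]

/-- the two product operators commute. -/
theorem hkProd_comm (r s : ℕ) [NeZero r] [NeZero s] (hcop : Nat.Coprime r s) (ζ ξ : Rˣ)
    (hζ : ζ ^ r = 1) (hξ : ξ ^ s = 1) (y : LaurentSeries R) :
    hkProd r ζ (hkProd s ξ y) = hkProd s ξ (hkProd r ζ y) := by
  have hcop1 : Nat.Coprime (r * r) s := Nat.Coprime.mul_left hcop hcop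
  have hcop2 : Nat.Coprime (s * s) r := Nat.Coprime.mul_left hcop.symm hcop.symm
  have hA : qExpand R (r * r) (hkProd s ξ y) = hkProd s ξ (qExpand R (r * r) y) :=
    qExpand_hkProd s (r * r) hcop1 ξ hξ y
  have hB : qExpand R (s * s) (hkProd r ζ y) = hkProd r ζ (qExpand R (s * s) y) :=
    qExpand_hkProd r (s * s) hcop2 ζ hζ y
  have hL : hkProd r ζ (hkProd s ξ y) =
      hkProd s ξ (qExpand R (r * r) y) * ∏ b ∈ Finset.range r, scaleL (ζ ^ b) (hkProd s ξ y) := by
    rw [← hA]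
    rfl
  have hR : hkProd s ξ (hkProd r ζ y) =
      hkProd r ζ (qExpand R (s * s) y) * ∏ c ∈ Finset.range s, scaleL (ξ ^ c) (hkProd r ζ y) := by
    rw [← hB]
    rfl
  have hL2 : ∏ b ∈ Finset.range r, scaleL (ζ ^ b) (hkProd s ξ y) =
      (∏ b ∈ Finset.range r, scaleL (ζ ^ b) (qExpand R (s * s) y)) *
        ∏ b ∈ Finset.range r, ∏ c ∈ Finset.range s, scaleL (ζ ^ b) (scaleL (ξ ^ c) y) := by
    rw [← Finset.prod_mul_distrib]
    refine Finset.prod_congr rfl fun b _ => ?_
    rw [hkProd, map_mul, map_prod]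
  have hR2 : ∏ c ∈ Finset.range s, scaleL (ξ ^ c) (hkProd r ζ y) =
      (∏ c ∈ Finset.range s, scaleL (ξ ^ c) (qExpand R (r * r) y)) *
        ∏ c ∈ Finset.range s, ∏ b ∈ Finset.range r, scaleL (ξ ^ c) (scaleL (ζ ^ b) y) := by
    rw [← Finset.prod_mul_distrib]
    refine Finset.prod_congr rfl fun c _ => ?_
    rw [hkProd, map_mul, map_prod]
  have hD : ∏ b ∈ Finset.range r, ∏ c ∈ Finset.range s, scaleL (ζ ^ b) (scaleL (ξ ^ c) y) =
      ∏ c ∈ Finset.range s, ∏ b ∈ Finset.range r, scaleL (ξ ^ c) (scaleL (ζ ^ b) y) := by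
    rw [Finset.prod_comm]
    refine Finset.prod_congr rfl fun c _ => Finset.prod_congr rfl fun b _ => ?_
    exact comm_scaleL_comm _ _ y
  rw [hL, hR, hL2, hR2, hD]
  rw [hkProd, hkProd, comm_qExpand_comm (s * s) (r * r)]
  ring

/-- **Two operators satisfying the product formulas at coprime `r`, `s` commute.** -/
theorem eq_of_hkProd (r s : ℕ) [NeZero r] [NeZero s] (hcop : Nat.Coprime r s) (ζ ξ : Rˣ)
    (hζ : ζ ^ r = 1) (hξ : ξ ^ s = 1) {y a b a' b' : LaurentSeries R}
    (ha : qExpand R s a = hkProd s ξ y) (hb : qExpand R r b = hkProd r ζ a)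
    (ha' : qExpand R r a' = hkProd r ζ y) (hb' : qExpand R s b' = hkProd s ξ a') :
    b = b' := by
  have h1 : qExpand R s (qExpand R r b) = hkProd r ζ (hkProd s ξ y) := by
    rw [hb, qExpand_hkProd r s hcop.symm ζ hζ, ha]
  have h2 : qExpand R r (qExpand R s b') = hkProd s ξ (hkProd r ζ y) := by
    rw [hb', qExpand_hkProd s r hcop ξ hξ, ha']
  have h3 : qExpand R s (qExpand R r b) = qExpand R s (qExpand R r b') := by
    rw [h1, hkProd_comm r s hcop ζ ξ hζ hξ, ← h2, comm_qExpand_comm]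
  exact qExpand_injective r (qExpand_injective s h3)

end Fermat.Agent.EDesc
end
end MergeWrap_E_Desc_CommFormal

section MergeWrap_E_Desc_Comm -- from E/Desc/Comm.lean

set_option autoImplicit false
set_option linter.style.haveILetI false

noncomputable section

namespace Fermat.Agent.EDesc

open ModularCurve AlgebraicCurve Fermat.Agent.Kronecker Fermat.Agent.F3G

local notation "GQ" => (AlgebraicClosure ℚ ≃ₐ[ℚ] AlgebraicClosure ℚ)

/-- a finitely generated abelian group has no nonzero divisible element. -/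
theorem comm_eq_zero_of_divisible {M : Type*} [AddCommGroup M] [Module.Finite ℤ M] (c : M)
    (h : ∀ n : ℕ, 0 < n → ∃ z : M, n • z = c) : c = 0 := by
  have key : ∀ a : ℤ, a ≠ 0 → ∃ t : ℤ, (a * t) • c = c := by
    intro a ha
    have hmem : c ∈ (⨅ i : ℕ, (Ideal.span {a}) ^ i • (⊤ : Submodule ℤ M)) := by
      rw [Submodule.mem_iInf]
      intro i
      rw [Ideal.span_singleton_pow]
      obtain ⟨z, hz⟩ := h (a.natAbs ^ i) (pow_pos (Int.natAbs_pos.mpr ha) i)
      have hdvd : a ^ i ∣ ((a.natAbs : ℤ)) ^ i :=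
        pow_dvd_pow_of_dvd (Int.dvd_natAbs.mpr dvd_rfl) i
      obtain ⟨u, hu⟩ := hdvd
      have hc : c = (a ^ i) • (u • z) := by
        rw [← mul_smul, ← hu, ← hz, ← natCast_zsmul]
        push_cast
        rfl
      rw [hc]
      exact Submodule.smul_mem_smul (Ideal.subset_span rfl) Submodule.mem_top
    obtain ⟨r, hr⟩ := (Ideal.mem_iInf_smul_pow_eq_bot_iff (Ideal.span {a}) c).mp hmem
    obtain ⟨t, ht⟩ := Ideal.mem_span_singleton.mp r.2
    exact ⟨t, by rw [← ht]; exact hr⟩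
  obtain ⟨t, ht⟩ := key 2 two_ne_zero
  have ha : (1 - 2 * t : ℤ) • c = 0 := by rw [sub_smul, one_smul, ht, sub_self]
  have ha0 : (1 - 2 * t : ℤ) ≠ 0 := by omega
  obtain ⟨t', ht'⟩ := key (1 - 2 * t) ha0
  rw [← ht', mul_comm, mul_smul, ha, smul_zero]

variable (N : ℕ) [NeZero N]

/-- the product formula in the shape of `hkProd`. -/
theorem comm_normProduct (ℓ : ℕ) [NeZero ℓ] (hℓ : ℓ.Prime) (hℓN : ¬ ℓ ∣ N) :
    ∃ ζ : Qbˣ, ζ ^ ℓ = 1 ∧ ∀ y : ↥(modularFunctionFieldBar N),
      qExpand Qb ℓ ((heckeFun Qb N ℓ y : ↥(modularFunctionFieldBar N)) : LaurentSeries Qb) =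
        hkProd ℓ ζ (y : LaurentSeries Qb) := by
  obtain ⟨ζ, hζ, h⟩ := normProductFormula_of_conjugateExpansions N ℓ hℓ hℓN
    (conjugateExpansions N ℓ ((Nat.Prime.coprime_iff_not_dvd hℓ).mpr hℓN))
  exact ⟨ζ, hζ.pow_eq_one, h⟩

/-- **The multiplicative Hecke operators on `F_N` at good primes commute.** -/
theorem heckeFun_comm (r s : ℕ) [NeZero r] [NeZero s] (hr : r.Prime) (hs : s.Prime)
    (hrN : ¬ r ∣ N) (hsN : ¬ s ∣ N) (y : ↥(modularFunctionFieldBar N)) :
    heckeFun Qb N r (heckeFun Qb N s y) = heckeFun Qb N s (heckeFun Qb N r y) := by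
  by_cases hrs : r = s
  · subst hrs
    rfl
  have hcop : Nat.Coprime r s := (Nat.coprime_primes hr hs).mpr hrs
  obtain ⟨ζ, hζ, hR⟩ := comm_normProduct N r hr hrN
  obtain ⟨ξ, hξ, hS⟩ := comm_normProduct N s hs hsN
  apply Subtype.ext
  exact eq_of_hkProd r s hcop ζ ξ hζ hξ (hS y) (hR (heckeFun Qb N s y)) (hR y)
    (hS (heckeFun Qb N r y))

/-- **`T_r T_s x = T_s T_r x` for every torsion class `x` of `J₀(N)`**, `r, s ∤ N` primes. -/
theorem heckeOperatorBar_comm_of_torsion (r s : Nat.Primes) (hrN : ¬ (r : ℕ) ∣ N)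
    (hsN : ¬ (s : ℕ) ∣ N) {n : ℕ} (hn : n ≠ 0) {x : JZero N} (hx : n • x = 0) :
    heckeOperatorBar N r (heckeOperatorBar N s x) =
      heckeOperatorBar N s (heckeOperatorBar N r x) := by
  haveI : NeZero (r : ℕ) := ⟨r.2.ne_zero⟩
  haveI : NeZero (s : ℕ) := ⟨s.2.ne_zero⟩
  have hinr := Fermat.Agent.HeckeInputs.hi_heckeInputsAlong_Qbar N (r : ℕ)
  have hins := Fermat.Agent.HeckeInputs.hi_heckeInputsAlong_Qbar N (s : ℕ)
  have hx' : (n : ℤ) • x = 0 := by rw [natCast_zsmul]; exact hx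
  obtain ⟨D, f, hf, rfl, hD⟩ := exists_div_of_zsmul_eq_zero (n : ℤ) x hx'
  obtain ⟨Es, hEs, hEs'⟩ := heckeOperatorAlong_mk_of_zsmul_eq_div hins D (n : ℤ) hf hD
  obtain ⟨Ers, hErs, hErs'⟩ :=
    heckeOperatorAlong_mk_of_zsmul_eq_div hinr Es (n : ℤ) (heckeFun_ne_zero hins hf) hEs'
  obtain ⟨Er, hEr, hEr'⟩ := heckeOperatorAlong_mk_of_zsmul_eq_div hinr D (n : ℤ) hf hD
  obtain ⟨Esr, hEsr, hEsr'⟩ :=
    heckeOperatorAlong_mk_of_zsmul_eq_div hins Er (n : ℤ) (heckeFun_ne_zero hinr hf) hEr'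
  have hE : Ers = Esr := by
    apply Subtype.ext
    ext v
    have h1 := hErs' v
    have h2 := hEsr' v
    rw [heckeFun_comm N (r : ℕ) (s : ℕ) r.2 s.2 hrN hsN f] at h1
    have h3 : (n : ℤ) * (Ers : Divisor Qb _) v = (n : ℤ) * (Esr : Divisor Qb _) v := by
      rw [h1, h2]
    exact mul_left_cancel₀ (by exact_mod_cast hn) h3
  have e1 : heckeOperatorBar N s (Pic0.mk D) = Pic0.mk Es := hEs
  have e2 : heckeOperatorBar N r (Pic0.mk Es) = Pic0.mk Ers := hErs
  have e3 : heckeOperatorBar N r (Pic0.mk D) = Pic0.mk Er := hEr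
  have e4 : heckeOperatorBar N s (Pic0.mk Er) = Pic0.mk Esr := hEsr
  rw [e1, e2, e3, e4, hE]

/-- the commutator of two Hecke operators at good primes. -/
def heckeCommutator (r s : Nat.Primes) : Module.End ℤ (JZero N) :=
  heckeOperatorBar N r * heckeOperatorBar N s - heckeOperatorBar N s * heckeOperatorBar N r

theorem heckeCommutator_apply (r s : Nat.Primes) (x : JZero N) :
    heckeCommutator N r s x =
      heckeOperatorBar N r (heckeOperatorBar N s x) -
        heckeOperatorBar N s (heckeOperatorBar N r x) := rfl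

theorem heckeCommutator_of_torsion (r s : Nat.Primes) (hrN : ¬ (r : ℕ) ∣ N)
    (hsN : ¬ (s : ℕ) ∣ N) {n : ℕ} (hn : n ≠ 0) {x : JZero N} (hx : n • x = 0) :
    heckeCommutator N r s x = 0 := by
  rw [heckeCommutator_apply, heckeOperatorBar_comm_of_torsion N r s hrN hsN hn hx, sub_self]

theorem heckeCommutator_galois (r s : Nat.Primes) (σ : GQ) (x : JZero N) :
    heckeCommutator N r s (σ • x) = σ • heckeCommutator N r s x := by
  have hsub : ∀ a b : JZero N, σ • (a - b) = σ • a - σ • b := fun a b =>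
    map_sub (DistribSMul.toAddMonoidHom (JZero N) σ) a b
  rw [heckeCommutator_apply, heckeCommutator_apply, hsub, heckeGaloisComm N s σ x,
    heckeGaloisComm N r σ x, heckeGaloisComm N r σ, heckeGaloisComm N s σ]

/-- the commutator maps a rational point into `n J₀(N)(ℚ)` for every `n`. -/
theorem heckeCommutator_mem_nsmul_fixed (r s : Nat.Primes) (hrN : ¬ (r : ℕ) ∣ N)
    (hsN : ¬ (s : ℕ) ∣ N)
    (hdiv : ∀ n : ℕ, 0 < n → ∀ y : JZero N, ∃ w : JZero N, n • w = y)
    {x : JZero N} (hx : ∀ σ : GQ, σ • x = x) {n : ℕ} (hn : 0 < n) :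
    ∃ z : JZero N, (∀ σ : GQ, σ • z = z) ∧ n • z = heckeCommutator N r s x := by
  obtain ⟨w, hw⟩ := hdiv n hn x
  refine ⟨heckeCommutator N r s w, fun σ => ?_, ?_⟩
  · have hsub : ∀ a b : JZero N, σ • (a - b) = σ • a - σ • b := fun a b =>
      map_sub (DistribSMul.toAddMonoidHom (JZero N) σ) a b
    have hnsmul : ∀ a : JZero N, σ • (n • a) = n • (σ • a) := fun a =>
      map_nsmul (DistribSMul.toAddMonoidHom (JZero N) σ) n a
    have htor : n • (σ • w - w) = 0 := by
      rw [nsmul_sub, ← hnsmul, hw, hx σ, sub_self]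
    have h0 := heckeCommutator_of_torsion N r s hrN hsN hn.ne' htor
    rw [map_sub, sub_eq_zero] at h0
    rw [← heckeCommutator_galois, h0]
  · rw [← map_nsmul, hw]

/-- **`T_r T_s x = T_s T_r x` for every rational point `x` of `J₀(N)`**, `r, s ∤ N` primes, if
`J₀(N)(ℚ)` is finitely generated and `J₀(N)(ℚ̄)` is divisible. -/
theorem heckeOperatorBar_comm_of_fixed (r s : Nat.Primes) (hrN : ¬ (r : ℕ) ∣ N)
    (hsN : ¬ (s : ℕ) ∣ N)
    (hfg : AddGroup.FG ↥(FixedPoints.addSubgroup GQ (JZero N)))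
    (hdiv : ∀ n : ℕ, 0 < n → ∀ y : JZero N, ∃ w : JZero N, n • w = y)
    {x : JZero N} (hx : ∀ σ : GQ, σ • x = x) :
    heckeOperatorBar N r (heckeOperatorBar N s x) =
      heckeOperatorBar N s (heckeOperatorBar N r x) := by
  rw [← sub_eq_zero, ← heckeCommutator_apply]
  set M := FixedPoints.addSubgroup GQ (JZero N) with hM
  have hcM : heckeCommutator N r s x ∈ M := fun σ => by
    rw [← heckeCommutator_galois, hx σ]
  -- `c := [T_r, T_s] x` is divisible by every `n` inside the finitely generated group `M`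
  haveI : Module.Finite ℤ M := Module.Finite.iff_addGroup_fg.mpr hfg
  set c : M := ⟨heckeCommutator N r s x, hcM⟩ with hc
  have hdivc : ∀ n : ℕ, 0 < n → ∃ z : M, n • z = c := by
    intro n hn
    obtain ⟨z, hz, hnz⟩ := heckeCommutator_mem_nsmul_fixed N r s hrN hsN hdiv hx hn
    exact ⟨⟨z, hz⟩, Subtype.ext hnz⟩
  have hc0 : c = 0 := comm_eq_zero_of_divisible c hdivc
  exact congrArg Subtype.val hc0

end Fermat.Agent.EDesc
end
end MergeWrap_E_Desc_Comm

section MergeWrap_E_Desc_EisAlg -- from E/Desc/EisAlg.lean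

set_option autoImplicit false
set_option linter.style.haveILetI false

namespace Fermat.Agent.EDesc

section EisAlg

variable {F : Type*} [Ring F] {k : Type*} [Ring k] (ε : F →+* k)
  {M : Type*} [AddCommGroup M] (ρ : F →+* Module.End ℤ M)
  (G : Set F) (K : ℕ → AddSubgroup M)

/-- uniform level: a finite set meets `⋃ K m` inside one `K m₀`. -/
theorem eisAlg_uniform (hKmono : Monotone K) (U : AddSubgroup M) [Finite U] :
    ∃ m₀ : ℕ, ∀ z ∈ U, (∃ m, z ∈ K m) → z ∈ K m₀ := by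
  classical
  let f : U → ℕ := fun z => if h : ∃ m, (z : M) ∈ K m then Nat.find h else 0
  obtain ⟨m₀, hm₀⟩ := (Set.finite_range f).bddAbove
  refine ⟨m₀, fun z hz h => ?_⟩
  have h1 : f ⟨z, hz⟩ ≤ m₀ := hm₀ ⟨⟨z, hz⟩, rfl⟩
  have h2 : z ∈ K (f ⟨z, hz⟩) := by
    simp only [f, dif_pos h]
    exact Nat.find_spec h
  exact hKmono h1 h2

/-- an element outside `⋃ K m` is moved by some generator to an element outside `⋃ K m`. -/
theorem eisAlg_exists_gen (hKmono : Monotone K)
    (hKsucc : ∀ (m : ℕ) (x : M), (∀ g ∈ G, ρ g x ∈ K m) → x ∈ K (m + 1))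
    (U : AddSubgroup M) [Finite U] (hU : ∀ (a : F), ∀ x ∈ U, ρ a x ∈ U)
    {y : M} (hy : y ∈ U) (hyK : ∀ m, y ∉ K m) :
    ∃ g ∈ G, ∀ m, ρ g y ∉ K m := by
  by_contra hcon
  push Not at hcon
  obtain ⟨m₀, hm₀⟩ := eisAlg_uniform K hKmono U
  refine hyK (m₀ + 1) (hKsucc m₀ y fun g hg => ?_)
  exact hm₀ _ (hU g y hy) (hcon g hg)

/-- an element of `ker ε` with a nonzero fixed point. -/
theorem eisAlg_exists_fixed (hG : ∀ g ∈ G, ε g = 0) (hKmono : Monotone K)
    (hKsucc : ∀ (m : ℕ) (x : M), (∀ g ∈ G, ρ g x ∈ K m) → x ∈ K (m + 1))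
    (U : AddSubgroup M) [Finite U] (hU : ∀ (a : F), ∀ x ∈ U, ρ a x ∈ U)
    {x₀ : M} (hx₀ : x₀ ∈ U) (hx₀K : ∀ m, x₀ ∉ K m) :
    ∃ u : F, ε u = 0 ∧ ∃ y ∈ U, y ≠ 0 ∧ ρ u y = y := by
  classical
  -- the set of bad elements
  let Y : Type _ := {y : M // y ∈ U ∧ ∀ m, y ∉ K m}
  have hYfin : Finite Y :=
    Finite.of_injective (fun y : Y => (⟨y.1, y.2.1⟩ : U)) fun a b h => by
      apply Subtype.ext
      exact congrArg (fun z : U => (z : M)) h
  have hstep : ∀ y : Y, ∃ g ∈ G, ∀ m, ρ g y.1 ∉ K m := fun y =>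
    eisAlg_exists_gen ρ G K hKmono hKsucc U hU y.2.1 y.2.2
  choose g hgG hgK using hstep
  let φ : Y → Y := fun y => ⟨ρ (g y) y.1, hU _ _ y.2.1, hgK y⟩
  have hiter : ∀ n : ℕ, ∀ y : Y, ∃ u : F, ε u = 0 ∧ ((φ^[n + 1] y : Y) : M) = ρ u y.1 := by
    intro n
    induction n with
    | zero =>
      intro y
      exact ⟨g y, hG _ (hgG y), rfl⟩
    | succ n ih =>
      intro y
      obtain ⟨u, hu, hu'⟩ := ih (φ y)
      refine ⟨u * g y, by rw [map_mul, hu, zero_mul], ?_⟩
      rw [Function.iterate_succ_apply, hu', map_mul]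
      rfl
  let y₀ : Y := ⟨x₀, hx₀, hx₀K⟩
  obtain ⟨i, j, hij, heq⟩ := Finite.exists_ne_map_eq_of_infinite (fun n : ℕ => φ^[n] y₀)
  -- wlog `i < j`
  have key : ∀ i j : ℕ, i < j → φ^[i] y₀ = φ^[j] y₀ →
      ∃ u : F, ε u = 0 ∧ ∃ y ∈ U, y ≠ 0 ∧ ρ u y = y := by
    intro i j hij heq
    obtain ⟨d, rfl⟩ : ∃ d, j = i + (d + 1) := ⟨j - i - 1, by omega⟩
    obtain ⟨u, hu, hu'⟩ := hiter d (φ^[i] y₀)
    refine ⟨u, hu, (φ^[i] y₀).1, (φ^[i] y₀).2.1, ?_, ?_⟩
    · intro h0
      exact (φ^[i] y₀).2.2 0 (h0 ▸ (K 0).zero_mem)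
    · rw [← hu', ← Function.iterate_add_apply, add_comm (d + 1) i, ← heq]
  rcases Nat.lt_or_gt_of_ne hij with h | h
  · exact key i j h heq
  · exact key j i h heq.symm

/-- **the Eisenstein idempotent, elementary form.** -/
theorem eisAlg_exists_idem (hG : ∀ g ∈ G, ε g = 0) (hKmono : Monotone K)
    (hKsucc : ∀ (m : ℕ) (x : M), (∀ g ∈ G, ρ g x ∈ K m) → x ∈ K (m + 1))
    (V : AddSubgroup M) [Finite V] (hV : ∀ (a : F), ∀ x ∈ V, ρ a x ∈ V)
    (hcomm : ∀ (a b : F), ∀ x ∈ V, ρ a (ρ b x) = ρ b (ρ a x)) :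
    ∃ e : F, ε e = 1 ∧ ∀ x ∈ V, ∃ m, ρ e x ∈ K m := by
  classical
  have main : ∀ n : ℕ, ∀ U : AddSubgroup M, U ≤ V → (∀ (a : F), ∀ x ∈ U, ρ a x ∈ U) →
      Nat.card U ≤ n → ∃ e : F, ε e = 1 ∧ ∀ x ∈ U, ∃ m, ρ e x ∈ K m := by
    intro n
    induction n with
    | zero =>
      intro U hUV _ hcard
      haveI : Finite U := Finite.of_injective (fun x : U => (⟨x.1, hUV x.2⟩ : V))
        fun a b h => Subtype.ext (congrArg (fun z : V => (z : M)) h)
      have : 0 < Nat.card U := Nat.card_pos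
      omega
    | succ n ih =>
      intro U hUV hU hcard
      haveI : Finite U := Finite.of_injective (fun x : U => (⟨x.1, hUV x.2⟩ : V))
        fun a b h => Subtype.ext (congrArg (fun z : V => (z : M)) h)
      by_cases hall : ∀ x ∈ U, ∃ m, x ∈ K m
      · exact ⟨1, map_one ε, fun x hx => by simpa using hall x hx⟩
      · push Not at hall
        obtain ⟨x₀, hx₀, hx₀K⟩ := hall
        obtain ⟨u, hu, y, hy, hy0, huy⟩ :=
          eisAlg_exists_fixed ε ρ G K hG hKmono hKsucc U hU hx₀ hx₀K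
        let e₁ : F := 1 - u
        let U' : AddSubgroup M := U.map (ρ e₁).toAddMonoidHom
        have hU'U : U' ≤ U := by
          rintro _ ⟨x, hx, rfl⟩
          exact hU e₁ x hx
        have hU' : ∀ (a : F), ∀ x ∈ U', ρ a x ∈ U' := by
          rintro a _ ⟨x, hx, rfl⟩
          refine ⟨ρ a x, hU a x hx, ?_⟩
          exact (hcomm a e₁ x (hUV hx)).symm
        have hlt : Nat.card U' < Nat.card U := by
          let f : U → U' := fun x => ⟨ρ e₁ x.1, x.1, x.2, rfl⟩
          have hf : Function.Surjective f := by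
            rintro ⟨_, x, hx, rfl⟩
            exact ⟨⟨x, hx⟩, rfl⟩
          have hnf : ¬ Function.Injective f := by
            intro hinj
            have h1 : f ⟨y, hy⟩ = f 0 := by
              apply Subtype.ext
              show ρ e₁ y = ρ e₁ 0
              rw [map_zero]
              show ρ (1 - u) y = 0
              rw [map_sub, map_one, LinearMap.sub_apply, huy]
              simp
            have h2 := hinj h1
            exact hy0 (congrArg (fun z : U => (z : M)) h2)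
          haveI : Finite U' := Finite.of_surjective f hf
          haveI := Fintype.ofFinite U
          haveI := Fintype.ofFinite U'
          rw [Nat.card_eq_fintype_card, Nat.card_eq_fintype_card]
          exact Fintype.card_lt_of_surjective_not_injective f hf hnf
        obtain ⟨e', he', he'U⟩ := ih U' (hU'U.trans hUV) hU' (by omega)
        refine ⟨e' * e₁, ?_, fun x hx => ?_⟩
        · rw [map_mul, he', one_mul, map_sub, map_one, hu, sub_zero]
        · rw [map_mul]
          exact he'U (ρ e₁ x) ⟨x, hx, rfl⟩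
  exact main (Nat.card V) V le_rfl hV le_rfl

end EisAlg

end Fermat.Agent.EDesc
end MergeWrap_E_Desc_EisAlg

section MergeWrap_E_Desc_JH -- from E/Desc/JH.lean

/-!
# E' / Desc / JH : Jordan–Hölder chains with characters `1` and `χ`  (seat DESC-JH)

`Γ` a group, `W` a finite abelian group with a `ℤ`-linear action `ρ` of `Γ`, `l` a prime,
`χ : Γ →* (ZMod l)ˣ` a character; `jhMul χ g ∈ ℕ` is the representative `0 < c < l` of `χ g`.

* `jh_exists_eigenvector` : if `W ≠ 0` is killed by `l` and every `g` satisfies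
  `(g - 1)(g - χ g) = 0` on `W`, there is `v ≠ 0` with `g v = v` for all `g` or
  `g v = χ(g) v` for all `g`.  [`ker χ` acts through an `l`-group (unipotent of exponent `l`), so
  it has a nonzero fixed vector; `Γ / ker χ` is cyclic of order prime to `l`.]
* `JHBuild ρ χ B` : the `Γ`-stable subgroup `B` is reached from `0` by steps `B ⊂ B'` with
  `B' / B` cyclic of order `l` on which `Γ` acts trivially (`τ = false`) or through `χ`
  (`τ = true`).
* `jh_build_top` : if `W` has a `Γ`-stable filtration `W = W₀ ⊇ W₁ ⊇ … ⊇ W_m = 0` whose graded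
  pieces are killed by `l` and by `(g - 1)(g - χ g)` for all `g`, then `JHBuild ρ χ ⊤`.
-/

set_option autoImplicit false

namespace Fermat.Agent.EDesc

variable {Γ : Type*} [Group Γ]

/-- The representative `0 ≤ c < l` of `χ g`. -/
def jhMul {l : ℕ} (χ : Γ →* (ZMod l)ˣ) (g : Γ) : ℕ := ((χ g : (ZMod l)ˣ) : ZMod l).val

section Basic

variable {l : ℕ} [Fact l.Prime] (χ : Γ →* (ZMod l)ˣ)

theorem jhMul_of_mem_ker {h : Γ} (hh : h ∈ χ.ker) : jhMul χ h = 1 := by
  have hl : 1 < l := (Fact.out : l.Prime).one_lt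
  have : Fact (1 < l) := ⟨hl⟩
  unfold jhMul
  rw [MonoidHom.mem_ker.1 hh, Units.val_one, ZMod.val_one]

theorem jhMul_lt (g : Γ) : jhMul χ g < l := by
  have : NeZero l := ⟨(Fact.out : l.Prime).ne_zero⟩
  exact ZMod.val_lt _

theorem jhMul_cast (g : Γ) : ((jhMul χ g : ℕ) : ZMod l) = ((χ g : (ZMod l)ˣ) : ZMod l) := by
  have : NeZero l := ⟨(Fact.out : l.Prime).ne_zero⟩
  exact ZMod.natCast_zmod_val _

theorem jhMul_pos (g : Γ) : 0 < jhMul χ g := by
  have : NeZero l := ⟨(Fact.out : l.Prime).ne_zero⟩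
  rw [Nat.pos_iff_ne_zero]
  intro h
  have h2 := jhMul_cast χ g
  rw [h, Nat.cast_zero] at h2
  exact (χ g).ne_zero h2.symm

/-- `n • x` depends only on `n` modulo `l` when `l • x = 0`. -/
theorem jh_nsmul_congr {W : Type*} [AddCommGroup W] {x : W} (hx : l • x = 0) {a b : ℕ}
    (hab : (a : ZMod l) = (b : ZMod l)) : a • x = b • x := by
  rw [ZMod.natCast_eq_natCast_iff] at hab
  have h1 : ∀ n : ℕ, n • x = (n % l) • x := by
    intro n
    conv_lhs => rw [← Nat.div_add_mod n l]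
    rw [add_smul, mul_comm, mul_smul, hx, smul_zero, zero_add]
  rw [h1 a, h1 b, hab]

end Basic

section Eigen

variable {W : Type*} [AddCommGroup W] {l : ℕ} [Fact l.Prime]
  (ρ : Representation ℤ Γ W) (χ : Γ →* (ZMod l)ˣ)

/-- the powers of a unipotent element -/
theorem jh_pow_apply {h : Γ} (hq : ∀ x, ρ h (ρ h x) + x = 2 • ρ h x) (k : ℕ) (x : W) :
    ρ (h ^ k) x = x + k • (ρ h x - x) := by
  have hN : ∀ x, ρ h (ρ h x) - ρ h x = ρ h x - x := by
    intro x
    have := hq x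
    rw [two_nsmul] at this
    rw [sub_eq_sub_iff_add_eq_add]
    exact this
  induction k generalizing x with
  | zero => simp
  | succ k ih =>
    rw [pow_succ, map_mul, Module.End.mul_apply, ih (ρ h x), hN, succ_nsmul]
    abel

/-- The permutation representation attached to `ρ`. -/
def jhPerm : Γ →* Equiv.Perm W where
  toFun g :=
    { toFun := ρ g
      invFun := ρ g⁻¹
      left_inv := fun x => by
        rw [← Module.End.mul_apply, ← map_mul, inv_mul_cancel, map_one, Module.End.one_apply]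
      right_inv := fun x => by
        rw [← Module.End.mul_apply, ← map_mul, mul_inv_cancel, map_one, Module.End.one_apply] }
  map_one' := by
    ext x
    simp
  map_mul' g h := by
    ext x
    simp

@[simp] theorem jhPerm_apply (g : Γ) (x : W) : jhPerm ρ g x = ρ g x := rfl

/-- `ker χ` has a nonzero fixed vector. -/
theorem jh_exists_fixed_ker [Finite W] [Nontrivial W] (hl : ∀ x : W, l • x = 0)
    (hq : ∀ g x, ρ g (ρ g x) + jhMul χ g • x = (1 + jhMul χ g) • ρ g x) :
    ∃ b : W, b ≠ 0 ∧ ∀ h ∈ χ.ker, ρ h b = b := by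
  classical
  have hlp : l.Prime := Fact.out
  set P : Subgroup (Equiv.Perm W) := ((jhPerm ρ).comp χ.ker.subtype).range with hP
  have hpow : ∀ h ∈ χ.ker, ∀ x, ρ (h ^ l) x = x := by
    intro h hh x
    have hq' : ∀ x, ρ h (ρ h x) + x = 2 • ρ h x := by
      intro x
      have := hq h x
      rw [jhMul_of_mem_ker χ hh, one_smul] at this
      exact this
    rw [jh_pow_apply ρ hq' l x, hl, add_zero]
  have hPG : IsPGroup l P := by
    rintro ⟨σ, h, rfl⟩
    refine ⟨1, ?_⟩
    apply Subtype.ext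
    rw [pow_one]
    show (((jhPerm ρ).comp χ.ker.subtype) h) ^ l = 1
    rw [← map_pow]
    ext x
    show ρ ((h : Γ) ^ l) x = x
    exact hpow h h.2 x
  have hcard : l ∣ Nat.card W := by
    have hW : IsPGroup l (Multiplicative W) := by
      intro x
      refine ⟨1, ?_⟩
      rw [pow_one]
      exact congrArg Multiplicative.ofAdd (hl (Multiplicative.toAdd x))
    obtain ⟨n, hn⟩ := IsPGroup.iff_card.1 hW
    have hn' : Nat.card W = l ^ n := by
      rw [← hn]
      exact (Nat.card_congr Multiplicative.ofAdd).symm ▸ rfl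
    rw [hn']
    have : n ≠ 0 := by
      rintro rfl
      rw [pow_zero] at hn'
      have := Finite.one_lt_card (α := W)
      omega
    exact dvd_pow_self l this
  have h0 : (0 : W) ∈ MulAction.fixedPoints P W := by
    rintro ⟨σ, h, rfl⟩
    show ρ (h : Γ) 0 = 0
    exact map_zero _
  obtain ⟨b, hb, hb0⟩ := hPG.exists_fixed_point_of_prime_dvd_card_of_fixed_point W hcard h0
  refine ⟨b, fun h => hb0 h.symm, fun h hh => ?_⟩
  exact hb ⟨_, ⟨⟨h, hh⟩, rfl⟩⟩

/-- The fixed vectors of `ker χ` are stable under `Γ`. -/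
theorem jh_fixed_ker_stable {b : W} (hb : ∀ h ∈ χ.ker, ρ h b = b) (g : Γ) :
    ∀ h ∈ χ.ker, ρ h (ρ g b) = ρ g b := by
  intro h hh
  have hn : g⁻¹ * h * g ∈ χ.ker := by
    have := (inferInstance : χ.ker.Normal).conj_mem h hh g⁻¹
    simpa using this
  have h1 := hb _ hn
  calc ρ h (ρ g b) = ρ (g * (g⁻¹ * h * g)) b := by
        rw [← Module.End.mul_apply, ← map_mul]
        congr 2
        group
    _ = ρ g (ρ (g⁻¹ * h * g) b) := by rw [map_mul, Module.End.mul_apply]
    _ = ρ g b := by rw [h1]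

/-- The image of `χ` is cyclic. -/
theorem jh_exists_generator : ∃ g₀ : Γ, ∀ g : Γ, ∃ k : ℕ, χ g = χ g₀ ^ k := by
  have : NeZero l := ⟨(Fact.out : l.Prime).ne_zero⟩
  have hc : IsCyclic χ.range := inferInstance
  obtain ⟨⟨u, g₀, rfl⟩, hu⟩ := hc.exists_generator
  refine ⟨g₀, fun g => ?_⟩
  have hmem := hu ⟨χ g, g, rfl⟩
  rw [← (isOfFinOrder_of_finite (⟨χ g₀, g₀, rfl⟩ : χ.range)).mem_powers_iff_mem_zpowers,
    Submonoid.mem_powers_iff] at hmem
  obtain ⟨k, hk⟩ := hmem
  refine ⟨k, ?_⟩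
  have := congrArg Subtype.val hk
  simpa using this.symm

/-- **Eigenvector lemma.**  If `W ≠ 0` is finite, killed by `l`, and every `g` satisfies
`(g - 1)(g - χ g) = 0`, there is a nonzero vector on which `Γ` acts trivially or through `χ`. -/
theorem jh_exists_eigenvector [Finite W] [Nontrivial W] (hl : ∀ x : W, l • x = 0)
    (hq : ∀ g x, ρ g (ρ g x) + jhMul χ g • x = (1 + jhMul χ g) • ρ g x) :
    ∃ v : W, v ≠ 0 ∧ ((∀ g, ρ g v = v) ∨ (∀ g, ρ g v = jhMul χ g • v)) := by
  have hlp : l.Prime := Fact.out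
  have : NeZero l := ⟨hlp.ne_zero⟩
  obtain ⟨b, hb0, hb⟩ := jh_exists_fixed_ker ρ χ hl hq
  obtain ⟨g₀, hg₀⟩ := jh_exists_generator χ
  -- decomposition of an arbitrary element
  have hdec : ∀ g : Γ, ∃ k : ℕ, (g₀ ^ k)⁻¹ * g ∈ χ.ker := by
    intro g
    obtain ⟨k, hk⟩ := hg₀ g
    refine ⟨k, ?_⟩
    rw [MonoidHom.mem_ker, map_mul, map_inv, map_pow, hk, inv_mul_cancel]
  have hact : ∀ y : W, (∀ h ∈ χ.ker, ρ h y = y) → ∀ g : Γ, ∃ k : ℕ,
      χ g = χ g₀ ^ k ∧ ρ g y = ρ (g₀ ^ k) y := by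
    intro y hy g
    obtain ⟨k, hk⟩ := hg₀ g
    refine ⟨k, hk, ?_⟩
    have hmem : (g₀ ^ k)⁻¹ * g ∈ χ.ker := by
      rw [MonoidHom.mem_ker, map_mul, map_inv, map_pow, hk, inv_mul_cancel]
    have h1 := hy _ hmem
    calc ρ g y = ρ (g₀ ^ k * ((g₀ ^ k)⁻¹ * g)) y := by
          congr 2
          group
      _ = ρ (g₀ ^ k) (ρ ((g₀ ^ k)⁻¹ * g) y) := by rw [map_mul, Module.End.mul_apply]
      _ = ρ (g₀ ^ k) y := by rw [h1]
  set c₀ := jhMul χ g₀ with hc₀
  have hq₀ := hq g₀
  -- the two projections of `b`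
  set y₁ : W := ρ g₀ b - c₀ • b with hy₁
  set y₂ : W := ρ g₀ b - b with hy₂
  have hfix₁ : ∀ h ∈ χ.ker, ρ h y₁ = y₁ := by
    intro h hh
    rw [hy₁, map_sub, map_nsmul, jh_fixed_ker_stable ρ χ hb g₀ h hh, hb h hh]
  have hfix₂ : ∀ h ∈ χ.ker, ρ h y₂ = y₂ := by
    intro h hh
    rw [hy₂, map_sub, jh_fixed_ker_stable ρ χ hb g₀ h hh, hb h hh]
  have he₁ : ρ g₀ y₁ = y₁ := by
    have := hq₀ b
    rw [hy₁, map_sub, map_nsmul]
    rw [add_smul, one_smul] at this
    rw [sub_eq_sub_iff_add_eq_add]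
    exact this
  have he₂ : ρ g₀ y₂ = c₀ • y₂ := by
    have := hq₀ b
    rw [hy₂, map_sub, smul_sub]
    rw [add_smul, one_smul] at this
    rw [sub_eq_sub_iff_add_eq_add, this]
    abel
  have hpow₁ : ∀ k : ℕ, ρ (g₀ ^ k) y₁ = y₁ := by
    intro k
    induction k with
    | zero => simp
    | succ k ih => rw [pow_succ, map_mul, Module.End.mul_apply, he₁, ih]
  have hpow₂ : ∀ k : ℕ, ρ (g₀ ^ k) y₂ = c₀ ^ k • y₂ := by
    intro k
    induction k with
    | zero => simp
    | succ k ih =>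
      rw [pow_succ, map_mul, Module.End.mul_apply, he₂, map_nsmul, ih, ← mul_smul, mul_comm,
        ← pow_succ]
  by_cases h1 : y₁ = 0
  · by_cases h2 : y₂ = 0
    · -- then `χ g₀ = 1` or `b = 0`
      have hb1 : ρ g₀ b = b := sub_eq_zero.1 h2
      have hb2 : c₀ • b = b := by
        have := sub_eq_zero.1 h1
        rw [← this, hb1]
      by_cases hc1 : c₀ = 1
      · -- `χ` is trivial
        have hχ₀ : χ g₀ = 1 := by
          apply Units.ext
          rw [← jhMul_cast χ g₀, ← hc₀, hc1, Nat.cast_one, Units.val_one]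
        refine ⟨b, hb0, Or.inl fun g => ?_⟩
        apply hb
        obtain ⟨k, hk⟩ := hg₀ g
        rw [MonoidHom.mem_ker, hk, hχ₀, one_pow]
      · exfalso
        -- `(c₀ - 1) • b = 0` with `c₀ - 1` prime to `l`
        have hpos : 0 < c₀ := jhMul_pos χ g₀
        have hlt : c₀ < l := jhMul_lt χ g₀
        have hcop : Nat.Coprime (c₀ - 1) l := by
          apply Nat.Coprime.symm
          rw [hlp.coprime_iff_not_dvd]
          intro hdvd
          have := Nat.le_of_dvd (by omega) hdvd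
          omega
        have h3 : (c₀ - 1) • b = 0 := by
          have : c₀ • b = (c₀ - 1) • b + b := by
            conv_lhs => rw [show c₀ = (c₀ - 1) + 1 by omega]
            rw [add_smul, one_smul]
          rw [this] at hb2
          simpa using hb2
        obtain ⟨u, v, huv⟩ : ∃ u v : ℤ, u * ((c₀ - 1 : ℕ) : ℤ) + v * (l : ℤ) = 1 := by
          have := Nat.Coprime.isCoprime hcop
          obtain ⟨u, v, h⟩ := this
          exact ⟨u, v, h⟩
        apply hb0
        have : (1 : ℤ) • b = 0 := by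
          rw [← huv, add_smul, mul_smul, mul_smul, natCast_zsmul, natCast_zsmul, h3, hl,
            smul_zero, smul_zero, add_zero]
        simpa using this
    · refine ⟨y₂, h2, Or.inr fun g => ?_⟩
      obtain ⟨k, hk, hρ⟩ := hact y₂ hfix₂ g
      rw [hρ, hpow₂ k]
      apply jh_nsmul_congr (hl y₂)
      rw [Nat.cast_pow, jhMul_cast, jhMul_cast, hk, Units.val_pow_eq_pow_val]
  · refine ⟨y₁, h1, Or.inl fun g => ?_⟩
    obtain ⟨k, -, hρ⟩ := hact y₁ hfix₁ g
    rw [hρ, hpow₁ k]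

end Eigen

section Chain

variable {l : ℕ}

/-- One step of a Jordan–Hölder chain: `B ≤ B'`, `B'` is stable, `B' / B` is cyclic of order `l`
and `Γ` acts on it trivially (`τ = false`) or through `χ` (`τ = true`). -/
structure JHStep {W : Type*} [AddCommGroup W] (ρ : Representation ℤ Γ W) (χ : Γ →* (ZMod l)ˣ)
    (τ : Bool) (B B' : Submodule ℤ W) : Prop where
  le : B ≤ B'
  stable : ∀ g, ∀ x ∈ B', ρ g x ∈ B'
  gen : ∃ v ∈ B', v ∉ B ∧ l • v ∈ B ∧ ∀ x ∈ B', ∃ k : ℕ, x - k • v ∈ B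
  char : ∀ g, ∀ x ∈ B', ρ g x - (if τ then jhMul χ g else 1) • x ∈ B

/-- `B` is reached from `0` by Jordan–Hölder steps. -/
inductive JHBuild {W : Type*} [AddCommGroup W] (ρ : Representation ℤ Γ W)
    (χ : Γ →* (ZMod l)ˣ) : Submodule ℤ W → Prop
  | bot : JHBuild ρ χ ⊥
  | step {B B' : Submodule ℤ W} (τ : Bool) : JHBuild ρ χ B → JHStep ρ χ τ B B' → JHBuild ρ χ B'

variable {W : Type*} [AddCommGroup W] (ρ : Representation ℤ Γ W) (χ : Γ →* (ZMod l)ˣ)

/-- The first step: the line spanned by an eigenvector. -/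
theorem jh_step_span [Fact l.Prime] {v : W} (hv0 : v ≠ 0) (hlv : l • v = 0) (τ : Bool)
    (hv : ∀ g, ρ g v = (if τ then jhMul χ g else 1) • v) :
    JHStep ρ χ τ ⊥ (Submodule.span ℤ {v}) := by
  have hl0 : l ≠ 0 := (Fact.out : l.Prime).ne_zero
  have hmem : ∀ x ∈ Submodule.span ℤ {v}, ∃ z : ℤ, x = z • v := by
    intro x hx
    obtain ⟨z, rfl⟩ := Submodule.mem_span_singleton.1 hx
    exact ⟨z, rfl⟩
  refine ⟨bot_le, fun g x hx => ?_, ⟨v, Submodule.mem_span_singleton_self v, ?_, ?_, ?_⟩,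
    fun g x hx => ?_⟩
  · obtain ⟨z, rfl⟩ := hmem x hx
    rw [map_zsmul, hv g]
    exact Submodule.smul_mem _ _ (Submodule.smul_of_tower_mem _ _
      (Submodule.mem_span_singleton_self v))
  · simpa using hv0
  · rw [hlv]; exact Submodule.zero_mem _
  · intro x hx
    obtain ⟨z, rfl⟩ := hmem x hx
    refine ⟨(z % (l : ℤ)).toNat, ?_⟩
    have hlpos : (0 : ℤ) < l := by exact_mod_cast Nat.pos_of_ne_zero hl0
    have h1 : ((z % (l : ℤ)).toNat : ℤ) = z % l :=
      Int.toNat_of_nonneg (Int.emod_nonneg _ hlpos.ne')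
    have h2 : z • v = (z % (l : ℤ)) • v := by
      conv_lhs => rw [← Int.mul_ediv_add_emod z l]
      rw [add_smul, mul_comm, mul_smul, natCast_zsmul, hlv, smul_zero, zero_add]
    rw [Submodule.mem_bot, sub_eq_zero, h2]
    conv_lhs => rw [← h1]
    rw [natCast_zsmul]
  · obtain ⟨z, rfl⟩ := hmem x hx
    rw [Submodule.mem_bot, sub_eq_zero, map_zsmul, hv g, smul_comm]

/-- Pull back a step along the quotient map by a stable submodule. -/
theorem jh_step_comap (L : Submodule ℤ W) (hL : ∀ g, L ≤ L.comap (ρ g)) {τ : Bool}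
    {B B' : Submodule ℤ (W ⧸ L)} (h : JHStep (ρ.quotient L hL) χ τ B B') :
    JHStep ρ χ τ (B.comap L.mkQ) (B'.comap L.mkQ) := by
  obtain ⟨hle, hst, ⟨v, hvB', hvB, hlv, hgen⟩, hch⟩ := h
  obtain ⟨w, rfl⟩ := L.mkQ_surjective v
  refine ⟨Submodule.comap_mono hle, fun g x hx => ?_, ⟨w, hvB', hvB, ?_, fun x hx => ?_⟩,
    fun g x hx => ?_⟩
  · have := hst g _ hx
    exact this
  · rw [Submodule.mem_comap, map_nsmul]
    exact hlv
  · obtain ⟨k, hk⟩ := hgen _ hx
    refine ⟨k, ?_⟩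
    rw [Submodule.mem_comap, map_sub, map_nsmul]
    exact hk
  · have := hch g _ hx
    rw [Submodule.mem_comap, map_sub, map_nsmul]
    exact this

/-- Pull back a chain along the quotient map by the line of an eigenvector. -/
theorem jh_build_comap [Fact l.Prime] {v : W} (hv0 : v ≠ 0) (hlv : l • v = 0) (τ : Bool)
    (hv : ∀ g, ρ g v = (if τ then jhMul χ g else 1) • v)
    (hL : ∀ g, Submodule.span ℤ {v} ≤ (Submodule.span ℤ {v}).comap (ρ g))
    {B : Submodule ℤ (W ⧸ Submodule.span ℤ {v})}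
    (h : JHBuild (ρ.quotient (Submodule.span ℤ {v}) hL) χ B) :
    JHBuild ρ χ (B.comap (Submodule.span ℤ {v}).mkQ) := by
  induction h with
  | bot =>
    have : (⊥ : Submodule ℤ (W ⧸ Submodule.span ℤ {v})).comap (Submodule.span ℤ {v}).mkQ =
        Submodule.span ℤ {v} := by
      rw [Submodule.comap_bot, Submodule.ker_mkQ]
    rw [this]
    exact JHBuild.step τ JHBuild.bot (jh_step_span ρ χ hv0 hlv τ hv)
  | step τ' _ hstep ih => exact JHBuild.step τ' ih (jh_step_comap ρ χ _ hL hstep)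

end Chain

section Main

universe u

variable {l : ℕ} [Fact l.Prime] (χ : Γ →* (ZMod l)ˣ)

theorem jh_build_top_aux (n : ℕ) :
    ∀ (W : Type u) [AddCommGroup W] [Finite W] (ρ : Representation ℤ Γ W) (m : ℕ)
      (Wf : ℕ → Submodule ℤ W), Nat.card W = n → Wf 0 = ⊤ → Wf m = ⊥ →
      (∀ i g, ∀ x ∈ Wf i, ρ g x ∈ Wf i) →
      (∀ i, ∀ x ∈ Wf i, l • x ∈ Wf (i + 1)) →
      (∀ i g, ∀ x ∈ Wf i,
        ρ g (ρ g x) + jhMul χ g • x - (1 + jhMul χ g) • ρ g x ∈ Wf (i + 1)) →
      JHBuild ρ χ ⊤ := by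
  induction n using Nat.strong_induction_on with
  | _ n ih =>
    intro W _ _ ρ m Wf hcard h0 hm hstab hl hq
    classical
    by_cases hsub : Subsingleton W
    · have : (⊤ : Submodule ℤ W) = ⊥ := Subsingleton.elim _ _
      rw [this]
      exact JHBuild.bot
    · rw [not_subsingleton_iff_nontrivial] at hsub
      have hex : ∃ j, Wf j = ⊥ := ⟨m, hm⟩
      have hj₀ : Wf (Nat.find hex) = ⊥ := Nat.find_spec hex
      have hj₀pos : Nat.find hex ≠ 0 := by
        intro h
        rw [h, h0] at hj₀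
        exact top_ne_bot hj₀
      obtain ⟨i, hi⟩ := Nat.exists_eq_succ_of_ne_zero hj₀pos
      have hVne : Wf i ≠ ⊥ := Nat.find_min hex (by omega)
      have hVnext : Wf (i + 1) = ⊥ := by
        rw [← Nat.succ_eq_add_one, ← hi]
        exact hj₀
      have hVstab : ∀ g, Wf i ≤ (Wf i).comap (ρ g) := fun g x hx => hstab i g x hx
      have : Nontrivial (Wf i) := (Submodule.nontrivial_iff_ne_bot).2 hVne
      have hlV : ∀ x : Wf i, l • x = 0 := by
        intro x
        apply Subtype.ext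
        have := hl i x x.2
        rw [hVnext, Submodule.mem_bot] at this
        simpa using this
      have hqV : ∀ g (x : Wf i), ρ.subrepresentation (Wf i) hVstab g
          (ρ.subrepresentation (Wf i) hVstab g x) + jhMul χ g • x =
          (1 + jhMul χ g) • ρ.subrepresentation (Wf i) hVstab g x := by
        intro g x
        apply Subtype.ext
        have := hq i g x x.2
        rw [hVnext, Submodule.mem_bot, sub_eq_zero] at this
        simpa using this
      obtain ⟨v, hv0, hv⟩ := jh_exists_eigenvector (ρ.subrepresentation (Wf i) hVstab) χ hlV hqV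
      have hv0' : (v : W) ≠ 0 := fun h => hv0 (Subtype.ext h)
      have hlv' : l • (v : W) = 0 := by
        have := congrArg Subtype.val (hlV v)
        simpa using this
      obtain ⟨τ, hτ⟩ : ∃ τ : Bool, ∀ g, ρ g (v : W) = (if τ then jhMul χ g else 1) • (v : W) := by
        rcases hv with h | h
        · refine ⟨false, fun g => ?_⟩
          have := congrArg Subtype.val (h g)
          simpa using this
        · refine ⟨true, fun g => ?_⟩
          have := congrArg Subtype.val (h g)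
          simpa using this
      have hL : ∀ g, Submodule.span ℤ {(v : W)} ≤ (Submodule.span ℤ {(v : W)}).comap (ρ g) :=
        (jh_step_span ρ χ hv0' hlv' τ hτ).stable
      -- the quotient
      have hfin : Finite (W ⧸ Submodule.span ℤ {(v : W)}) :=
        Finite.of_surjective _ (Submodule.span ℤ {(v : W)}).mkQ_surjective
      have hcardlt : Nat.card (W ⧸ Submodule.span ℤ {(v : W)}) < n := by
        have h1 := Submodule.card_eq_card_quotient_mul_card (Submodule.span ℤ {(v : W)})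
        rw [hcard] at h1
        have h2 : 1 < Nat.card (Submodule.span ℤ {(v : W)}) := by
          have : Nontrivial (Submodule.span ℤ {(v : W)}) :=
            (Submodule.nontrivial_iff_ne_bot).2 (by
              intro h
              apply hv0'
              have := Submodule.mem_span_singleton_self (R := ℤ) (v : W)
              rw [h, Submodule.mem_bot] at this
              exact this)
          exact Finite.one_lt_card
        have h3 : 0 < Nat.card (W ⧸ Submodule.span ℤ {(v : W)}) := Nat.card_pos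
        rw [h1]
        nlinarith
      have key := ih _ hcardlt (W ⧸ Submodule.span ℤ {(v : W)})
        (ρ.quotient (Submodule.span ℤ {(v : W)}) hL) m
        (fun j => (Wf j).map (Submodule.span ℤ {(v : W)}).mkQ) rfl
        (by
          show (Wf 0).map _ = ⊤
          rw [h0, Submodule.map_top, Submodule.range_mkQ])
        (by
          show (Wf m).map _ = ⊥
          rw [hm, Submodule.map_bot])
        (by
          rintro j g _ ⟨x, hx, rfl⟩
          exact ⟨ρ g x, hstab j g x hx, rfl⟩)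
        (by
          rintro j _ ⟨x, hx, rfl⟩
          exact ⟨l • x, hl j x hx, by simp⟩)
        (by
          rintro j g _ ⟨x, hx, rfl⟩
          exact ⟨_, hq j g x hx, by simp⟩)
      have := jh_build_comap ρ χ hv0' hlv' τ hτ hL key
      rwa [Submodule.comap_top] at this

/-- **DESC-JH.**  If the finite abelian group `W` has a `Γ`-stable filtration
`W = W₀ ⊇ W₁ ⊇ … ⊇ W_m = 0` whose graded pieces are killed by `l` and by `(g - 1)(g - χ g)` for
every `g`, then `W` has a Jordan–Hölder chain with pieces of order `l` and characters `1`, `χ`. -/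
theorem jh_build_top {W : Type u} [AddCommGroup W] [Finite W] (ρ : Representation ℤ Γ W) (m : ℕ)
    (Wf : ℕ → Submodule ℤ W) (h0 : Wf 0 = ⊤) (hm : Wf m = ⊥)
    (hstab : ∀ i g, ∀ x ∈ Wf i, ρ g x ∈ Wf i)
    (hl : ∀ i, ∀ x ∈ Wf i, l • x ∈ Wf (i + 1))
    (hq : ∀ i g, ∀ x ∈ Wf i,
      ρ g (ρ g x) + jhMul χ g • x - (1 + jhMul χ g) • ρ g x ∈ Wf (i + 1)) :
    JHBuild ρ χ ⊤ :=
  jh_build_top_aux χ _ W ρ m Wf rfl h0 hm hstab hl hq

/-- **DESC-JH, vector space form** (blueprint 2.5): `W` killed by `l`, every `g` satisfies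
`(g - 1)(g - χ g) = 0`. -/
theorem jh_build_top_of_killed {W : Type u} [AddCommGroup W] [Finite W]
    (ρ : Representation ℤ Γ W) (hl : ∀ x : W, l • x = 0)
    (hq : ∀ g x, ρ g (ρ g x) + jhMul χ g • x = (1 + jhMul χ g) • ρ g x) :
    JHBuild ρ χ ⊤ := by
  refine jh_build_top χ ρ 1 (fun j => if j = 0 then ⊤ else ⊥) rfl rfl ?_ ?_ ?_
  · intro i g x hx
    by_cases hi : i = 0
    · simp [hi]
    · simp only [hi, if_false, Submodule.mem_bot] at hx ⊢
      rw [hx, map_zero]
  · intro i x _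
    simp [hl x]
  · intro i g x _
    simp [hq g x]

end Main

section Indexed

variable {l : ℕ} {W : Type*} [AddCommGroup W] (ρ : Representation ℤ Γ W) (χ : Γ →* (ZMod l)ˣ)

/-- A chain in indexed form: `F 0 = 0`, `F L = B`, and `F i ⊂ F (i+1)` is a Jordan–Hölder step of
type `τ i` for `i < L`. -/
theorem JHBuild.exists_indexed {B : Submodule ℤ W} (h : JHBuild ρ χ B) :
    ∃ (L : ℕ) (F : ℕ → Submodule ℤ W) (τ : ℕ → Bool), F 0 = ⊥ ∧ F L = B ∧
      ∀ i < L, JHStep ρ χ (τ i) (F i) (F (i + 1)) := by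
  induction h with
  | bot => exact ⟨0, fun _ => ⊥, fun _ => false, rfl, rfl, fun i hi => absurd hi (Nat.not_lt_zero i)⟩
  | @step B B' τ₀ _ hstep ih =>
    obtain ⟨L, F, τ, hF0, hFL, hF⟩ := ih
    refine ⟨L + 1, fun i => if i ≤ L then F i else B', fun i => if i < L then τ i else τ₀,
      ?_, ?_, ?_⟩
    · simp [hF0]
    · simp
    · intro i hi
      by_cases hiL : i < L
      · have h1 : i ≤ L := hiL.le
        have h2 : i + 1 ≤ L := hiL
        simp only [h1, h2, hiL, if_true]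
        exact hF i hiL
      · have hiL' : i = L := by omega
        subst hiL'
        simp only [le_refl, if_true, lt_irrefl, if_false, Nat.not_succ_le_self]
        rw [hFL]
        exact hstep

end Indexed

end Fermat.Agent.EDesc
end MergeWrap_E_Desc_JH

section MergeWrap_E_Desc_EisPow -- from E/Desc/EisPow.lean

set_option autoImplicit false

namespace Fermat.Agent.EDesc

section Pow

variable {W : Type*} [AddCommGroup W]

/-- the endomorphisms preserving a subgroup. -/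
def eisStab (P : AddSubgroup W) : Subring (Module.End ℤ W) where
  carrier := {f | ∀ y ∈ P, f y ∈ P}
  mul_mem' := fun hf hg y hy => hf _ (hg y hy)
  one_mem' := fun _ hy => hy
  add_mem' := fun hf hg y hy => P.add_mem (hf y hy) (hg y hy)
  zero_mem' := fun _ _ => P.zero_mem
  neg_mem' := fun hf y hy => P.neg_mem (hf y hy)

theorem mem_eisStab {P : AddSubgroup W} {f : Module.End ℤ W} :
    f ∈ eisStab P ↔ ∀ y ∈ P, f y ∈ P := Iff.rfl

theorem eisPow_quadratic (T : Module.End ℤ W) (c : ℕ) (P P' : AddSubgroup W)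
    (hTP' : ∀ y ∈ P', T y ∈ P')
    (hq : ∀ x ∈ P, ((T - 1) * (T - (c : Module.End ℤ W))) x ∈ P') (j : ℕ) :
    ∀ x ∈ P, ((T ^ j - 1) * (T ^ j - (c : Module.End ℤ W) ^ j)) x ∈ P' := by
  intro x hx
  have hT : T ∈ eisStab P' := hTP'
  have hcomm : Commute T (c : Module.End ℤ W) := Nat.commute_cast T c
  set g₁ : Module.End ℤ W := ∑ i ∈ Finset.range j, T ^ i with hg₁
  set g₂ : Module.End ℤ W := ∑ i ∈ Finset.range j, T ^ i * (c : Module.End ℤ W) ^ (j - 1 - i)
    with hg₂
  have h1 : T ^ j - 1 = g₁ * (T - 1) := (geom_sum_mul T j).symm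
  have h2 : T ^ j - (c : Module.End ℤ W) ^ j = g₂ * (T - (c : Module.End ℤ W)) :=
    (hcomm.geom_sum₂_mul j).symm
  have hg₁mem : g₁ ∈ eisStab P' := Subring.sum_mem _ fun i _ => Subring.pow_mem _ hT i
  have hg₂mem : g₂ ∈ eisStab P' := Subring.sum_mem _ fun i _ =>
    Subring.mul_mem _ (Subring.pow_mem _ hT i) (Subring.pow_mem _ (natCast_mem _ c) _)
  have hcomm2 : Commute (T - 1) g₂ := by
    apply Commute.sum_right
    intro i _
    apply Commute.mul_right
    · exact ((Commute.refl T).sub_left (Commute.one_left T)).pow_right i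
    · exact ((hcomm.sub_left (Commute.one_left _))).pow_right _
  have h3 : (T ^ j - 1) * (T ^ j - (c : Module.End ℤ W) ^ j)
      = (g₁ * g₂) * ((T - 1) * (T - (c : Module.End ℤ W))) := by
    rw [h1, h2, mul_assoc g₁, ← mul_assoc (T - 1), hcomm2.eq, mul_assoc g₂, ← mul_assoc g₁]
  rw [h3, Module.End.mul_apply]
  exact (Subring.mul_mem _ hg₁mem hg₂mem) _ (hq x hx)

end Pow

section Transfer

variable {W : Type*} [AddCommGroup W] {Γ : Type*} [Group Γ] [DistribMulAction Γ W]

variable (W) in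
/-- the action of `g` as a `ℤ`-linear map. -/
def eisLin (g : Γ) : Module.End ℤ W := (DistribSMul.toAddMonoidHom W g).toIntLinearMap

@[simp] theorem eisLin_apply (g : Γ) (w : W) : eisLin W g w = g • w := rfl

theorem eisLin_pow_apply (g : Γ) (j : ℕ) (w : W) : (eisLin W g ^ j) w = g ^ j • w := by
  induction j generalizing w with
  | zero => simp
  | succ j ih => rw [pow_succ, Module.End.mul_apply, ih, eisLin_apply, pow_succ, mul_smul]

theorem eisPow_transfer {l : ℕ} [Fact l.Prime] (χ : Γ →* (ZMod l)ˣ) (P P' : AddSubgroup W)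
    (hP : ∀ (g : Γ), ∀ x ∈ P, g • x ∈ P) (hP' : ∀ (g : Γ), ∀ x ∈ P', g • x ∈ P')
    (hl : ∀ x ∈ P, l • x ∈ P') (σ τ : Γ) (j c : ℕ)
    (hτ : ∀ x ∈ P, τ • τ • x + c • x - (1 + c) • τ • x ∈ P')
    (hσ : ∀ w : W, τ ^ j • w = σ • w)
    (hc : ((c : ZMod l)) ^ j = ((χ σ : (ZMod l)ˣ) : ZMod l)) :
    ∀ x ∈ P, σ • σ • x + jhMul χ σ • x - (1 + jhMul χ σ) • σ • x ∈ P' := by
  intro x hx
  have hl0 : NeZero l := ⟨(Fact.out : l.Prime).ne_zero⟩
  -- the relation for `τ ^ j`
  have hq : ∀ y ∈ P, ((eisLin W τ - 1) * (eisLin W τ - (c : Module.End ℤ W))) y ∈ P' := by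
    intro y hy
    have h := hτ y hy
    have e : ((eisLin W τ - 1) * (eisLin W τ - (c : Module.End ℤ W))) y
        = τ • τ • y + c • y - (1 + c) • τ • y := by
      simp only [Module.End.mul_apply, LinearMap.sub_apply, eisLin_apply, Module.End.one_apply,
        Module.End.natCast_apply, smul_sub, smul_comm τ c y, add_smul, one_smul]
      abel
    rw [e]
    exact h
  have h1 := eisPow_quadratic (eisLin W τ) c P P' (fun y hy => hP' τ y hy) hq j x hx
  have e1 : ((eisLin W τ ^ j - 1) * (eisLin W τ ^ j - (c : Module.End ℤ W) ^ j)) x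
      = σ • σ • x + (c ^ j) • x - (1 + c ^ j) • σ • x := by
    have hcj : ((c : Module.End ℤ W) ^ j) = ((c ^ j : ℕ) : Module.End ℤ W) := by push_cast; rfl
    rw [hcj]
    simp only [Module.End.mul_apply, LinearMap.sub_apply, eisLin_pow_apply, hσ,
      Module.End.one_apply, Module.End.natCast_apply, smul_sub, add_smul, one_smul]
    rw [smul_comm σ (c ^ j) x]
    abel
  rw [e1] at h1
  -- compare `c ^ j` and `jhMul χ σ`
  have hcong : ((jhMul χ σ : ℕ) : ZMod l) = ((c ^ j : ℕ) : ZMod l) := by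
    unfold jhMul
    rw [ZMod.natCast_val, ZMod.cast_id', id_eq, Nat.cast_pow, hc]
  obtain ⟨t, ht⟩ : ∃ t : ℤ, ((jhMul χ σ : ℕ) : ℤ) - ((c ^ j : ℕ) : ℤ) = (l : ℤ) * t := by
    have h2 : (((jhMul χ σ : ℕ) : ℤ) : ZMod l) = (((c ^ j : ℕ) : ℤ) : ZMod l) := by
      push_cast
      exact_mod_cast hcong
    have h3 := (ZMod.intCast_eq_intCast_iff_dvd_sub _ _ l).mp h2
    obtain ⟨t, ht⟩ := h3
    exact ⟨-t, by rw [mul_neg, ← ht]; ring⟩
  have hdiff : x - σ • x ∈ P := P.sub_mem hx (hP σ x hx)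
  have h4 : t • (l • (x - σ • x)) ∈ P' := P'.zsmul_mem (hl _ hdiff) t
  have e2 : σ • σ • x + jhMul χ σ • x - (1 + jhMul χ σ) • σ • x
      = (σ • σ • x + (c ^ j) • x - (1 + c ^ j) • σ • x) + t • (l • (x - σ • x)) := by
    have h5 : t • (l • (x - σ • x)) = (((jhMul χ σ : ℕ) : ℤ) - ((c ^ j : ℕ) : ℤ)) • (x - σ • x) := by
      rw [ht, mul_comm, mul_smul, natCast_zsmul]
    rw [h5, sub_smul, natCast_zsmul, natCast_zsmul, smul_sub, smul_sub, add_smul, add_smul,
      one_smul]
    abel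
  rw [e2]
  exact P'.add_mem h1 h4

end Transfer

end Fermat.Agent.EDesc
end MergeWrap_E_Desc_EisPow

section MergeWrap_E_Desc_JHChain -- from E/Desc/JHChain.lean

/-!
# E' / Desc / JHChain : from a Jordan–Hölder chain to a `TypedChain`  (seat DESC-JH, adapter)

`W` a `G_ℚ`-module, `l'` a prime, `χ` the mod `l'` cyclotomic character (`σ ζ = ζ ^ χ(σ)` for a
primitive `l'`-th root of unity `ζ`).  A chain `JHBuild ρ χ ⊤` (`E/Desc/JH.lean`) for the
representation `ρ` of the action gives a `TypedChain W l'` (`E/Desc/Defs.lean`): the pieces with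
trivial action are of type `et`, the pieces with action through `χ` are of type `mu`, with
coordinate `ι w = ζ ^ k` for `w ≡ k • v`.

* `jhCoord B v l w : ZMod l` : the coordinate of `w` in `B' / B = ⟨v⟩`;
* `exists_typedChain_of_jhBuild` : the adapter;
* `exists_typedChain` : the composition with `jh_build_top` (filtration form).
-/

set_option autoImplicit false

noncomputable section

namespace Fermat.Agent.EDesc

local notation "Qb" => AlgebraicClosure ℚ
local notation "GQb" => (AlgebraicClosure ℚ ≃ₐ[ℚ] AlgebraicClosure ℚ)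

section Coord

variable {W : Type*} [AddCommGroup W] {l : ℕ} [Fact l.Prime]

/-- the coordinate of `w` modulo `B` with respect to the generator `v`. -/
def jhCoord (B : Submodule ℤ W) (v : W) (l : ℕ) (w : W) : ZMod l :=
  open Classical in if h : ∃ k : ℕ, w - k • v ∈ B then ((Classical.choose h : ℕ) : ZMod l) else 0

variable {B : Submodule ℤ W} {v : W}

theorem jh_zsmul_mem_iff (hv : v ∉ B) (hlv : l • v ∈ B) (z : ℤ) :
    z • v ∈ B ↔ (l : ℤ) ∣ z := by
  have hlp : l.Prime := Fact.out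
  constructor
  · intro hz
    by_contra hndvd
    have hcop : IsCoprime z (l : ℤ) := by
      rw [isCoprime_comm]
      exact (Nat.prime_iff_prime_int.1 hlp).coprime_iff_not_dvd.2 hndvd
    obtain ⟨a, b, hab⟩ := hcop
    apply hv
    have h1 : v = a • (z • v) + b • ((l : ℤ) • v) := by
      rw [← mul_smul, ← mul_smul, ← add_smul, hab, one_smul]
    rw [h1]
    refine B.add_mem (B.smul_mem a hz) (B.smul_mem b ?_)
    rw [natCast_zsmul]
    exact hlv
  · rintro ⟨t, rfl⟩
    rw [mul_comm, mul_smul, natCast_zsmul]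
    exact B.smul_mem t hlv

theorem jh_nsmul_sub_mem_iff (hv : v ∉ B) (hlv : l • v ∈ B) (a b : ℕ) :
    a • v - b • v ∈ B ↔ (a : ZMod l) = (b : ZMod l) := by
  have h1 : a • v - b • v = ((a : ℤ) - (b : ℤ)) • v := by
    rw [sub_smul, natCast_zsmul, natCast_zsmul]
  rw [h1, jh_zsmul_mem_iff hv hlv, ← ZMod.intCast_zmod_eq_zero_iff_dvd, Int.cast_sub,
    Int.cast_natCast, Int.cast_natCast, sub_eq_zero]

theorem jhCoord_eq (hv : v ∉ B) (hlv : l • v ∈ B) {w : W} {k : ℕ} (hk : w - k • v ∈ B) :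
    jhCoord B v l w = (k : ZMod l) := by
  classical
  have h : ∃ k : ℕ, w - k • v ∈ B := ⟨k, hk⟩
  unfold jhCoord
  rw [dif_pos h]
  have h2 := Classical.choose_spec h
  rw [← jh_nsmul_sub_mem_iff hv hlv]
  have : Classical.choose h • v - k • v = (w - k • v) - (w - Classical.choose h • v) := by abel
  rw [this]
  exact B.sub_mem hk h2

theorem jhCoord_spec (hv : v ∉ B) (hlv : l • v ∈ B) {w : W} (hw : ∃ k : ℕ, w - k • v ∈ B) :
    w - (jhCoord B v l w).val • v ∈ B := by
  have : NeZero l := ⟨(Fact.out : l.Prime).ne_zero⟩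
  obtain ⟨k, hk⟩ := hw
  rw [jhCoord_eq hv hlv hk]
  have h1 : (k : ZMod l).val • v - k • v ∈ B := by
    rw [jh_nsmul_sub_mem_iff hv hlv, ZMod.natCast_zmod_val]
  have : w - (k : ZMod l).val • v = (w - k • v) - ((k : ZMod l).val • v - k • v) := by abel
  rw [this]
  exact B.sub_mem hk h1

theorem jhCoord_add (hv : v ∉ B) (hlv : l • v ∈ B) {w w' : W} (hw : ∃ k : ℕ, w - k • v ∈ B)
    (hw' : ∃ k : ℕ, w' - k • v ∈ B) :
    jhCoord B v l (w + w') = jhCoord B v l w + jhCoord B v l w' := by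
  obtain ⟨k, hk⟩ := hw
  obtain ⟨k', hk'⟩ := hw'
  have h : (w + w') - (k + k') • v ∈ B := by
    have : (w + w') - (k + k') • v = (w - k • v) + (w' - k' • v) := by
      rw [add_smul]; abel
    rw [this]
    exact B.add_mem hk hk'
  rw [jhCoord_eq hv hlv h, jhCoord_eq hv hlv hk, jhCoord_eq hv hlv hk', Nat.cast_add]

theorem jhCoord_eq_zero_iff (hv : v ∉ B) (hlv : l • v ∈ B) {w : W}
    (hw : ∃ k : ℕ, w - k • v ∈ B) : jhCoord B v l w = 0 ↔ w ∈ B := by
  obtain ⟨k, hk⟩ := hw
  rw [jhCoord_eq hv hlv hk]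
  have h0 : (k : ZMod l) = 0 ↔ k • v ∈ B := by
    have := jh_nsmul_sub_mem_iff hv hlv k 0
    rw [zero_smul, sub_zero, Nat.cast_zero] at this
    exact this.symm
  rw [h0]
  constructor
  · intro h
    have : w = (w - k • v) + k • v := by abel
    rw [this]
    exact B.add_mem hk h
  · intro h
    have : k • v = w - (w - k • v) := by abel
    rw [this]
    exact B.sub_mem h hk

theorem jhCoord_of_sub_mem (hv : v ∉ B) (hlv : l • v ∈ B) {w w' : W}
    (hw : ∃ k : ℕ, w - k • v ∈ B) (h : w' - w ∈ B) : jhCoord B v l w' = jhCoord B v l w := by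
  obtain ⟨k, hk⟩ := hw
  have hk' : w' - k • v ∈ B := by
    have : w' - k • v = (w' - w) + (w - k • v) := by abel
    rw [this]
    exact B.add_mem h hk
  rw [jhCoord_eq hv hlv hk, jhCoord_eq hv hlv hk']

theorem jhCoord_nsmul (hv : v ∉ B) (hlv : l • v ∈ B) {w : W} (hw : ∃ k : ℕ, w - k • v ∈ B)
    (n : ℕ) : jhCoord B v l (n • w) = (n : ZMod l) * jhCoord B v l w := by
  obtain ⟨k, hk⟩ := hw
  have h : n • w - (n * k) • v ∈ B := by
    have : n • w - (n * k) • v = n • (w - k • v) := by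
      rw [smul_sub, mul_smul]
    rw [this]
    exact B.smul_of_tower_mem n hk
  rw [jhCoord_eq hv hlv h, jhCoord_eq hv hlv hk, Nat.cast_mul]

/-- The index of a Jordan–Hölder step is `l`. -/
theorem jh_relIndex_eq {B' : Submodule ℤ W} (hvB' : v ∈ B') (hv : v ∉ B) (hlv : l • v ∈ B)
    (hgen : ∀ x ∈ B', ∃ k : ℕ, x - k • v ∈ B) :
    B.toAddSubgroup.relIndex B'.toAddSubgroup = l := by
  have : NeZero l := ⟨(Fact.out : l.Prime).ne_zero⟩
  let f : B'.toAddSubgroup →+ ZMod l :=
    { toFun := fun w => jhCoord B v l (w : W)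
      map_zero' := by
        show jhCoord B v l (0 : W) = 0
        rw [jhCoord_eq_zero_iff hv hlv (hgen 0 B'.zero_mem)]
        exact B.zero_mem
      map_add' := fun w w' => jhCoord_add hv hlv (hgen _ w.2) (hgen _ w'.2) }
  have hker : f.ker = B.toAddSubgroup.addSubgroupOf B'.toAddSubgroup := by
    ext w
    rw [AddMonoidHom.mem_ker, AddSubgroup.mem_addSubgroupOf]
    exact jhCoord_eq_zero_iff hv hlv (hgen _ w.2)
  have hsurj : Function.Surjective f := by
    intro a
    refine ⟨⟨a.val • v, B'.smul_of_tower_mem _ hvB'⟩, ?_⟩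
    show jhCoord B v l (a.val • v) = a
    have h0 : a.val • v - a.val • v ∈ B := by rw [sub_self]; exact B.zero_mem
    rw [jhCoord_eq hv hlv h0, ZMod.natCast_zmod_val]
  have hrange : f.range = ⊤ := AddMonoidHom.range_eq_top.2 hsurj
  unfold AddSubgroup.relIndex
  rw [← hker, AddSubgroup.index_ker, hrange]
  rw [Nat.card_congr (AddSubgroup.topEquiv (G := ZMod l)).toEquiv, Nat.card_zmod]

end Coord

section Adapter

variable {W : Type} [AddCommGroup W] [DistribMulAction GQb W] {l' : ℕ} [Fact l'.Prime]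

variable (W) in
/-- The representation attached to the action of `G_ℚ` on `W`. -/
abbrev jhRep : Representation ℤ GQb W := Representation.ofDistribMulAction ℤ GQb W

/-- **Adapter.**  A Jordan–Hölder chain for the mod `l'` cyclotomic character is a typed chain. -/
theorem exists_typedChain_of_jhBuild (χ : GQb →* (ZMod l')ˣ) {ζ : Qb}
    (hζ : IsPrimitiveRoot ζ l') (hχ : ∀ σ : GQb, σ ζ = ζ ^ jhMul χ σ)
    (h : JHBuild (jhRep W) χ ⊤) :
    ∃ C : TypedChain W l', ∀ i < C.L, ¬ C.et i → ∀ (σ : GQb) (w : W), w ∈ C.F (i + 1) →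
      σ • w - jhMul χ σ • w ∈ C.F i := by
  classical
  have : NeZero l' := ⟨(Fact.out : l'.Prime).ne_zero⟩
  obtain ⟨L, F, τ, hF0, hFL, hF⟩ := h.exists_indexed
  -- the generators
  have hgenex : ∀ i, ∃ v : W, i < L → v ∈ F (i + 1) ∧ v ∉ F i ∧ l' • v ∈ F i ∧
      ∀ x ∈ F (i + 1), ∃ k : ℕ, x - k • v ∈ F i := by
    intro i
    by_cases hi : i < L
    · obtain ⟨v, h1, h2, h3, h4⟩ := (hF i hi).gen
      exact ⟨v, fun _ => ⟨h1, h2, h3, h4⟩⟩
    · exact ⟨0, fun h => absurd h hi⟩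
  choose v hv using hgenex
  have hstab : ∀ j, j ≤ L → ∀ (σ : GQb) (w : W), w ∈ F j → σ • w ∈ F j := by
    intro j hj σ w hw
    rcases Nat.eq_zero_or_pos j with h0 | hpos
    · rw [h0, hF0, Submodule.mem_bot] at hw
      rw [hw, smul_zero]
      exact Submodule.zero_mem _
    · obtain ⟨j', rfl⟩ := Nat.exists_eq_succ_of_ne_zero hpos.ne'
      exact (hF j' (by omega)).stable σ w hw
  have hpowmod : ∀ a b : ℕ, (a : ZMod l') = (b : ZMod l') → ζ ^ a = ζ ^ b := by
    intro a b hab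
    rw [ZMod.natCast_eq_natCast_iff] at hab
    exact (hζ.isOfFinOrder (NeZero.ne l')).pow_eq_pow_iff_modEq.2 (by rwa [hζ.eq_orderOf] at hab)
  refine ⟨{ L := L
            F := fun i => (F (min i L)).toAddSubgroup
            et := fun i => τ i = false
            ι := fun i w => ζ ^ (jhCoord (F i) (v i) l' w).val
            F_zero := by
              show (F (min 0 L)).toAddSubgroup = ⊥
              rw [Nat.zero_min, hF0, Submodule.bot_toAddSubgroup]
            F_top := by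
              show (F (min L L)).toAddSubgroup = ⊤
              rw [min_self, hFL, Submodule.top_toAddSubgroup]
            mono := ?_
            stable := ?_
            index := ?_
            et_triv := ?_
            ι_mul := ?_
            ι_one_iff := ?_
            ι_smul := ?_ }, ?_⟩
  · intro i
    show (F (min i L)).toAddSubgroup ≤ (F (min (i + 1) L)).toAddSubgroup
    by_cases hi : i < L
    · rw [min_eq_left hi.le, min_eq_left (Nat.succ_le_of_lt hi)]
      exact (hF i hi).le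
    · rw [min_eq_right (not_lt.1 hi), min_eq_right (by omega)]
  · intro i σ w hw
    exact hstab _ (min_le_right i L) σ w hw
  · intro i hi
    show (F (min i L)).toAddSubgroup.relIndex (F (min (i + 1) L)).toAddSubgroup = l'
    rw [min_eq_left hi.le, min_eq_left (Nat.succ_le_of_lt hi)]
    obtain ⟨h1, h2, h3, h4⟩ := hv i hi
    exact jh_relIndex_eq h1 h2 h3 h4
  · intro i hi het σ w hw
    change w ∈ F (min (i + 1) L) at hw
    show σ • w - w ∈ F (min i L)
    rw [min_eq_left (Nat.succ_le_of_lt hi)] at hw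
    rw [min_eq_left hi.le]
    have := (hF i hi).char σ w hw
    rw [het] at this
    simpa using this
  · intro i hi het w w' hw hw'
    change w ∈ F (min (i + 1) L) at hw
    change w' ∈ F (min (i + 1) L) at hw'
    rw [min_eq_left (Nat.succ_le_of_lt hi)] at hw hw'
    obtain ⟨h1, h2, h3, h4⟩ := hv i hi
    show ζ ^ _ = ζ ^ _ * ζ ^ _
    rw [← pow_add]
    apply hpowmod
    rw [Nat.cast_add, ZMod.natCast_zmod_val, ZMod.natCast_zmod_val, ZMod.natCast_zmod_val]
    exact jhCoord_add h2 h3 (h4 w hw) (h4 w' hw')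
  · intro i hi het w hw
    change w ∈ F (min (i + 1) L) at hw
    rw [min_eq_left (Nat.succ_le_of_lt hi)] at hw
    obtain ⟨h1, h2, h3, h4⟩ := hv i hi
    show ζ ^ _ = 1 ↔ w ∈ F (min i L)
    rw [min_eq_left hi.le, ← jhCoord_eq_zero_iff h2 h3 (h4 w hw), hζ.pow_eq_one_iff_dvd,
      ← ZMod.natCast_eq_zero_iff, ZMod.natCast_zmod_val]
  · intro i hi het σ w hw
    change w ∈ F (min (i + 1) L) at hw
    rw [min_eq_left (Nat.succ_le_of_lt hi)] at hw
    obtain ⟨h1, h2, h3, h4⟩ := hv i hi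
    have hτ : τ i = true := by
      cases hτi : τ i
      · exact absurd hτi het
      · rfl
    have hchar := (hF i hi).char σ w hw
    rw [hτ] at hchar
    simp only [if_true, Representation.ofDistribMulAction_apply_apply] at hchar
    have hc : jhCoord (F i) (v i) l' (σ • w) =
        (jhMul χ σ : ZMod l') * jhCoord (F i) (v i) l' w := by
      rw [← jhCoord_nsmul h2 h3 (h4 w hw)]
      obtain ⟨k, hk⟩ := h4 w hw
      refine jhCoord_of_sub_mem h2 h3 ⟨jhMul χ σ * k, ?_⟩ hchar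
      have : jhMul χ σ • w - (jhMul χ σ * k) • v i = jhMul χ σ • (w - k • v i) := by
        rw [smul_sub, mul_smul]
      rw [this]
      exact (F i).smul_of_tower_mem _ hk
    show ζ ^ _ = σ (ζ ^ _)
    rw [map_pow, hχ σ, ← pow_mul]
    apply hpowmod
    rw [ZMod.natCast_zmod_val, hc, Nat.cast_mul, ZMod.natCast_zmod_val]
  · intro i hi het σ w hw
    change w ∈ F (min (i + 1) L) at hw
    show σ • w - jhMul χ σ • w ∈ F (min i L)
    rw [min_eq_left (Nat.succ_le_of_lt hi)] at hw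
    rw [min_eq_left hi.le]
    have hτ : τ i = true := by
      cases hτi : τ i
      · exact absurd hτi het
      · rfl
    have hchar := (hF i hi).char σ w hw
    rw [hτ] at hchar
    simpa using hchar

/-- **DESC-JH, final form.**  If the finite `G_ℚ`-module `W` has a stable filtration
`W = W₀ ⊇ W₁ ⊇ … ⊇ W_m = 0` whose graded pieces are killed by `l'` and by `(σ - 1)(σ - χ σ)` for
all `σ`, `χ` the mod `l'` cyclotomic character, then `W` has a typed chain; the pieces which are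
not of type `et` carry the character `χ`. -/
theorem exists_typedChain [Finite W] (χ : GQb →* (ZMod l')ˣ) {ζ : Qb}
    (hζ : IsPrimitiveRoot ζ l') (hχ : ∀ σ : GQb, σ ζ = ζ ^ jhMul χ σ)
    (m : ℕ) (Wf : ℕ → AddSubgroup W) (h0 : Wf 0 = ⊤) (hm : Wf m = ⊥)
    (hstab : ∀ i (σ : GQb), ∀ x ∈ Wf i, σ • x ∈ Wf i)
    (hl : ∀ i, ∀ x ∈ Wf i, l' • x ∈ Wf (i + 1))
    (hq : ∀ i (σ : GQb), ∀ x ∈ Wf i,
      σ • σ • x + jhMul χ σ • x - (1 + jhMul χ σ) • σ • x ∈ Wf (i + 1)) :
    ∃ C : TypedChain W l', ∀ i < C.L, ¬ C.et i → ∀ (σ : GQb) (w : W), w ∈ C.F (i + 1) →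
      σ • w - jhMul χ σ • w ∈ C.F i := by
  apply exists_typedChain_of_jhBuild χ hζ hχ
  refine jh_build_top χ (jhRep W) m (fun i => AddSubgroup.toIntSubmodule (Wf i)) ?_ ?_ ?_ ?_ ?_
  · show AddSubgroup.toIntSubmodule (Wf 0) = ⊤
    rw [h0]
    rfl
  · show AddSubgroup.toIntSubmodule (Wf m) = ⊥
    rw [hm]
    rfl
  · intro i σ x hx
    exact hstab i σ x hx
  · intro i x hx
    exact hl i x hx
  · intro i σ x hx
    exact hq i σ x hx

end Adapter

end Fermat.Agent.EDesc
end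
end MergeWrap_E_Desc_JHChain

section MergeWrap_E_Desc_Eis -- from E/Desc/Eis.lean

set_option autoImplicit false
set_option linter.style.haveILetI false

noncomputable section

namespace Fermat.Agent.EDesc

open ModularCurve AlgebraicCurve

local notation "Qb" => AlgebraicClosure ℚ
local notation "GQb" => (AlgebraicClosure ℚ ≃ₐ[ℚ] AlgebraicClosure ℚ)

variable (N : ℕ) [NeZero N]

/-! ### the free Hecke ring acting on torsion -/

/-- the `n`-torsion subgroup of `J₀(N)(ℚ̄)`. -/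
def eisTorsionSub (n : ℕ) : AddSubgroup (JZero N) where
  carrier := {x | n • x = 0}
  zero_mem' := smul_zero _
  add_mem' := by
    intro a b ha hb
    simp only [Set.mem_ofPred_eq] at *
    rw [nsmul_add, ha, hb, add_zero]
  neg_mem' := by
    intro a ha
    simp only [Set.mem_ofPred_eq] at *
    rw [neg_nsmul, ha, neg_zero]

theorem mem_eisTorsionSub {n : ℕ} {x : JZero N} : x ∈ eisTorsionSub N n ↔ n • x = 0 := Iff.rfl

theorem eis_finite_torsionSub {n : ℕ} (hn : 0 < n) : Finite (eisTorsionSub N n) :=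
  (Fermat.Agent.F3TF.torsionFinite N n hn).to_subtype

/-- the element `T_r - (1 + r)` of the free Hecke ring. -/
def eisGenF (S : Finset ℕ) (r : OutPrimes S) : FreeAlgebra ℤ (OutPrimes S) :=
  FreeAlgebra.ι ℤ r - algebraMap ℤ _ (((1 + (r.1 : ℕ) : ℕ)) : ℤ)

theorem eisChar_eisGenF (l' : ℕ) (S : Finset ℕ) (r : OutPrimes S) :
    eisChar l' S (eisGenF S r) = 0 := by
  unfold eisGenF eisChar
  rw [map_sub, FreeAlgebra.lift_ι_apply, AlgHom.commutes]
  simp

theorem heckeAct_ι (S : Finset ℕ) (r : OutPrimes S) :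
    heckeAct N S (FreeAlgebra.ι ℤ r) = heckeOperatorBar N r.1 := by
  unfold heckeAct
  rw [FreeAlgebra.lift_ι_apply]

theorem heckeAct_algebraMap (S : Finset ℕ) (z : ℤ) (x : JZero N) :
    heckeAct N S (algebraMap ℤ _ z) x = z • x := by
  rw [AlgHom.commutes, Module.algebraMap_end_apply]

theorem heckeAct_eisGenF (S : Finset ℕ) (r : OutPrimes S) (x : JZero N) :
    heckeAct N S (eisGenF S r) x = eisGen N r.1 x := by
  unfold eisGenF
  rw [map_sub, LinearMap.sub_apply, heckeAct_ι, heckeAct_algebraMap, eisGen_apply, natCast_zsmul]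

theorem heckeAct_nsmul (S : Finset ℕ) (a : FreeAlgebra ℤ (OutPrimes S)) (n : ℕ) (x : JZero N) :
    heckeAct N S a (n • x) = n • heckeAct N S a x := map_nsmul _ _ _

theorem heckeAct_mem_torsionSub (S : Finset ℕ) (a : FreeAlgebra ℤ (OutPrimes S)) {n : ℕ}
    {x : JZero N} (hx : n • x = 0) : n • heckeAct N S a x = 0 := by
  rw [← heckeAct_nsmul, hx, map_zero]

variable {N}

theorem not_dvd_of_outPrimes {S : Finset ℕ} (hNS : ∀ r : ℕ, r.Prime → r ∣ N → r ∈ S)
    (r : OutPrimes S) : ¬ ((r.1 : ℕ) ∣ N) := fun h => r.2 (hNS _ r.1.2 h)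

/-- the free Hecke ring commutes with the Hecke operators on torsion. -/
theorem heckeAct_comm_hecke {S : Finset ℕ} (hNS : ∀ r : ℕ, r.Prime → r ∣ N → r ∈ S)
    (s : OutPrimes S) {n : ℕ} (hn : n ≠ 0) (a : FreeAlgebra ℤ (OutPrimes S)) :
    ∀ x : JZero N, n • x = 0 →
      heckeAct N S a (heckeOperatorBar N s.1 x) = heckeOperatorBar N s.1 (heckeAct N S a x) := by
  induction a using FreeAlgebra.induction with
  | grade0 z =>
    intro x _
    rw [heckeAct_algebraMap, heckeAct_algebraMap, map_zsmul]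
  | grade1 r =>
    intro x hx
    rw [heckeAct_ι]
    exact heckeOperatorBar_comm_of_torsion N r.1 s.1 (not_dvd_of_outPrimes hNS r)
      (not_dvd_of_outPrimes hNS s) hn hx
  | mul a b iha ihb =>
    intro x hx
    rw [map_mul, Module.End.mul_apply, Module.End.mul_apply, ihb x hx,
      iha _ (heckeAct_mem_torsionSub N S b hx)]
  | add a b iha ihb =>
    intro x hx
    rw [map_add, LinearMap.add_apply, LinearMap.add_apply, iha x hx, ihb x hx, map_add]

/-- the free Hecke ring acts commutatively on torsion. -/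
theorem heckeAct_comm {S : Finset ℕ} (hNS : ∀ r : ℕ, r.Prime → r ∣ N → r ∈ S)
    {n : ℕ} (hn : n ≠ 0) (a b : FreeAlgebra ℤ (OutPrimes S)) :
    ∀ x : JZero N, n • x = 0 →
      heckeAct N S a (heckeAct N S b x) = heckeAct N S b (heckeAct N S a x) := by
  induction b using FreeAlgebra.induction with
  | grade0 z =>
    intro x _
    rw [heckeAct_algebraMap, heckeAct_algebraMap, map_zsmul]
  | grade1 r =>
    intro x hx
    rw [heckeAct_ι]
    exact heckeAct_comm_hecke hNS r hn a x hx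
  | mul b c ihb ihc =>
    intro x hx
    rw [map_mul, Module.End.mul_apply, Module.End.mul_apply,
      ihb _ (heckeAct_mem_torsionSub N S c hx), ihc x hx]
  | add b c ihb ihc =>
    intro x hx
    have h1 : heckeAct N S (b + c) x = heckeAct N S b x + heckeAct N S c x := by
      rw [map_add]
      rfl
    have h2 : heckeAct N S (b + c) (heckeAct N S a x)
        = heckeAct N S b (heckeAct N S a x) + heckeAct N S c (heckeAct N S a x) := by
      rw [map_add]
      rfl
    calc heckeAct N S a (heckeAct N S (b + c) x)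
        = heckeAct N S a (heckeAct N S b x + heckeAct N S c x) := congrArg _ h1
      _ = heckeAct N S a (heckeAct N S b x) + heckeAct N S a (heckeAct N S c x) :=
          (heckeAct N S a).map_add _ _
      _ = heckeAct N S b (heckeAct N S a x) + heckeAct N S c (heckeAct N S a x) :=
          congrArg₂ (· + ·) (ihb x hx) (ihc x hx)
      _ = heckeAct N S (b + c) (heckeAct N S a x) := h2.symm

/-- **DESC-EIS-1.** -/
theorem eisIdem_of {l' : ℕ} (hl : l' ≠ 0) {S : Finset ℕ}
    (hNS : ∀ r : ℕ, r.Prime → r ∣ N → r ∈ S) : EisIdem N l' S := by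
  intro k
  have hn : 0 < l' ^ k := pow_pos (Nat.pos_of_ne_zero hl) k
  haveI hfin : Finite (eisTorsionSub N (l' ^ k)) := eis_finite_torsionSub N hn
  let ε : FreeAlgebra ℤ (OutPrimes S) →+* ZMod l' := (eisChar l' S).toRingHom
  let ρ : FreeAlgebra ℤ (OutPrimes S) →+* Module.End ℤ (JZero N) := (heckeAct N S).toRingHom
  have hρ : ∀ (a : FreeAlgebra ℤ (OutPrimes S)) (x : JZero N), ρ a x = heckeAct N S a x :=
    fun _ _ => rfl
  have hG : ∀ g ∈ Set.range (eisGenF S), ε g = 0 := by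
    rintro _ ⟨r, rfl⟩
    exact eisChar_eisGenF l' S r
  have hmono : Monotone (eisKer N S) := monotone_nat_of_le_succ (eisKer_mono N S)
  have hsucc : ∀ (m : ℕ) (x : JZero N),
      (∀ g ∈ Set.range (eisGenF S), ρ g x ∈ eisKer N S m) → x ∈ eisKer N S (m + 1) := by
    intro m x hx
    rw [mem_eisKer_succ]
    intro r
    have := hx (eisGenF S r) ⟨r, rfl⟩
    rwa [hρ, heckeAct_eisGenF] at this
  have hV : ∀ (a : FreeAlgebra ℤ (OutPrimes S)), ∀ x ∈ eisTorsionSub N (l' ^ k),
      ρ a x ∈ eisTorsionSub N (l' ^ k) := fun a x hx => heckeAct_mem_torsionSub N S a hx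
  have hcomm : ∀ (a b : FreeAlgebra ℤ (OutPrimes S)), ∀ x ∈ eisTorsionSub N (l' ^ k),
      ρ a (ρ b x) = ρ b (ρ a x) := fun a b x hx => heckeAct_comm hNS hn.ne' a b x hx
  obtain ⟨e, he, heV⟩ := eisAlg_exists_idem ε ρ (Set.range (eisGenF S)) (eisKer N S)
    hG hmono hsucc (eisTorsionSub N (l' ^ k)) hV hcomm
  exact ⟨e, he, fun x hx => ⟨heckeAct_mem_torsionSub N S e hx, heV x hx⟩⟩

/-! ### the filtration of the Eisenstein part -/

variable (N)

/-- the classes killed by all products of `m` operators among `l'` and the `η_r`, `r ∉ S`. -/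
def eisFil (l' : ℕ) (S : Finset ℕ) : ℕ → AddSubgroup (JZero N)
  | 0 => ⊥
  | m + 1 => (eisFil l' S m).comap (nsmulAddMonoidHom l') ⊓
      ⨅ r : OutPrimes S, (eisFil l' S m).comap (eisGen N r.1)

theorem eisFil_zero (l' : ℕ) (S : Finset ℕ) : eisFil N l' S 0 = ⊥ := rfl

variable {N}

theorem mem_eisFil_succ {l' : ℕ} {S : Finset ℕ} {m : ℕ} {x : JZero N} :
    x ∈ eisFil N l' S (m + 1) ↔
      l' • x ∈ eisFil N l' S m ∧ ∀ r : OutPrimes S, eisGen N r.1 x ∈ eisFil N l' S m := by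
  show x ∈ ((eisFil N l' S m).comap (nsmulAddMonoidHom l') ⊓
      ⨅ r : OutPrimes S, (eisFil N l' S m).comap (eisGen N r.1)) ↔ _
  simp only [AddSubgroup.mem_inf, AddSubgroup.mem_comap, AddSubgroup.mem_iInf,
    nsmulAddMonoidHom_apply]

theorem eisFil_mono (l' : ℕ) (S : Finset ℕ) (m : ℕ) :
    eisFil N l' S m ≤ eisFil N l' S (m + 1) := by
  induction m with
  | zero => rw [eisFil_zero]; exact bot_le
  | succ m ih =>
    intro x hx
    rw [mem_eisFil_succ] at hx ⊢
    exact ⟨ih hx.1, fun r => ih (hx.2 r)⟩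

theorem eisFil_monotone (l' : ℕ) (S : Finset ℕ) : Monotone (eisFil N l' S) :=
  monotone_nat_of_le_succ (eisFil_mono l' S)

theorem eisFil_smul_mem (l' : ℕ) (S : Finset ℕ) (m : ℕ) (σ : GQb) {x : JZero N}
    (hx : x ∈ eisFil N l' S m) : σ • x ∈ eisFil N l' S m := by
  induction m generalizing x with
  | zero =>
    rw [eisFil_zero, AddSubgroup.mem_bot] at hx ⊢
    rw [hx, gal_smul_zero]
  | succ m ih =>
    rw [mem_eisFil_succ] at hx ⊢
    refine ⟨?_, fun r => ?_⟩
    · rw [← gal_smul_nsmul]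
      exact ih hx.1
    · rw [eisGen_smul]
      exact ih (hx.2 r)

theorem eisGen_nsmul (r : Nat.Primes) (n : ℕ) (x : JZero N) :
    eisGen N r (n • x) = n • eisGen N r x := map_nsmul _ _ _

/-- an `l'^a`-torsion class killed by all products of `b` Eisenstein generators lies in the
`(a + b)`-th step of the filtration. -/
theorem eisFil_of (l' : ℕ) (S : Finset ℕ) (a : ℕ) :
    ∀ (b : ℕ) (x : JZero N), l' ^ a • x = 0 → x ∈ eisKer N S b → x ∈ eisFil N l' S (a + b) := by
  induction a with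
  | zero =>
    intro b x hx _
    rw [pow_zero, one_smul] at hx
    rw [hx]
    exact zero_mem _
  | succ a iha =>
    intro b
    induction b with
    | zero =>
      intro x _ hx
      rw [eisKer_zero, AddSubgroup.mem_bot] at hx
      rw [hx]
      exact zero_mem _
    | succ b ihb =>
      intro x hx hxK
      have e : a + 1 + (b + 1) = (a + 1 + b) + 1 := by omega
      rw [e, mem_eisFil_succ]
      refine ⟨?_, fun r => ?_⟩
      · have h1 : l' ^ a • (l' • x) = 0 := by
          rw [← mul_smul, ← pow_succ]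
          exact hx
        have h2 := iha (b + 1) (l' • x) h1 (nsmul_mem hxK l')
        have e2 : a + (b + 1) = a + 1 + b := by omega
        rwa [e2] at h2
      · have h1 : l' ^ (a + 1) • eisGen N r.1 x = 0 := by
          rw [← eisGen_nsmul, hx, map_zero]
        exact ihb (eisGen N r.1 x) h1 ((mem_eisKer_succ N).mp hxK r)

/-- the filtration is exhaustive on `W_k`, uniformly. -/
theorem exists_eisFil_top (l' : ℕ) [Fact l'.Prime] (S : Finset ℕ) (k : ℕ) :
    ∃ n₀ : ℕ, ∀ x ∈ eisTors N l' S k, x ∈ eisFil N l' S n₀ := by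
  haveI : Finite (eisTors N l' S k) := eisW_finite N l' S k
  obtain ⟨m₀, hm₀⟩ := eisAlg_uniform (eisFil N l' S) (eisFil_monotone l' S) (eisTors N l' S k)
  refine ⟨m₀, fun x hx => hm₀ x hx ?_⟩
  obtain ⟨hx1, m, hm⟩ := hx
  exact ⟨k + m, eisFil_of l' S k m x hx1 hm⟩

variable (N)

/-- the filtration of `W_k`, decreasing. -/
def eisWf (l' : ℕ) (S : Finset ℕ) (k n₀ : ℕ) (i : ℕ) : AddSubgroup (EisW N l' S k) :=
  (eisFil N l' S (n₀ - i)).comap (eisTors N l' S k).subtype

variable {N}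

theorem mem_eisWf {l' : ℕ} {S : Finset ℕ} {k n₀ i : ℕ} {w : EisW N l' S k} :
    w ∈ eisWf N l' S k n₀ i ↔ (w : JZero N) ∈ eisFil N l' S (n₀ - i) := Iff.rfl

/-! ### fields of definition -/

/-- a finite normal extension over which `W_k` and `ζ` are defined. -/
theorem exists_field_eisW (l' : ℕ) [Fact l'.Prime] (S : Finset ℕ) (k : ℕ) (ζ : Qb) :
    ∃ L : IntermediateField ℚ Qb, FiniteDimensional ℚ L ∧ Normal ℚ L ∧ ζ ∈ L ∧
      ∀ σ : GQb, (∀ a ∈ L, σ a = a) → ∀ w : EisW N l' S k, σ • w = w := by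
  haveI : Algebra.IsAlgebraic ℚ Qb := AlgebraicClosure.isAlgebraic ℚ
  haveI : IsAlgClosure ℚ Qb := ⟨inferInstance, inferInstance⟩
  haveI : Normal ℚ Qb := inferInstance
  have hex : ∀ w : EisW N l' S k, ∃ L : IntermediateField ℚ Qb, FiniteDimensional ℚ L ∧
      ∀ σ : GQb, (∀ a ∈ L, σ a = a) → σ • (w : JZero N) = w := fun w =>
    Fermat.Agent.S17W.openStab N (w : JZero N)
  choose Lw hLfin hLfix using hex
  haveI : ∀ w, FiniteDimensional ℚ (Lw w) := hLfin
  haveI : Finite (EisW N l' S k) := eisW_finite N l' S k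
  let L₀ : IntermediateField ℚ Qb := ⨆ w, Lw w
  haveI h0 : FiniteDimensional ℚ L₀ := IntermediateField.finiteDimensional_iSup_of_finite
  haveI h1 : FiniteDimensional ℚ (IntermediateField.adjoin ℚ {ζ}) :=
    IntermediateField.adjoin.finiteDimensional (Algebra.IsIntegral.isIntegral ζ)
  let L₁ : IntermediateField ℚ Qb := L₀ ⊔ IntermediateField.adjoin ℚ {ζ}
  haveI h2 : FiniteDimensional ℚ L₁ := IntermediateField.finiteDimensional_sup _ _
  let L : IntermediateField ℚ Qb := IntermediateField.normalClosure ℚ L₁ Qb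
  have hL₁L : L₁ ≤ L := IntermediateField.le_normalClosure L₁
  refine ⟨L, inferInstance, normalClosure.normal ℚ L₁ Qb, ?_, ?_⟩
  · apply hL₁L
    exact (le_sup_right : IntermediateField.adjoin ℚ {ζ} ≤ L₁)
      (IntermediateField.mem_adjoin_simple_self ℚ ζ)
  · intro σ hσ w
    apply Subtype.ext
    show σ • (w : JZero N) = w
    apply hLfix w σ
    intro a ha
    apply hσ
    apply hL₁L
    exact (le_sup_left : L₀ ≤ L₁) ((le_iSup Lw w : Lw w ≤ L₀) ha)

/-- two automorphisms which agree on a field of definition act in the same way. -/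
theorem eis_smul_eq_of_agree {W : Type*} [AddCommGroup W] [DistribMulAction GQb W]
    (L : IntermediateField ℚ Qb)
    (hL : ∀ σ : GQb, (∀ a ∈ L, σ a = a) → ∀ w : W, σ • w = w) (g h : GQb)
    (hgh : ∀ a ∈ L, g a = h a) (w : W) : g • w = h • w := by
  have h1 : ∀ a ∈ L, (g⁻¹ * h) a = a := by
    intro a ha
    rw [AlgEquiv.mul_apply, ← hgh a ha]
    exact g.symm_apply_apply a
  have h2 := hL (g⁻¹ * h) h1 w
  calc g • w = g • ((g⁻¹ * h) • w) := by rw [h2]
    _ = h • w := by rw [← mul_smul, mul_inv_cancel_left]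

theorem eis_apply_mem_of_normal (L : IntermediateField ℚ Qb) [Normal ℚ L] (σ : GQb) {x : Qb}
    (hx : x ∈ L) : σ x ∈ L := by
  have h := AlgEquiv.restrictNormal_commutes σ L ⟨x, hx⟩
  have h' : σ x = ((σ.restrictNormal L ⟨x, hx⟩ : L) : Qb) := h.symm
  rw [h']
  exact (σ.restrictNormal L ⟨x, hx⟩).2

/-- powers of automorphisms which agree on a normal field. -/
theorem eis_pow_agree (L : IntermediateField ℚ Qb) [Normal ℚ L] (τ ρ : GQb)
    (h : ∀ a ∈ L, τ a = ρ a) (n : ℕ) : ∀ a ∈ L, (τ ^ n) a = (ρ ^ n) a := by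
  induction n with
  | zero => intro a _; simp
  | succ n ih =>
    intro a ha
    rw [pow_succ, pow_succ, AlgEquiv.mul_apply, AlgEquiv.mul_apply, h a ha]
    exact ih _ (eis_apply_mem_of_normal L ρ ha)

/-! ### the typed chain -/

theorem eisWf_smul_mem {l' : ℕ} {S : Finset ℕ} {k n₀ : ℕ} (i : ℕ) (σ : GQb)
    (x : EisW N l' S k) (hx : x ∈ eisWf N l' S k n₀ i) : σ • x ∈ eisWf N l' S k n₀ i := by
  rw [mem_eisWf] at hx ⊢
  exact eisFil_smul_mem l' S _ σ hx

theorem eisWf_nsmul_mem {l' : ℕ} {S : Finset ℕ} {k n₀ : ℕ} (i : ℕ)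
    (x : EisW N l' S k) (hx : x ∈ eisWf N l' S k n₀ i) : l' • x ∈ eisWf N l' S k n₀ (i + 1) := by
  rw [mem_eisWf] at hx ⊢
  have hc : ((l' • x : EisW N l' S k) : JZero N) = l' • (x : JZero N) :=
    AddSubgroup.coe_nsmul _ x l'
  rw [hc]
  rcases Nat.eq_zero_or_pos (n₀ - i) with h0 | hpos
  · rw [h0, eisFil_zero, AddSubgroup.mem_bot] at hx
    rw [hx, smul_zero]
    exact zero_mem _
  · obtain ⟨m, hm⟩ : ∃ m, n₀ - i = m + 1 := ⟨n₀ - i - 1, by omega⟩
    have hm' : n₀ - (i + 1) = m := by omega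
    rw [hm] at hx
    rw [hm']
    exact (mem_eisFil_succ.mp hx).1

/-- the Eichler–Shimura relation on the filtration, for a Frobenius element. -/
theorem eisWf_frob {l' : ℕ} [Fact l'.Prime] {S : Finset ℕ}
    (hNS : ∀ r : ℕ, r.Prime → r ∣ N → r ∈ S) (hl : l' ∈ S) {k n₀ : ℕ} (i : ℕ)
    {ℓ : ℕ} (hℓ : ℓ.Prime) (hℓS : ℓ ∉ S) (A : ValuationSubring Qb) (hA : A.LiesOverPrime ℓ)
    (τ : GQb) (hF : A.IsFrobeniusAt τ ℓ)
    (x : EisW N l' S k) (hx : x ∈ eisWf N l' S k n₀ i) :
    τ • τ • x + ℓ • x - (1 + ℓ) • τ • x ∈ eisWf N l' S k n₀ (i + 1) := by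
  have hlp : l'.Prime := Fact.out
  have hFQ : Fermat.Agent.F3.TorsionFrobQuadratic N :=
    Fermat.Agent.GaussIntFP.torsionFrobQuadratic_of_keyLemmaAt
      (Fermat.Agent.GaussInt.keyLemmaAt_all N)
      (fun q => by
        haveI : NeZero (q : ℕ) := ⟨q.2.ne_zero⟩
        exact Fermat.Agent.HeckeInputs.hi_heckeInputsAlong_Qbar N q)
  have hndvd : ¬ ℓ ∣ N * l' ^ k := by
    intro h
    rcases (Nat.Prime.dvd_mul hℓ).mp h with h1 | h1
    · exact hℓS (hNS ℓ hℓ h1)
    · have h2 := hℓ.dvd_of_dvd_pow h1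
      have h3 : ℓ = l' := (Nat.prime_dvd_prime_iff_eq hℓ hlp).mp h2
      exact hℓS (h3 ▸ hl)
  have hy : l' ^ k • (x : JZero N) = 0 := x.2.1
  have h1 := hFQ (l' ^ k) ℓ hℓ hndvd A hA τ hF (x : JZero N) hy
  rw [mem_eisWf] at hx ⊢
  have hc : ((τ • τ • x + ℓ • x - (1 + ℓ) • τ • x : EisW N l' S k) : JZero N)
      = eisGen N (⟨ℓ, hℓ⟩ : Nat.Primes) (τ • (x : JZero N)) := by
    have e : ((τ • τ • x + ℓ • x - (1 + ℓ) • τ • x : EisW N l' S k) : JZero N)
        = τ • τ • (x : JZero N) + ℓ • (x : JZero N) - (1 + ℓ) • τ • (x : JZero N) := by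
      rw [AddSubgroup.coe_sub, AddSubgroup.coe_add, AddSubgroup.coe_nsmul,
        AddSubgroup.coe_nsmul]
      rfl
    have h2 : τ • τ • (x : JZero N) + ℓ • (x : JZero N)
        = heckeOperatorBar N (⟨ℓ, hℓ⟩ : Nat.Primes) (τ • (x : JZero N)) := by
      have := h1
      rw [sub_add_eq_add_sub, sub_eq_zero] at this
      exact this
    have h3 := eisGen_apply N (⟨ℓ, hℓ⟩ : Nat.Primes) (τ • (x : JZero N))
    rw [e, h2, h3]
  rw [hc]
  rcases Nat.eq_zero_or_pos (n₀ - i) with h0 | hpos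
  · rw [h0, eisFil_zero, AddSubgroup.mem_bot] at hx
    rw [hx, gal_smul_zero, map_zero]
    exact zero_mem _
  · obtain ⟨m, hm⟩ : ∃ m, n₀ - i = m + 1 := ⟨n₀ - i - 1, by omega⟩
    have hm' : n₀ - (i + 1) = m := by omega
    rw [hm] at hx
    rw [hm']
    exact (mem_eisFil_succ.mp (eisFil_smul_mem l' S _ τ hx)).2 (⟨(⟨ℓ, hℓ⟩ : Nat.Primes), hℓS⟩ : OutPrimes S)

/-- **DESC-EIS-2.** -/
theorem eisChain_of {l' : ℕ} [Fact l'.Prime] {S : Finset ℕ}
    (hNS : ∀ r : ℕ, r.Prime → r ∣ N → r ∈ S) (hl : l' ∈ S) : EisChain N l' S := by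
  intro k
  have hlp : l'.Prime := Fact.out
  haveI : NeZero l' := ⟨hlp.ne_zero⟩
  haveI : Finite (EisW N l' S k) := eisW_finite N l' S k
  obtain ⟨ζ, hζ⟩ := HasEnoughRootsOfUnity.exists_primitiveRoot Qb l'
  let χ : GQb →* (ZMod l')ˣ := Fermat.Agent.Cyclo.modChar l'
  have hχ : ∀ σ : GQb, σ ζ = ζ ^ jhMul χ σ := fun σ =>
    Fermat.Agent.Cyclo.modChar_spec l' σ hζ.pow_eq_one
  obtain ⟨n₀, hn₀⟩ := exists_eisFil_top (N := N) l' S k
  obtain ⟨L, hLfin, hLnorm, hζL, hLfix⟩ := exists_field_eisW (N := N) l' S k ζ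
  have hroots : ∀ t : Qb, t ^ l' = 1 → t ∈ L := by
    intro t ht
    obtain ⟨i, -, rfl⟩ := hζ.eq_pow_of_pow_eq_one ht
    exact pow_mem hζL i
  obtain ⟨C, -⟩ := exists_typedChain χ hζ hχ n₀ (eisWf N l' S k n₀)
    (by
      rw [eq_top_iff]
      intro w _
      rw [mem_eisWf, Nat.sub_zero]
      exact hn₀ w w.2)
    (by
      rw [eq_bot_iff]
      intro w hw
      rw [mem_eisWf, Nat.sub_self, eisFil_zero, AddSubgroup.mem_bot] at hw
      rw [AddSubgroup.mem_bot]
      exact Subtype.ext hw)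
    (fun i σ x hx => eisWf_smul_mem i σ x hx)
    (fun i x hx => eisWf_nsmul_mem i x hx)
    (by
      intro i σ
      obtain ⟨ℓ, A, τ, k', j', hℓ, hℓS, hA, hF, h1, h2⟩ :=
        Fermat.Agent.F3.frobDensityLite L hLfin hLnorm σ S
      haveI := hLnorm
      have hagree : ∀ a ∈ L, (τ ^ j') a = σ a := by
        intro a ha
        rw [eis_pow_agree L τ (σ ^ k') h1 j' a ha, ← pow_mul]
        exact h2 a ha
      have hℓl : ¬ ℓ ∣ l' := by
        intro h
        have h3 : ℓ = l' := (Nat.prime_dvd_prime_iff_eq hℓ hlp).mp h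
        exact hℓS (h3 ▸ hl)
      have hχτ : ((χ τ : (ZMod l')ˣ) : ZMod l') = (ℓ : ZMod l') :=
        Fermat.Agent.Cyclo.modChar_frobenius l' hℓ hℓl A hA τ hF
      have hχσ : ((χ σ : (ZMod l')ˣ) : ZMod l') = ((χ (τ ^ j') : (ZMod l')ˣ) : ZMod l') := by
        apply Fermat.Agent.Cyclo.modChar_unique l' σ
        intro t ht
        rw [← hagree t (hroots t ht)]
        exact Fermat.Agent.Cyclo.modChar_spec l' (τ ^ j') ht
      have hc : ((ℓ : ZMod l')) ^ j' = ((χ σ : (ZMod l')ˣ) : ZMod l') := by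
        rw [hχσ, map_pow, Units.val_pow_eq_pow_val, hχτ]
      exact eisPow_transfer χ (eisWf N l' S k n₀ i) (eisWf N l' S k n₀ (i + 1))
        (fun g x hx => eisWf_smul_mem i g x hx) (fun g x hx => eisWf_smul_mem (i + 1) g x hx)
        (fun x hx => eisWf_nsmul_mem i x hx) σ τ j' ℓ
        (fun x hx => eisWf_frob hNS hl i hℓ hℓS A hA τ hF x hx)
        (fun w => eis_smul_eq_of_agree L hLfix (τ ^ j') σ hagree w) hc)
  exact ⟨C⟩

/-- DESC-EIS-1 for a prime level `N ∈ S`. -/
theorem eisIdem_prime {l' : ℕ} (hl : l' ≠ 0) {S : Finset ℕ} (hN : N.Prime) (hNS : N ∈ S) :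
    EisIdem N l' S :=
  eisIdem_of hl fun _ hr hrN => ((Nat.prime_dvd_prime_iff_eq hr hN).mp hrN) ▸ hNS

/-- DESC-EIS-2 for a prime level `N ∈ S`. -/
theorem eisChain_prime {l' : ℕ} [Fact l'.Prime] {S : Finset ℕ} (hN : N.Prime) (hNS : N ∈ S)
    (hl : l' ∈ S) : EisChain N l' S :=
  eisChain_of (fun _ hr hrN => ((Nat.prime_dvd_prime_iff_eq hr hN).mp hrN) ▸ hNS) hl

end Fermat.Agent.EDesc
end
end MergeWrap_E_Desc_Eis
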