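import Mathlib.LinearAlgebra.FreeModule.PID
import Mathlib.Algebra.Module.Projective
import Mathlib.LinearAlgebra.TensorProduct.Basic
import Mathlib.LinearAlgebra.Quotient.Basic
import Mathlib.Algebra.Module.Torsion.Basic
import Mathlib
import Mathlib.RingTheory.HopfAlgebra.Basic
import Mathlib.RingTheory.Bialgebra.Basic
import Mathlib.RingTheory.Coalgebra.Basic
import Mathlib.RingTheory.TensorProduct.Maps
import Mathlib.Algebra.Algebra.Subalgebra.Basic
import Fermat.Agent.MU.Lib.FFL.Defs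
import Fermat.Agent.Lib.FF.PlacesQbar
import Fermat.Agent.MU.Lib.FFL.MainAux
import Fermat.Agent.MU.Lib.FFL.Arith
import Fermat.Agent.MU.Lib.FFL.Unr
import Fermat.Agent.MU.Lib.FFL.Core
import Fermat.Agent.MU.Lib.FFL.Base
import Fermat.Agent.MU.Lib.FFL.Red
import Fermat.Agent.Lib.FlatMod.Defs
import Fermat.Agent.MU.Lib.FlatMod.QuotAlg
import Fermat.Agent.MU.Lib.FlatMod.Sub
import Fermat.Agent.MU.E.Desc.MainDefs
import Fermat.Agent.MU.E.Desc.PCSMain
import Fermat.Agent.MU.Lib.FF.Kum.KumFinal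

section MergeWrap_Lib_FlatMod_Summand -- from Lib/FlatMod/Summand.lean

set_option autoImplicit false

namespace Fermat.Agent.FlatMod

open TensorProduct

/-- (a) A saturated submodule of a finite module over a PID admits a linear retraction. -/
theorem exists_retraction_of_saturated {R H : Type*} [CommRing R] [IsDomain R]
    [IsPrincipalIdealRing R] [AddCommGroup H] [Module R H] [Module.Finite R H]
    (A : Submodule R H) (hsat : ∀ (r : R) (h : H), r ≠ 0 → r • h ∈ A → h ∈ A) :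
    ∃ ρ : H →ₗ[R] A, ∀ a : A, ρ (a : H) = a := by
  have htf : NoZeroSMulDivisors R (H ⧸ A) := by
    refine ⟨fun {r x} hrx => ?_⟩
    obtain ⟨h, rfl⟩ := Submodule.Quotient.mk_surjective A x
    by_cases hr : r = 0
    · exact Or.inl hr
    · right
      rw [← Submodule.Quotient.mk_smul, Submodule.Quotient.mk_eq_zero] at hrx
      exact (Submodule.Quotient.mk_eq_zero A).2 (hsat r h hr hrx)
  have hfree : Module.Free R (H ⧸ A) := Module.free_of_finite_type_torsion_free'
  obtain ⟨s, hs⟩ := Module.projective_lifting_property A.mkQ (LinearMap.id : (H ⧸ A) →ₗ[R] H ⧸ A)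
    (Submodule.mkQ_surjective A)
  have hmem : ∀ h : H, ((LinearMap.id : H →ₗ[R] H) - s ∘ₗ A.mkQ) h ∈ A := by
    intro h
    rw [← Submodule.Quotient.mk_eq_zero A, LinearMap.sub_apply, LinearMap.id_apply,
      LinearMap.comp_apply, Submodule.Quotient.mk_sub, sub_eq_zero]
    exact (LinearMap.congr_fun hs (A.mkQ h)).symm
  refine ⟨LinearMap.codRestrict A ((LinearMap.id : H →ₗ[R] H) - s ∘ₗ A.mkQ) hmem,
    fun a => Subtype.ext ?_⟩
  rw [LinearMap.codRestrict_apply, LinearMap.sub_apply, LinearMap.id_apply, LinearMap.comp_apply,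
    Submodule.mkQ_apply, (Submodule.Quotient.mk_eq_zero A).2 a.2, map_zero, sub_zero]

/-- (b) An element of `H ⊗ H` killed by `mkQ ⊗ id` and by `id ⊗ mkQ` is fixed by
`(ι ∘ ρ) ⊗ (ι ∘ ρ)`. -/
theorem map_retraction_eq_self {R H : Type*} [CommRing R] [AddCommGroup H] [Module R H]
    (A : Submodule R H) (ρ : H →ₗ[R] A) (hρ : ∀ a : A, ρ (a : H) = a)
    (z : TensorProduct R H H)
    (h1 : TensorProduct.map A.mkQ LinearMap.id z = 0)
    (h2 : TensorProduct.map LinearMap.id A.mkQ z = 0) :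
    TensorProduct.map (A.subtype ∘ₗ ρ) (A.subtype ∘ₗ ρ) z = z := by
  have hker : A ≤ LinearMap.ker (LinearMap.id - A.subtype ∘ₗ ρ) := by
    intro a ha
    rw [LinearMap.mem_ker, LinearMap.sub_apply, LinearMap.id_apply, LinearMap.comp_apply,
      hρ ⟨a, ha⟩, Submodule.subtype_apply, sub_self]
  have he : (LinearMap.id : H →ₗ[R] H) =
      A.subtype ∘ₗ ρ + (A.liftQ (LinearMap.id - A.subtype ∘ₗ ρ) hker) ∘ₗ A.mkQ := by
    rw [Submodule.liftQ_mkQ]
    abel
  have hl : TensorProduct.map (A.subtype ∘ₗ ρ) (LinearMap.id : H →ₗ[R] H) z = z := by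
    have h := congrArg (fun f => TensorProduct.map f (LinearMap.id : H →ₗ[R] H) z) he
    simp only [TensorProduct.map_id, LinearMap.id_apply] at h
    rw [TensorProduct.map_add_left, LinearMap.add_apply] at h
    have h0 : TensorProduct.map ((A.liftQ (LinearMap.id - A.subtype ∘ₗ ρ) hker) ∘ₗ A.mkQ)
        (LinearMap.id : H →ₗ[R] H) z = 0 := by
      have : TensorProduct.map ((A.liftQ (LinearMap.id - A.subtype ∘ₗ ρ) hker) ∘ₗ A.mkQ)
          (LinearMap.id : H →ₗ[R] H) =
          TensorProduct.map (A.liftQ (LinearMap.id - A.subtype ∘ₗ ρ) hker) LinearMap.id ∘ₗ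
            TensorProduct.map A.mkQ LinearMap.id := by
        rw [← TensorProduct.map_comp, LinearMap.id_comp]
      rw [this, LinearMap.comp_apply, h1, map_zero]
    rw [h0, add_zero] at h
    exact h.symm
  have hr : TensorProduct.map (LinearMap.id : H →ₗ[R] H) (A.subtype ∘ₗ ρ) z = z := by
    have h := congrArg (fun f => TensorProduct.map (LinearMap.id : H →ₗ[R] H) f z) he
    simp only [TensorProduct.map_id, LinearMap.id_apply] at h
    rw [TensorProduct.map_add_right, LinearMap.add_apply] at h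
    have h0 : TensorProduct.map (LinearMap.id : H →ₗ[R] H)
        ((A.liftQ (LinearMap.id - A.subtype ∘ₗ ρ) hker) ∘ₗ A.mkQ) z = 0 := by
      have : TensorProduct.map (LinearMap.id : H →ₗ[R] H)
          ((A.liftQ (LinearMap.id - A.subtype ∘ₗ ρ) hker) ∘ₗ A.mkQ) =
          TensorProduct.map LinearMap.id (A.liftQ (LinearMap.id - A.subtype ∘ₗ ρ) hker) ∘ₗ
            TensorProduct.map LinearMap.id A.mkQ := by
        rw [← TensorProduct.map_comp, LinearMap.id_comp]
      rw [this, LinearMap.comp_apply, h2, map_zero]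
    rw [h0, add_zero] at h
    exact h.symm
  have hcomp : TensorProduct.map (A.subtype ∘ₗ ρ) (A.subtype ∘ₗ ρ) =
      TensorProduct.map (A.subtype ∘ₗ ρ) (LinearMap.id : H →ₗ[R] H) ∘ₗ
        TensorProduct.map (LinearMap.id : H →ₗ[R] H) (A.subtype ∘ₗ ρ) := by
    rw [← TensorProduct.map_comp, LinearMap.id_comp, LinearMap.comp_id]
  rw [hcomp, LinearMap.comp_apply, hr, hl]

end Fermat.Agent.FlatMod
end MergeWrap_Lib_FlatMod_Summand

section MergeWrap_Lib_FFL_Quot -- from Lib/FFL/Quot.lean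

set_option autoImplicit false

namespace Fermat.Agent.FFL

open Fermat.Agent.FlatMod

section Quot

variable {R L W ι : Type*} [CommRing R] [Field L] [Algebra R L] [AddCommSemigroup W]

/-- translation-invariant functions form an `R`-submodule. -/
def transInvSub (R : Type*) {L W : Type*} [CommRing R] [Field L] [Algebra R L] [Add W]
    (V₁ : Set W) : Submodule R (W → L) where
  carrier := {f | TransInv V₁ f}
  add_mem' := fun {f g} hf hg v w hw => by
    show f (v + w) + g (v + w) = f v + g v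
    rw [hf v w hw, hg v w hw]
  zero_mem' := fun _ _ _ => rfl
  smul_mem' := fun r f hf v w hw => by
    show r • f (v + w) = r • f v
    rw [hf v w hw]

theorem mem_transInvSub {V₁ : Set W} {f : W → L} :
    f ∈ transInvSub R V₁ ↔ TransInv V₁ f := Iff.rfl

/-- the translation-invariant part is saturated. -/
theorem transInv_of_smul [FaithfulSMul R L] {V₁ : Set W} {r : R} (hr : r ≠ 0) {f : W → L}
    (h : TransInv V₁ (r • f)) : TransInv V₁ f := by
  intro v w hw
  have h1 : r • f (v + w) = r • f v := h v w hw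
  rw [Algebra.smul_def, Algebra.smul_def] at h1
  have h2 : algebraMap R L r ≠ 0 := by
    intro h0
    exact hr ((FaithfulSMul.algebraMap_injective R L) (h0.trans (map_zero _).symm))
  exact mul_left_cancel₀ h2 h1

omit [AddCommSemigroup W] in
/-- coefficients of a linear combination of an independent family of functions which vanishes
identically. -/
theorem coeff_eq_zero_of_sum_mul_eq_zero [Fintype ι] {e : ι → W → L}
    (hli : LinearIndependent L e) (a : ι → L) (h : ∀ w : W, ∑ k, a k * e k w = 0) (k : ι) :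
    a k = 0 := by
  have h1 : ∑ k, a k • e k = 0 := by
    funext w
    rw [Finset.sum_apply]
    simpa [Pi.smul_apply, smul_eq_mul] using h w
  exact (Fintype.linearIndependent_iff.mp hli) a h1 k

/-- **FFL-QUOT**. -/
theorem comulClosed_transInv [IsDomain R] [IsPrincipalIdealRing R] [FaithfulSMul R L]
    [Finite ι] (e : ι → W → L) (hli : LinearIndependent L e)
    (hcl : ComulClosed ((Submodule.span R (Set.range e) : Submodule R (W → L)) : Set (W → L)))
    (V₁ : Set W) :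
    ComulClosed {f : W → L | f ∈ Submodule.span R (Set.range e) ∧ TransInv V₁ f} := by
  classical
  have := Fintype.ofFinite ι
  set H : Submodule R (W → L) := Submodule.span R (Set.range e) with hH
  have hfin : Module.Finite R H :=
    Module.Finite.span_of_finite R (Set.finite_range e)
  -- the invariant part, as a submodule of `H`
  let B₁ : Submodule R H := (transInvSub R V₁).comap H.subtype
  have hsat : ∀ (r : R) (x : H), r ≠ 0 → r • x ∈ B₁ → x ∈ B₁ := by
    intro r x hr hx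
    exact transInv_of_smul hr (f := (x : W → L)) hx
  obtain ⟨ρ, hρ⟩ := exists_retraction_of_saturated B₁ hsat
  have heH : ∀ j, e j ∈ H := fun j => Submodule.subset_span ⟨j, rfl⟩
  intro f hf
  obtain ⟨hfH, hfinv⟩ := hf
  obtain ⟨n, g, h, hg, hh, hgh⟩ := hcl f hfH
  -- expand the `h i`
  have hexp : ∀ i, ∃ a : ι → R, h i = ∑ k, a k • e k := by
    intro i
    obtain ⟨a, ha⟩ := (Submodule.mem_span_range_iff_exists_fun R).mp (hh i)
    exact ⟨a, ha.symm⟩
  choose a ha using hexp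
  let G : ι → W → L := fun k => ∑ i, a i k • g i
  have hGH : ∀ k, G k ∈ H := fun k =>
    Submodule.sum_mem _ fun i _ => Submodule.smul_mem _ _ (hg i)
  have hG : ∀ w w' : W, f (w + w') = ∑ k, G k w * e k w' := by
    intro w w'
    rw [hgh]
    have h1 : ∀ i, g i w * h i w' = ∑ k, (a i k • g i) w * e k w' := by
      intro i
      rw [ha i, Finset.sum_apply, Finset.mul_sum]
      refine Finset.sum_congr rfl fun k _ => ?_
      simp only [Pi.smul_apply, Algebra.smul_def]
      ring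
    simp only [h1]
    rw [Finset.sum_comm]
    refine Finset.sum_congr rfl fun k _ => ?_
    simp only [G, Finset.sum_apply, Finset.sum_mul]
  have hGinv : ∀ k, TransInv V₁ (G k) := by
    intro k v w hw
    have h1 : ∀ w' : W, ∑ k, (G k (v + w) - G k v) * e k w' = 0 := by
      intro w'
      simp only [sub_mul, Finset.sum_sub_distrib]
      rw [← hG, ← hG, sub_eq_zero]
      have : v + w + w' = (v + w') + w := by
        rw [add_assoc, add_comm w w', ← add_assoc]
      rw [this]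
      exact hfinv _ w hw
    exact sub_eq_zero.mp
      (coeff_eq_zero_of_sum_mul_eq_zero hli (fun k => G k (v + w) - G k v) h1 k)
  -- expand the `G k`
  have hexp2 : ∀ k, ∃ c : ι → R, G k = ∑ j, c j • e j := by
    intro k
    obtain ⟨c, hc⟩ := (Submodule.mem_span_range_iff_exists_fun R).mp (hGH k)
    exact ⟨c, hc.symm⟩
  choose c hc using hexp2
  -- `c k j` is the coefficient of `e j` in `G k`
  let F : ι → W → L := fun j => ∑ k, c k j • e k
  have hFH : ∀ j, F j ∈ H := fun j =>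
    Submodule.sum_mem _ fun k _ => Submodule.smul_mem _ _ (heH k)
  have hF : ∀ w w' : W, f (w + w') = ∑ j, e j w * F j w' := by
    intro w w'
    rw [hG]
    have h1 : ∀ k, G k w * e k w' = ∑ j, e j w * (c k j • e k) w' := by
      intro k
      rw [hc k, Finset.sum_apply, Finset.sum_mul]
      refine Finset.sum_congr rfl fun j _ => ?_
      simp only [Pi.smul_apply, Algebra.smul_def]
      ring
    simp only [h1]
    rw [Finset.sum_comm]
    refine Finset.sum_congr rfl fun j _ => ?_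
    simp only [F, Finset.sum_apply, Finset.mul_sum]
  have hFinv : ∀ j, TransInv V₁ (F j) := by
    intro j v w hw
    have h1 : ∀ w' : W, ∑ j, (F j (v + w) - F j v) * e j w' = 0 := by
      intro w'
      have h2 : ∀ j, (F j (v + w) - F j v) * e j w' =
          e j w' * F j (v + w) - e j w' * F j v := fun j => by ring
      simp only [h2, Finset.sum_sub_distrib]
      rw [← hF, ← hF, sub_eq_zero]
      have : w' + (v + w) = (w' + v) + w := by rw [add_assoc]
      rw [this]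
      exact hfinv _ w hw
    exact sub_eq_zero.mp
      (coeff_eq_zero_of_sum_mul_eq_zero hli (fun j => F j (v + w) - F j v) h1 j)
  -- the retraction applied to the `e j`
  let E : ι → W → L := fun j => ((ρ ⟨e j, heH j⟩ : B₁) : H)
  have hEmem : ∀ j, E j ∈ H ∧ TransInv V₁ (E j) := fun j =>
    ⟨((ρ ⟨e j, heH j⟩ : B₁) : H).2, (ρ ⟨e j, heH j⟩ : B₁).2⟩
  have hGE : ∀ k, G k = ∑ j, c k j • E j := by
    intro k
    have hmem : (⟨G k, hGH k⟩ : H) ∈ B₁ := hGinv k
    have h1 : ρ ⟨G k, hGH k⟩ = ⟨⟨G k, hGH k⟩, hmem⟩ := hρ ⟨⟨G k, hGH k⟩, hmem⟩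
    have h2 : (⟨G k, hGH k⟩ : H) = ∑ j, c k j • (⟨e j, heH j⟩ : H) := by
      apply Subtype.ext
      rw [Submodule.coe_sum]
      exact hc k
    have h3 : ρ ⟨G k, hGH k⟩ = ∑ j, c k j • ρ ⟨e j, heH j⟩ := by
      rw [h2, map_sum]
      simp only [map_smul]
    have h4 := congrArg (fun x : B₁ => ((x : H) : W → L)) (h1.symm.trans h3)
    simp only [Submodule.coe_sum, Submodule.coe_smul] at h4
    exact h4
  have hfinal : ∀ w w' : W, f (w + w') = ∑ j, E j w * F j w' := by
    intro w w'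
    rw [hG]
    have h1 : ∀ k, G k w * e k w' = ∑ j, E j w * (c k j • e k) w' := by
      intro k
      rw [hGE k, Finset.sum_apply, Finset.sum_mul]
      refine Finset.sum_congr rfl fun j _ => ?_
      simp only [Pi.smul_apply, Algebra.smul_def]
      ring
    simp only [h1]
    rw [Finset.sum_comm]
    refine Finset.sum_congr rfl fun j _ => ?_
    simp only [F, Finset.sum_apply, Finset.mul_sum]
  -- reindex by `Fin`
  let eqv := Fintype.equivFin ι
  refine ⟨Fintype.card ι, fun i => E (eqv.symm i), fun i => F (eqv.symm i),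
    fun i => hEmem _, fun i => ⟨hFH _, hFinv _⟩, fun w w' => ?_⟩
  rw [hfinal]
  exact (Equiv.sum_comp eqv.symm (fun j => E j w * F j w')).symm

/-- **FFL-QUOT** for a subring `R` of the field `L` (the form used for `R = inertiaRing P`). -/
theorem comulClosed_transInv_subring {L W ι : Type*} [Field L] [AddCommSemigroup W]
    (R : Subring L) [IsPrincipalIdealRing R] [Finite ι] (e : ι → W → L)
    (hli : LinearIndependent L e)
    (hcl : ComulClosed ((Submodule.span R (Set.range e) : Submodule R (W → L)) : Set (W → L)))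
    (V₁ : Set W) :
    ComulClosed {f : W → L | f ∈ Submodule.span R (Set.range e) ∧ TransInv V₁ f} :=
  comulClosed_transInv e hli hcl V₁

end Quot

end Fermat.Agent.FFL
end MergeWrap_Lib_FFL_Quot

section MergeWrap_Lib_FFL_Span -- from Lib/FFL/Span.lean

set_option autoImplicit false
set_option linter.style.haveILetI false

namespace Fermat.Agent.FFL

open Fermat.Agent.FlatMod GaloisRep TensorProduct

local notation "Kb" => AlgebraicClosure ℚ
local notation "GK" => (AlgebraicClosure ℚ ≃ₐ[ℚ] AlgebraicClosure ℚ)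

/-! ### Sums of products -/

section ComulSum

variable {L : Type*} [CommSemiring L] {W : Type*}

/-- `F w w' = ∑ i, g i w * h i w'` with `g i, h i ∈ B`. -/
def IsComulSum (B : Set (W → L)) (F : W → W → L) : Prop :=
  ∃ (n : ℕ) (g h : Fin n → (W → L)), (∀ i, g i ∈ B) ∧ (∀ i, h i ∈ B) ∧
    ∀ w w' : W, F w w' = ∑ i, g i w * h i w'

theorem IsComulSum.zero (B : Set (W → L)) : IsComulSum B (fun _ _ => (0 : L)) :=
  ⟨0, Fin.elim0, Fin.elim0, fun i => i.elim0, fun i => i.elim0, fun _ _ => by simp⟩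

theorem IsComulSum.single {B : Set (W → L)} {g h : W → L} (hg : g ∈ B) (hh : h ∈ B) :
    IsComulSum B (fun w w' => g w * h w') :=
  ⟨1, fun _ => g, fun _ => h, fun _ => hg, fun _ => hh, fun _ _ => by simp⟩

theorem IsComulSum.add {B : Set (W → L)} {F G : W → W → L} (hF : IsComulSum B F)
    (hG : IsComulSum B G) : IsComulSum B (fun w w' => F w w' + G w w') := by
  obtain ⟨n, g, h, hg, hh, hF⟩ := hF
  obtain ⟨m, g', h', hg', hh', hG⟩ := hG
  refine ⟨n + m, Fin.append g g', Fin.append h h', ?_, ?_, fun w w' => ?_⟩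
  · intro i
    refine Fin.addCases (fun j => ?_) (fun j => ?_) i
    · rw [Fin.append_left]; exact hg j
    · rw [Fin.append_right]; exact hg' j
  · intro i
    refine Fin.addCases (fun j => ?_) (fun j => ?_) i
    · rw [Fin.append_left]; exact hh j
    · rw [Fin.append_right]; exact hh' j
  · show F w w' + G w w' = _
    rw [Fin.sum_univ_add, hF, hG]
    simp only [Fin.append_left, Fin.append_right]

theorem IsComulSum.congr {B : Set (W → L)} {F G : W → W → L} (hF : IsComulSum B F)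
    (h : ∀ w w', G w w' = F w w') : IsComulSum B G := by
  obtain ⟨n, g, h', hg, hh, hF⟩ := hF
  exact ⟨n, g, h', hg, hh, fun w w' => by rw [h, hF]⟩

theorem IsComulSum.mono {B B' : Set (W → L)} (hBB' : B ⊆ B') {F : W → W → L}
    (hF : IsComulSum B F) : IsComulSum B' F := by
  obtain ⟨n, g, h, hg, hh, hF⟩ := hF
  exact ⟨n, g, h, fun i => hBB' (hg i), fun i => hBB' (hh i), hF⟩

theorem comulClosed_iff [Add W] (B : Set (W → L)) :
    ComulClosed B ↔ ∀ f ∈ B, IsComulSum B (fun w w' => f (w + w')) := Iff.rfl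

end ComulSum

variable {p : ℕ} {W : Type*} [AddCommGroup W] {act : GK → W → W}

/-! ### The Hopf order itself is comultiplication-closed (explicit form) -/

theorem isComulSum_tmulFun (O : HopfOrder p W act) (z : O.alg ⊗[ratLocalizedAt p] O.alg) :
    IsComulSum (O.alg : Set (W → Kb)) (fun w w' => tmulFun (O.ev w) (O.ev w') z) := by
  induction z with
  | zero => exact (IsComulSum.zero _).congr (fun w w' => by simp)
  | tmul x y =>
    exact (IsComulSum.single x.2 y.2).congr (fun w w' => by simp)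
  | add x y hx hy =>
    exact (hx.add hy).congr (fun w w' => by simp)

theorem hopfOrder_comulClosed (O : HopfOrder p W act) : ComulClosed (O.alg : Set (W → Kb)) := by
  intro f hf
  obtain ⟨z, hz⟩ := O.add f hf
  exact (isComulSum_tmulFun O z).congr (fun w w' => (hz w w').symm)

/-! ### The action on the points of a Hopf order -/

theorem hopfOrder_act_mul (O : HopfOrder p W act) (σ τ : GK) (w : W) :
    act (σ * τ) w = act σ (act τ w) := by
  apply O.sep
  intro h hh
  rw [O.equiv h hh, O.equiv h hh, O.equiv h hh]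
  rfl

theorem hopfOrder_act_one (O : HopfOrder p W act) (w : W) : act 1 w = w := by
  apply O.sep
  intro h hh
  rw [O.equiv h hh]
  rfl

theorem hopfOrder_act_inv_cancel (O : HopfOrder p W act) (σ : GK) (w : W) :
    act σ (act σ⁻¹ w) = w := by
  rw [← hopfOrder_act_mul O, mul_inv_cancel, hopfOrder_act_one O]

/-! ### The basis functions -/

section Basis

variable [Fact p.Prime] (O : HopfOrder p W act)

/-- The index type of the chosen `ℤ_(p)`-basis of `O.alg`. -/
abbrev SpanIdx : Type _ := Module.Free.ChooseBasisIndex (ratLocalizedAt p) O.alg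

/-- The chosen `ℤ_(p)`-basis of `O.alg`. -/
noncomputable def spanBasis : Module.Basis (SpanIdx O) (ratLocalizedAt p) O.alg :=
  Module.Free.chooseBasis (ratLocalizedAt p) O.alg

/-- The functions of the chosen basis. -/
noncomputable def spanFun (i : SpanIdx O) : W → Kb := ((spanBasis O i : O.alg) : W → Kb)

theorem spanFun_mem (i : SpanIdx O) : spanFun O i ∈ O.alg := (spanBasis O i).2

/-- The basis functions are `ℚ̄`-linearly independent. -/
theorem spanFun_linearIndependent : LinearIndependent Kb (spanFun O) := by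
  rw [Fintype.linearIndependent_iff]
  intro c hc i
  have h := kl_coord (spanBasis O) O.ev O.ev_gal O.sep1 c (fun w => by
    have h1 := congrFun hc w
    simpa [spanFun, Finset.sum_apply] using h1)
  exact congrFun h i

theorem card_spanIdx [Fintype W] : Fintype.card (SpanIdx O) = Fintype.card W := by
  classical
  haveI : Finite (O.alg →ₐ[ratLocalizedAt p] Kb) := finite_algHom
  letI : Fintype (O.alg →ₐ[ratLocalizedAt p] Kb) := Fintype.ofFinite _
  have h1 : Fintype.card (O.alg →ₐ[ratLocalizedAt p] Kb) ≤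
      Module.finrank (ratLocalizedAt p) O.alg := card_algHom_le
  have h2 : Fintype.card (SpanIdx O) ≤ Fintype.card W :=
    card_basis_le (spanBasis O) O.ev O.ev_gal O.sep1
  have h3 : Fintype.card W ≤ Fintype.card (O.alg →ₐ[ratLocalizedAt p] Kb) :=
    Fintype.card_le_of_injective _ O.evPt_injective
  rw [Module.finrank_eq_card_chooseBasisIndex] at h1
  exact le_antisymm h2 (h3.trans h1)

/-- The basis functions span all functions over `ℚ̄`. -/
theorem spanFun_span_eq_top : Submodule.span Kb (Set.range (spanFun O)) = ⊤ := by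
  classical
  haveI : Finite W := O.finite_W
  letI : Fintype W := Fintype.ofFinite _
  refine (spanFun_linearIndependent O).span_eq_top_of_card_eq_finrank' ?_
  rw [Module.finrank_fintype_fun_eq_card, card_spanIdx]

/-- Every function is a `ℚ̄`-combination of the basis functions. -/
theorem exists_coeff (f : W → Kb) : ∃ a : SpanIdx O → Kb, f = ∑ i, a i • spanFun O i := by
  have h : f ∈ Submodule.span Kb (Set.range (spanFun O)) := by
    rw [spanFun_span_eq_top]; trivial
  obtain ⟨a, ha⟩ := (Submodule.mem_span_range_iff_exists_fun Kb).1 h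
  exact ⟨a, ha.symm⟩

end Basis

/-! ### The `R'`-span -/

/-- The `R'`-span of a Hopf order, `R' = inertiaRing P`. -/
noncomputable def spanB (P : ValuationSubring Kb) (O : HopfOrder p W act) :
    Submodule (inertiaRing P) (W → Kb) :=
  Submodule.span (inertiaRing P) (O.alg : Set (W → Kb))

theorem subset_spanB (P : ValuationSubring Kb) (O : HopfOrder p W act) :
    (O.alg : Set (W → Kb)) ⊆ spanB P O := Submodule.subset_span

theorem smul_mem_spanB (P : ValuationSubring Kb) (O : HopfOrder p W act) {a : Kb}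
    (ha : a ∈ inertiaRing P) {f : W → Kb} (hf : f ∈ spanB P O) :
    (fun w => a * f w) ∈ spanB P O :=
  (spanB P O).smul_mem ⟨a, ha⟩ hf

/-- The `R'`-span is comultiplication-closed. -/
theorem spanB_comulClosed (P : ValuationSubring Kb) (O : HopfOrder p W act) :
    ComulClosed ((spanB P O : Submodule (inertiaRing P) (W → Kb)) : Set (W → Kb)) := by
  intro f hf
  show IsComulSum _ (fun w w' => f (w + w'))
  induction hf using Submodule.span_induction with
  | mem h hh =>
    have h1 : IsComulSum (O.alg : Set (W → Kb)) (fun w w' => h (w + w')) :=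
      hopfOrder_comulClosed O h hh
    exact h1.mono (subset_spanB P O)
  | zero => exact (IsComulSum.zero _).congr (fun _ _ => rfl)
  | add f g _ _ hf hg => exact (hf.add hg).congr (fun _ _ => rfl)
  | smul a f hf' hf =>
    obtain ⟨n, g, h, hg, hh, hgh⟩ := hf
    refine ⟨n, fun i w => (a : Kb) * g i w, h, fun i => smul_mem_spanB P O a.2 (hg i), hh,
      fun w w' => ?_⟩
    have hgh' : f (w + w') = ∑ i, g i w * h i w' := hgh w w'
    show (a : Kb) * f (w + w') = _
    rw [hgh', Finset.mul_sum]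
    exact Finset.sum_congr rfl (fun i _ => (mul_assoc _ _ _).symm)

/-- The elements of the `R'`-span are inertia-equivariant. -/
theorem spanB_equiv (P : ValuationSubring Kb) (O : HopfOrder p W act) {f : W → Kb}
    (hf : f ∈ spanB P O) (σ : GK) (hσ : σ ∈ P.inertiaSubgroupIn ℚ) (w : W) :
    f (act σ w) = σ (f w) := by
  induction hf using Submodule.span_induction with
  | mem h hh => exact O.equiv h hh σ w
  | zero => simp
  | add f g _ _ hf hg =>
    show f (act σ w) + g (act σ w) = σ (f w + g w)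
    rw [hf, hg, map_add]
  | smul a f _ hf =>
    show (a : Kb) * f (act σ w) = σ ((a : Kb) * f w)
    rw [hf, map_mul, a.2.2 σ hσ]

/-- The values of the elements of the `R'`-span are in `P`. -/
theorem spanB_mem [Fact p.Prime] (P : ValuationSubring Kb) (hP : P.LiesOverPrime p)
    (O : HopfOrder p W act) {f : W → Kb} (hf : f ∈ spanB P O) (w : W) : f w ∈ P := by
  induction hf using Submodule.span_induction with
  | mem h hh =>
    have h1 : IsIntegral (ratLocalizedAt p) (⟨h, hh⟩ : O.alg) := Algebra.IsIntegral.isIntegral _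
    exact Fermat.Agent.FF.pl_mem_of_isIntegral P hP (h1.map (evPt O.alg w))
  | zero => exact P.zero_mem
  | add f g _ _ hf hg => exact P.add_mem _ _ hf hg
  | smul a f _ hf => exact P.mul_mem _ _ a.2.1 hf

/-- `ℤ_(p) ⊆ R'`. -/
theorem algebraMap_mem_inertiaRing (P : ValuationSubring Kb) (hP : P.LiesOverPrime p)
    (r : ratLocalizedAt p) : algebraMap (ratLocalizedAt p) Kb r ∈ inertiaRing P := by
  rw [ratLoc_algebraMap_Kb]
  exact ⟨Fermat.Agent.FF.pl_ratLoc_mem P hP r.2, fun σ _ => σ.commutes _⟩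

theorem natCast_mem_inertiaRing (P : ValuationSubring Kb) (n : ℕ) :
    (n : Kb) ∈ inertiaRing P := natCast_mem _ n

/-- The `R'`-span of `O.alg` is the `R'`-span of the basis functions. -/
theorem spanB_eq_span_range [Fact p.Prime] (P : ValuationSubring Kb) (hP : P.LiesOverPrime p)
    (O : HopfOrder p W act) :
    spanB P O = Submodule.span (inertiaRing P) (Set.range (spanFun O)) := by
  apply le_antisymm
  · refine Submodule.span_le.2 (fun h hh => ?_)
    have h1 : (⟨h, hh⟩ : O.alg) = ∑ i, (spanBasis O).repr ⟨h, hh⟩ i • spanBasis O i :=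
      ((spanBasis O).sum_repr _).symm
    have h2 : h = ∑ i, (⟨_, algebraMap_mem_inertiaRing P hP ((spanBasis O).repr ⟨h, hh⟩ i)⟩ :
        inertiaRing P) • spanFun O i := by
      have h3 := congrArg (fun x : O.alg => (x : W → Kb)) h1
      simp only [AddSubmonoidClass.coe_finsetSum] at h3
      refine h3.trans (Finset.sum_congr rfl (fun i _ => ?_))
      funext w
      simp only [spanFun, Algebra.smul_def, Pi.smul_apply]
      rfl
    rw [h2]
    exact Submodule.sum_mem _ (fun i _ => Submodule.smul_mem _ _ (Submodule.subset_span ⟨i, rfl⟩))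
  · refine Submodule.span_le.2 ?_
    rintro _ ⟨i, rfl⟩
    exact subset_spanB P O (spanFun_mem O i)

/-- The `R'`-span of the basis functions is comultiplication-closed (the hypothesis `hcl` of
`comulClosed_transInv_subring`, Lib/FFL/Quot.lean, with `e = spanFun O`). -/
theorem span_range_comulClosed [Fact p.Prime] (P : ValuationSubring Kb) (hP : P.LiesOverPrime p)
    (O : HopfOrder p W act) :
    ComulClosed ((Submodule.span (inertiaRing P) (Set.range (spanFun O)) :
      Submodule (inertiaRing P) (W → Kb)) : Set (W → Kb)) := by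
  rw [← spanB_eq_span_range P hP O]
  exact spanB_comulClosed P O

/-- The elements of the `R'`-span are the `R'`-combinations of the basis functions. -/
theorem mem_spanB_iff [Fact p.Prime] (P : ValuationSubring Kb) (hP : P.LiesOverPrime p)
    (O : HopfOrder p W act) (f : W → Kb) :
    f ∈ spanB P O ↔ ∃ a : SpanIdx O → Kb, (∀ i, a i ∈ inertiaRing P) ∧
      f = ∑ i, a i • spanFun O i := by
  rw [spanB_eq_span_range P hP O, Submodule.mem_span_range_iff_exists_fun]
  constructor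
  · rintro ⟨c, rfl⟩
    exact ⟨fun i => (c i : Kb), fun i => (c i).2, rfl⟩
  · rintro ⟨a, ha, rfl⟩
    exact ⟨fun i => ⟨a i, ha i⟩, rfl⟩

/-! ### FULL: inertia-equivariant functions have a `p`-power multiple in the span -/

/-- The coefficients of a `σ`-equivariant function with respect to the basis functions are
`σ`-fixed. -/
theorem coeff_fixed [Fact p.Prime] (O : HopfOrder p W act) (a : SpanIdx O → Kb) (σ : GK)
    (hf : ∀ w, (∑ i, a i • spanFun O i) (act σ w) = σ ((∑ i, a i • spanFun O i) w))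
    (i : SpanIdx O) : σ (a i) = a i := by
  have h1 : ∑ i, (σ (a i) - a i) • spanFun O i = 0 := by
    funext w'
    have h2 := hf (act σ⁻¹ w')
    rw [hopfOrder_act_inv_cancel O] at h2
    simp only [Finset.sum_apply, Pi.smul_apply, smul_eq_mul, map_sum, map_mul] at h2 ⊢
    have h3 : ∀ i, σ (spanFun O i (act σ⁻¹ w')) = spanFun O i w' := by
      intro i
      rw [← O.equiv _ (spanFun_mem O i), hopfOrder_act_inv_cancel O]
    simp only [h3] at h2
    simp only [sub_mul, Finset.sum_sub_distrib, Pi.zero_apply]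
    rw [← h2, sub_self]
  have h4 := (Fintype.linearIndependent_iff.1 (spanFun_linearIndependent O)) _ h1 i
  exact sub_eq_zero.1 h4

/-- From `DvdProp`: every element has a `p`-power multiple in `P`. -/
theorem exists_pow_mul_mem (P : ValuationSubring Kb) (hdvd : DvdProp p P) (a : Kb) :
    ∃ m : ℕ, ∀ n, m ≤ n → (p : Kb) ^ n * a ∈ P := by
  by_cases ha : a = 0
  · exact ⟨0, fun n _ => by rw [ha, mul_zero]; exact P.zero_mem⟩
  · obtain ⟨m, hm⟩ := hdvd a⁻¹ (inv_ne_zero ha)
    refine ⟨m, fun n hn => ?_⟩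
    have h1 : (p : Kb) ^ n * a = (p : Kb) ^ (n - m) * ((p : Kb) ^ m / a⁻¹) := by
      rw [div_inv_eq_mul, ← mul_assoc, ← pow_add, Nat.sub_add_cancel hn]
    rw [h1]
    exact P.mul_mem _ _ (pow_mem (natCast_mem P p) _) hm

/-- **FULL**: an inertia-equivariant function has a `p`-power multiple in the `R'`-span. -/
theorem spanB_full [Fact p.Prime] (P : ValuationSubring Kb) (hP : P.LiesOverPrime p)
    (hdvd : DvdProp p P) (O : HopfOrder p W act) (f : W → Kb)
    (hf : ∀ σ ∈ P.inertiaSubgroupIn ℚ, ∀ w, f (act σ w) = σ (f w)) :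
    ∃ N : ℕ, ∀ n, N ≤ n → (fun w => (p : Kb) ^ n * f w) ∈ spanB P O := by
  classical
  obtain ⟨a, rfl⟩ := exists_coeff O f
  have hfix : ∀ σ ∈ P.inertiaSubgroupIn ℚ, ∀ i, σ (a i) = a i :=
    fun σ hσ i => coeff_fixed O a σ (hf σ hσ) i
  choose m hm using fun i => exists_pow_mul_mem P hdvd (a i)
  refine ⟨∑ i, m i, fun n hn => ?_⟩
  rw [mem_spanB_iff P hP O]
  refine ⟨fun i => (p : Kb) ^ n * a i, fun i => ⟨hm i n ?_, fun σ hσ => ?_⟩, ?_⟩
  · exact (Finset.single_le_sum (fun j _ => Nat.zero_le (m j)) (Finset.mem_univ i)).trans hn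
  · rw [map_mul, map_pow, map_natCast, hfix σ hσ i]
  · funext w
    simp only [Finset.sum_apply, Pi.smul_apply, smul_eq_mul, Finset.mul_sum, mul_assoc]

/-- The indicator function of a coset of `V₁` is translation-invariant. -/
theorem transInv_indicator (V₁ : AddSubgroup W) [DecidablePred (· ∈ V₁)] (w₀ : W) (c : Kb) :
    TransInv (V₁ : Set W) (fun w => if w - w₀ ∈ V₁ then c else 0) := by
  intro v w hw
  have h1 : v + w - w₀ ∈ V₁ ↔ v - w₀ ∈ V₁ := by
    have h2 : v + w - w₀ = (v - w₀) + w := by abel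
    rw [h2]
    exact V₁.add_mem_cancel_right hw
  simp only [h1]

/-- **FULL**, uniform version for the indicator functions of the cosets of a subgroup `V₁`
containing all `act σ w - w`, `σ` in inertia. -/
theorem spanB_full_indicator [Fact p.Prime] (P : ValuationSubring Kb) (hP : P.LiesOverPrime p)
    (hdvd : DvdProp p P) (O : HopfOrder p W act) (V₁ : AddSubgroup W)
    [DecidablePred (· ∈ V₁)]
    (hV : ∀ σ ∈ P.inertiaSubgroupIn ℚ, ∀ w, act σ w - w ∈ V₁) :
    ∃ N : ℕ, ∀ w₀ : W, (fun w => if w - w₀ ∈ V₁ then (p : Kb) ^ N else 0) ∈ spanB P O := by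
  classical
  haveI : Finite W := O.finite_W
  letI : Fintype W := Fintype.ofFinite _
  have h1 : ∀ w₀ : W, ∃ N : ℕ, ∀ n, N ≤ n →
      (fun w => (p : Kb) ^ n * (if w - w₀ ∈ V₁ then (1 : Kb) else 0)) ∈ spanB P O := by
    intro w₀
    refine spanB_full P hP hdvd O _ (fun σ hσ w => ?_)
    have h2 : act σ w - w₀ ∈ V₁ ↔ w - w₀ ∈ V₁ := by
      have h3 : act σ w - w₀ = (act σ w - w) + (w - w₀) := by abel
      rw [h3]
      exact V₁.add_mem_cancel_left (hV σ hσ w)
    by_cases h4 : w - w₀ ∈ V₁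
    · rw [if_pos (h2.2 h4), if_pos h4, map_one]
    · rw [if_neg (fun h => h4 (h2.1 h)), if_neg h4, map_zero]
  choose N hN using h1
  refine ⟨∑ w₀, N w₀, fun w₀ => ?_⟩
  have h5 := hN w₀ (∑ w₀, N w₀)
    (Finset.single_le_sum (fun j _ => Nat.zero_le (N j)) (Finset.mem_univ w₀))
  have h6 : (fun w => if w - w₀ ∈ V₁ then (p : Kb) ^ (∑ w₀, N w₀) else 0) =
      (fun w => (p : Kb) ^ (∑ w₀, N w₀) * (if w - w₀ ∈ V₁ then (1 : Kb) else 0)) := by
    funext w
    rw [mul_ite, mul_one, mul_zero]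
  rw [h6]
  exact h5

/-! ### Further consequences used in the assembly -/

/-- (F2) a translation-invariant (by `act σ v - v`) inertia-equivariant function has
inertia-fixed values. -/
theorem spanB_value_fixed (P : ValuationSubring Kb) (O : HopfOrder p W act) {f : W → Kb}
    (hf : f ∈ spanB P O) (V₁ : Set W) (hinv : TransInv V₁ f) (σ : GK)
    (hσ : σ ∈ P.inertiaSubgroupIn ℚ) (v : W) (hv : act σ v - v ∈ V₁) : σ (f v) = f v := by
  rw [← spanB_equiv P O hf σ hσ v]
  have h1 : act σ v = v + (act σ v - v) := by abel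
  rw [h1]
  exact hinv v _ hv

/-- The points of the kernel of reduction of `O.alg` are in the kernel of reduction of the
`R'`-span. -/
theorem spanB_sub_mem_nonunits (P : ValuationSubring Kb) (O : HopfOrder p W act) {f : W → Kb}
    (hf : f ∈ spanB P O) {x : W} (hx : x ∈ redKer P (O.alg : Set (W → Kb))) :
    f x - f 0 ∈ P.nonunits := by
  induction hf using Submodule.span_induction with
  | mem h hh => exact hx h hh
  | zero =>
    show (0 : Kb) - 0 ∈ P.nonunits
    rw [sub_zero]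
    exact P.nonunits.zero_mem
  | add f g _ _ hf hg =>
    show (f x + g x) - (f 0 + g 0) ∈ P.nonunits
    have h1 : (f x + g x) - (f 0 + g 0) = (f x - f 0) + (g x - g 0) := by ring
    rw [h1]
    exact P.nonunits.add_mem hf hg
  | smul a f _ hf =>
    show (a : Kb) * f x - (a : Kb) * f 0 ∈ P.nonunits
    rw [← mul_sub]
    rw [ValuationSubring.mem_nonunits_iff] at hf ⊢
    rw [map_mul]
    exact lt_of_le_of_lt (mul_le_of_le_one_left' ((P.valuation_le_one_iff _).2 a.2.1)) hf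

end Fermat.Agent.FFL
end MergeWrap_Lib_FFL_Span

section MergeWrap_Lib_FFL_Main -- from Lib/FFL/Main.lean

set_option autoImplicit false

namespace Fermat.Agent.FFL

open Fermat.Agent.FlatMod GaloisRep

local notation "Kb" => AlgebraicClosure ℚ
local notation "GK" => (AlgebraicClosure ℚ ≃ₐ[ℚ] AlgebraicClosure ℚ)

variable {p : ℕ}

/-- **CORE** for an odd prime. -/
theorem coreProp (hp : p.Prime) (hp2 : p ≠ 2) (P : ValuationSubring Kb)
    (hP : P.LiesOverPrime p) : CoreProp p P :=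
  coreProp_of_int_cyc p P (intProp hp hP) (cycProp hp hp2 hP)

theorem act_sub_mem_augI (P : ValuationSubring Kb) {W : Type*} [AddCommGroup W]
    (act : GK → W → W) {σ : GK} (hσ : σ ∈ P.inertiaSubgroupIn ℚ) (w : W) :
    act σ w - w ∈ augI P act :=
  AddSubgroup.subset_closure ⟨σ, hσ, w, Set.mem_univ _, rfl⟩

/-- **MAIN**: the kernel of reduction of a Hopf order is the augmentation subgroup of inertia. -/
theorem mainProp (hp : p.Prime) (hp2 : p ≠ 2) (P : ValuationSubring Kb)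
    (hP : P.LiesOverPrime p) : MainProp p P := by
  classical
  intro W _ act O
  have : Fact p.Prime := ⟨hp⟩
  have hfin : Finite W := O.finite_W
  have hunr : UnrProp p P := unrProp p hp P hP
  have hdvd : DvdProp p P := dvdProp hp hP
  have hpid : IsPrincipalIdealRing (inertiaRing P) :=
    inertiaRing_isPrincipalIdealRing hp.ne_zero hP hunr hdvd
  apply Set.Subset.antisymm _ (augI_subset_redKer O hP)
  set V₁ : AddSubgroup W := augI P act with hV₁
  have hV : ∀ σ ∈ P.inertiaSubgroupIn ℚ, ∀ w, act σ w - w ∈ V₁ :=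
    fun σ hσ w => act_sub_mem_augI P act hσ w
  have hspan := spanB_eq_span_range P hP O
  have key := ma_le_of_core (coreProp hp hp2 P hP) hunr V₁
    {f : W → Kb | f ∈ Submodule.span (inertiaRing P) (Set.range (spanFun O)) ∧
      TransInv (V₁ : Set W) f}
    (fun f hf => hf.2)
    (comulClosed_transInv_subring (inertiaRing P) (spanFun O) (spanFun_linearIndependent O)
      (span_range_comulClosed P hP O) (V₁ : Set W))
    (by
      obtain ⟨N, hN⟩ := spanB_full_indicator P hP hdvd O V₁ hV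
      refine ⟨N, fun w₀ => ⟨?_, ?_⟩⟩
      · rw [← hspan]
        convert hN w₀ using 2
      · convert transInv_indicator V₁ w₀ ((p : Kb) ^ N) using 2)
    (fun f hf w σ hσ => by
      have hf1 : f ∈ spanB P O := by rw [hspan]; exact hf.1
      exact spanB_value_fixed P O hf1 (V₁ : Set W) hf.2 σ hσ w (hV σ hσ w))
    (redKerSubgroup O hP)
    (fun x hx f hf => by
      have hf1 : f ∈ spanB P O := by rw [hspan]; exact hf.1
      exact spanB_sub_mem_nonunits P O hf1 hx)
  exact fun x hx => key hx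

/-- **EXACT**: inertia coinvariants are exact on flat Galois modules. -/
theorem exactProp (hp : p.Prime) (hp2 : p ≠ 2) (P : ValuationSubring Kb)
    (hP : P.LiesOverPrime p) : ExactProp p P := by
  intro M _ act hM N hN x hxN hx
  have : Fact p.Prime := ⟨hp⟩
  obtain ⟨O⟩ := nonempty_hopfOrder_of_isFlat hM
  -- `x` is in the kernel of reduction of `O`, hence of the restriction of `O` to `N`
  have h1 : x ∈ redKer P (O.alg : Set (M → Kb)) := augI_subset_redKer O hP hx
  have h2 : (⟨x, hxN⟩ : N) ∈ redKer P ((O.restrict N hN).alg : Set (N → Kb)) :=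
    (redKer_restrict P O N hN ⟨x, hxN⟩).2 h1
  rw [mainProp hp hp2 P hP N _ (O.restrict N hN)] at h2
  -- transport from `N` to `M`
  have h3 : ∀ y : N, y ∈ augI P (fun σ (n : N) => (⟨act σ n.1, hN σ n.1 n.2⟩ : N)) →
      (y : M) ∈ augOn P act (N : Set M) := by
    intro y hy
    unfold augI augOn at hy
    induction hy using AddSubgroup.closure_induction with
    | mem z hz =>
      obtain ⟨σ, hσ, v, -, rfl⟩ := hz
      exact AddSubgroup.subset_closure ⟨σ, hσ, v.1, v.2, rfl⟩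
    | zero => exact (augOn P act (N : Set M)).zero_mem
    | add a b _ _ ha hb => exact (augOn P act (N : Set M)).add_mem ha hb
    | neg a _ ha => exact (augOn P act (N : Set M)).neg_mem ha
  exact h3 ⟨x, hxN⟩ h2

end Fermat.Agent.FFL
end MergeWrap_Lib_FFL_Main

section MergeWrap_Lib_FFL_PeuArith -- from Lib/FFL/PeuArith.lean

set_option autoImplicit false
set_option linter.unusedSectionVars false
set_option linter.unusedVariables false
set_option linter.style.haveILetI false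
set_option linter.unnecessarySimpa false

namespace Fermat.Agent.FFL

open Fermat.Agent.FlatMod GaloisRep

local notation "Kb" => AlgebraicClosure ℚ
local notation "GK" => (AlgebraicClosure ℚ ≃ₐ[ℚ] AlgebraicClosure ℚ)

variable {p : ℕ} {P : ValuationSubring Kb}

/-! ### Inertia and `P` -/

theorem peu_inertia_le_decomp {σ : GK} (hσ : σ ∈ P.inertiaSubgroupIn ℚ) :
    σ ∈ P.decompositionSubgroup ℚ := by
  obtain ⟨τ, _, rfl⟩ := hσ
  exact τ.2

theorem peu_conj_mem_nonunits {σ : GK} (hσ : σ ∈ P.inertiaSubgroupIn ℚ) {x : Kb}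
    (hx : x ∈ P.nonunits) : σ x ∈ P.nonunits :=
  red_decomp_mem_nonunits P (peu_inertia_le_decomp hσ) hx

theorem peu_conj_mem {σ : GK} (hσ : σ ∈ P.inertiaSubgroupIn ℚ) {x : Kb} (hx : x ∈ P) :
    σ x ∈ P := by
  have h := Fermat.Agent.Cyclo.inertia_sub_mem_nonunits P hσ hx
  have h2 : σ x = (σ x - x) + x := by ring
  rw [h2]
  exact P.add_mem _ _ (red_mem_of_mem_nonunits P h) hx

theorem peu_inv_mem_inertia {σ : GK} (hσ : σ ∈ P.inertiaSubgroupIn ℚ) :
    σ⁻¹ ∈ P.inertiaSubgroupIn ℚ := (P.inertiaSubgroupIn ℚ).inv_mem hσ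

theorem peu_conj_not_mem {σ : GK} (hσ : σ ∈ P.inertiaSubgroupIn ℚ) {x : Kb} (hx : x ∉ P) :
    σ x ∉ P := by
  intro h
  apply hx
  have h1 := peu_conj_mem (peu_inv_mem_inertia hσ) h
  have h2 : σ⁻¹ (σ x) = x := by
    show (σ⁻¹ * σ) x = x
    rw [inv_mul_cancel]
    rfl
  rwa [h2] at h1

/-- An element whose inverse is a nonunit is not in `P`, and conversely. -/
theorem peu_inv_mem_nonunits_of_not_mem {x : Kb} (hx : x ∉ P) : x⁻¹ ∈ P.nonunits := by
  rw [ValuationSubring.mem_nonunits_iff]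
  have h1 : ¬ P.valuation x ≤ 1 := fun h => hx ((P.valuation_le_one_iff x).1 h)
  rw [not_le] at h1
  rw [map_inv₀]
  exact inv_lt_one_of_one_lt₀ h1

theorem peu_prod_mem {ι : Type*} (s : Finset ι) (f : ι → Kb) (h : ∀ i ∈ s, f i ∈ P) :
    ∏ i ∈ s, f i ∈ P := by
  classical
  induction s using Finset.induction_on with
  | empty => simpa using P.one_mem
  | insert a s ha ih =>
    rw [Finset.prod_insert ha]
    exact P.mul_mem _ _ (h a (Finset.mem_insert_self a s))
      (ih fun i hi => h i (Finset.mem_insert_of_mem hi))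

theorem peu_sum_mem {ι : Type*} (s : Finset ι) (f : ι → Kb) (h : ∀ i ∈ s, f i ∈ P) :
    ∑ i ∈ s, f i ∈ P := by
  classical
  induction s using Finset.induction_on with
  | empty => simpa using P.zero_mem
  | insert a s ha ih =>
    rw [Finset.sum_insert ha]
    exact P.add_mem _ _ (h a (Finset.mem_insert_self a s))
      (ih fun i hi => h i (Finset.mem_insert_of_mem hi))

theorem peu_sum_mem_nonunits {ι : Type*} (s : Finset ι) (f : ι → Kb)
    (h : ∀ i ∈ s, f i ∈ P.nonunits) : ∑ i ∈ s, f i ∈ P.nonunits := by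
  classical
  induction s using Finset.induction_on with
  | empty => simpa using red_zero_mem_nonunits P
  | insert a s ha ih =>
    rw [Finset.sum_insert ha]
    exact red_add_mem_nonunits P (h a (Finset.mem_insert_self a s))
      (ih fun i hi => h i (Finset.mem_insert_of_mem hi))

/-- A product of elements of `P` one of which is a nonunit is a nonunit. -/
theorem peu_prod_mem_nonunits {ι : Type*} (s : Finset ι) (f : ι → Kb) (h : ∀ i ∈ s, f i ∈ P)
    {a : ι} (ha : a ∈ s) (hfa : f a ∈ P.nonunits) : ∏ i ∈ s, f i ∈ P.nonunits := by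
  classical
  rw [← Finset.mul_prod_erase s f ha]
  exact red_mul_mem_nonunits_right P hfa
    (peu_prod_mem _ _ fun i hi => h i (Finset.mem_of_mem_erase hi))

/-- A product of elements whose inverses are nonunits (nonempty index set). -/
theorem peu_prod_inv_mem_nonunits {ι : Type*} (s : Finset ι) (f : ι → Kb)
    (h : ∀ i ∈ s, (f i)⁻¹ ∈ P.nonunits) {a : ι} (ha : a ∈ s) :
    (∏ i ∈ s, f i)⁻¹ ∈ P.nonunits := by
  classical
  rw [← Finset.prod_inv_distrib]
  exact peu_prod_mem_nonunits s (fun i => (f i)⁻¹)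
    (fun i hi => red_mem_of_mem_nonunits P (h i hi)) ha (h a ha)

/-! ### `p`-th roots of unity indexed by `ℤ/p` -/

/-- `c ↦ ζ ^ c.val` on `ℤ/p`. -/
noncomputable def peuChi (p : ℕ) (ζ : Kb) (c : ZMod p) : Kb := ζ ^ c.val

section Chi

variable [Fact p.Prime] {ζ : Kb}

theorem peuChi_natCast (hζ : ζ ^ p = 1) (k : ℕ) : peuChi p ζ (k : ZMod p) = ζ ^ k := by
  unfold peuChi
  rw [ZMod.val_natCast]
  exact (pow_eq_pow_mod k hζ).symm

theorem peuChi_zero : peuChi p ζ 0 = 1 := by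
  unfold peuChi
  rw [ZMod.val_zero, pow_zero]

theorem peuChi_one : peuChi p ζ 1 = ζ := by
  unfold peuChi
  haveI : Fact (1 < p) := ⟨(Fact.out : p.Prime).one_lt⟩
  rw [ZMod.val_one, pow_one]

theorem peuChi_add (hζ : ζ ^ p = 1) (c e : ZMod p) :
    peuChi p ζ (c + e) = peuChi p ζ c * peuChi p ζ e := by
  unfold peuChi
  rw [ZMod.val_add, ← pow_eq_pow_mod _ hζ, pow_add]

theorem peuChi_mul (hζ : ζ ^ p = 1) (c e : ZMod p) :
    peuChi p ζ (c * e) = peuChi p ζ c ^ e.val := by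
  unfold peuChi
  rw [ZMod.val_mul, ← pow_eq_pow_mod _ hζ, pow_mul]

theorem peuChi_pow_p (hζ : ζ ^ p = 1) (c : ZMod p) : peuChi p ζ c ^ p = 1 := by
  unfold peuChi
  rw [← pow_mul, mul_comm, pow_mul, hζ, one_pow]

theorem peu_isPrimitiveRoot (hζ : ζ ^ p = 1) (hζ1 : ζ ≠ 1) : IsPrimitiveRoot ζ p := by
  have h := orderOf_eq_prime hζ hζ1
  rw [← h]
  exact IsPrimitiveRoot.orderOf ζ

theorem peuChi_injective (hζ : ζ ^ p = 1) (hζ1 : ζ ≠ 1) : Function.Injective (peuChi p ζ) := by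
  intro c e h
  have hprim := peu_isPrimitiveRoot hζ hζ1
  have h1 := hprim.pow_inj (ZMod.val_lt c) (ZMod.val_lt e) h
  exact ZMod.val_injective p h1

theorem peuChi_ne_one (hζ : ζ ^ p = 1) (hζ1 : ζ ≠ 1) {c : ZMod p} (hc : c ≠ 0) :
    peuChi p ζ c ≠ 1 := by
  intro h
  apply hc
  apply peuChi_injective hζ hζ1
  rw [h, peuChi_zero]

theorem peu_exists_chi (hζ : ζ ^ p = 1) (hζ1 : ζ ≠ 1) {ξ : Kb} (hξ : ξ ^ p = 1) :
    ∃ c : ZMod p, ξ = peuChi p ζ c := by
  have hprim := peu_isPrimitiveRoot hζ hζ1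
  obtain ⟨i, hi, h⟩ := hprim.eq_pow_of_pow_eq_one hξ
  exact ⟨(i : ZMod p), by rw [peuChi_natCast hζ, h]⟩

theorem peuChi_mem (hζ : ζ ^ p = 1) (c : ZMod p) : peuChi p ζ c ∈ P :=
  Fermat.Agent.Cyclo.pow_eq_one_mem P (Fact.out : p.Prime).ne_zero (peuChi_pow_p hζ c)

theorem peuChi_inv_mem (hζ : ζ ^ p = 1) (c : ZMod p) : (peuChi p ζ c)⁻¹ ∈ P := by
  apply Fermat.Agent.Cyclo.pow_eq_one_mem P (Fact.out : p.Prime).ne_zero (n := p)
  rw [inv_pow, peuChi_pow_p hζ, inv_one]

theorem peuChi_ne_zero (hζ : ζ ^ p = 1) (c : ZMod p) : peuChi p ζ c ≠ 0 := by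
  intro h
  have := peuChi_pow_p hζ c
  rw [h, zero_pow (Fact.out : p.Prime).ne_zero] at this
  exact zero_ne_one this

/-- Sums over `ℤ/p` and over `range p`. -/
theorem peu_sum_zmod (φ : ℕ → Kb) : ∑ c : ZMod p, φ c.val = ∑ k ∈ Finset.range p, φ k := by
  symm
  refine Finset.sum_bij (fun k _ => (k : ZMod p)) (fun _ _ => Finset.mem_univ _) ?_ ?_ ?_
  · intro a ha b hb h
    have h1 := congrArg ZMod.val h
    rwa [ZMod.val_natCast_of_lt (Finset.mem_range.1 ha),
      ZMod.val_natCast_of_lt (Finset.mem_range.1 hb)] at h1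
  · intro c _
    exact ⟨c.val, Finset.mem_range.2 (ZMod.val_lt c), ZMod.natCast_zmod_val c⟩
  · intro a ha
    rw [ZMod.val_natCast_of_lt (Finset.mem_range.1 ha)]

/-- Cyclotomic units: `(ξ - 1) / (η - 1) ∈ P` for `p`-th roots of unity `ξ, η`, `η ≠ 1`. -/
theorem peu_ratio_mem (P : ValuationSubring Kb) {ξ η : Kb} (hη : η ^ p = 1) (hη1 : η ≠ 1)
    (hξ : ξ ^ p = 1) : (ξ - 1) / (η - 1) ∈ P := by
  obtain ⟨c, rfl⟩ := peu_exists_chi hη hη1 hξ
  unfold peuChi
  have h1 : (η ^ c.val - 1) / (η - 1) = ∑ i ∈ Finset.range c.val, η ^ i :=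
    (geom_sum_eq hη1 c.val).symm
  rw [h1]
  refine peu_sum_mem _ _ fun i _ => ?_
  exact pow_mem (Fermat.Agent.Cyclo.pow_eq_one_mem P (Fact.out : p.Prime).ne_zero hη) i

/-- `ζ - 1` is a nonunit of `P` for a `p`-th root of unity `ζ` (`P` over `p`). -/
theorem peu_sub_one_mem_nonunits (hP : P.LiesOverPrime p) (hζ : ζ ^ p = 1) :
    ζ - 1 ∈ P.nonunits := by
  have hp : p.Prime := Fact.out
  have hζP : ζ ∈ P := Fermat.Agent.Cyclo.pow_eq_one_mem P hp.ne_zero hζ
  have hxP : ζ - 1 ∈ P := sub_mem hζP P.one_mem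
  by_contra hnu
  have hinv : (ζ - 1)⁻¹ ∈ P := base_inv_mem_of_not_mem_nonunits hxP hnu
  -- `(x + 1) ^ p = x ^ p + 1 + p x r` in the ring `P`
  obtain ⟨r, hr⟩ := exists_add_pow_prime_eq hp (⟨ζ - 1, hxP⟩ : P) 1
  have hr' := congrArg (fun z : P => (z : Kb)) hr
  simp only [one_pow, mul_one] at hr'
  push_cast at hr'
  rw [sub_add_cancel, hζ] at hr'
  -- so `x ^ p = - p x r`
  have h1 : (ζ - 1) ^ p = -((p : Kb) * ((ζ - 1) * (r : Kb))) := by linear_combination -hr'
  have h2 : (ζ - 1) ^ p ∈ P.nonunits := by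
    rw [h1]
    exact red_neg_mem_nonunits P
      (red_mul_mem_nonunits_right P hP (P.mul_mem _ _ hxP r.2))
  have hx0 : ζ - 1 ≠ 0 := by
    intro h0
    apply hnu
    rw [h0]
    exact red_zero_mem_nonunits P
  have h3 : (1 : Kb) ∈ P.nonunits := by
    have : (1 : Kb) = (ζ - 1) ^ p * ((ζ - 1)⁻¹) ^ p := by
      rw [← mul_pow, mul_inv_cancel₀ hx0, one_pow]
    rw [this]
    exact red_mul_mem_nonunits_right P h2 (pow_mem hinv p)
  exact Fermat.Agent.Cyclo.one_not_mem_nonunits P h3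

/-- `∏_{c ≠ 0} (1 - ζ ^ c) = p`. -/
theorem peu_prod_one_sub (hζ : ζ ^ p = 1) (hζ1 : ζ ≠ 1) :
    ∏ c ∈ (Finset.univ : Finset (ZMod p)).erase 0, (1 - peuChi p ζ c) = (p : Kb) := by
  classical
  have hp : p.Prime := Fact.out
  obtain ⟨n, hn⟩ : ∃ n, p = n + 1 := ⟨p - 1, by have := hp.pos; omega⟩
  have hprim : IsPrimitiveRoot ζ (n + 1) := hn ▸ peu_isPrimitiveRoot hζ hζ1
  have h1 := hprim.prod_one_sub_pow_eq_order
  have h2 : ((n : Kb) + 1) = (p : Kb) := by rw [hn]; push_cast; rfl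
  rw [← h2, ← h1]
  symm
  refine Finset.prod_bij (fun k _ => ((k + 1 : ℕ) : ZMod p)) ?_ ?_ ?_ ?_
  · intro k hk
    have hk' : k + 1 < p := by have := Finset.mem_range.1 hk; omega
    refine Finset.mem_erase.2 ⟨?_, Finset.mem_univ _⟩
    intro h0
    have := congrArg ZMod.val h0
    rw [ZMod.val_natCast_of_lt hk', ZMod.val_zero] at this
    omega
  · intro a ha b hb h
    have ha' : a + 1 < p := by have := Finset.mem_range.1 ha; omega
    have hb' : b + 1 < p := by have := Finset.mem_range.1 hb; omega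
    have h1 := congrArg ZMod.val h
    rw [ZMod.val_natCast_of_lt ha', ZMod.val_natCast_of_lt hb'] at h1
    omega
  · intro c hc
    have hc0 : c ≠ 0 := (Finset.mem_erase.1 hc).1
    have hv : c.val ≠ 0 := fun h => hc0 ((ZMod.val_eq_zero c).1 h)
    have hlt := ZMod.val_lt c
    refine ⟨c.val - 1, Finset.mem_range.2 (by omega), ?_⟩
    show ((c.val - 1 + 1 : ℕ) : ZMod p) = c
    rw [Nat.sub_add_cancel (Nat.one_le_iff_ne_zero.2 hv)]
    exact ZMod.natCast_zmod_val c
  · intro k hk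
    rw [peuChi_natCast hζ]

/-- Conjugation of the powers of `ζ`. -/
theorem peu_conj_chi (hζ : ζ ^ p = 1) {τ : GK} {t : ZMod p} (ht : τ ζ = peuChi p ζ t)
    (c : ZMod p) : τ (peuChi p ζ c) = peuChi p ζ (t * c) := by
  rw [peuChi_mul hζ, ← ht]
  unfold peuChi
  rw [map_pow]

/-- The exponent of a conjugate of `ζ`. -/
theorem peu_exists_exp (hζ : ζ ^ p = 1) (hζ1 : ζ ≠ 1) (τ : GK) :
    ∃ t : ZMod p, t ≠ 0 ∧ τ ζ = peuChi p ζ t := by
  obtain ⟨t, ht⟩ := peu_exists_chi hζ hζ1 (ξ := τ ζ) (by rw [← map_pow, hζ, map_one])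
  refine ⟨t, ?_, ht⟩
  rintro rfl
  rw [peuChi_zero] at ht
  apply hζ1
  have h1 : τ ζ = τ 1 := by rw [ht, map_one]
  exact τ.injective h1

/-- Inertia moves the primitive `p`-th roots of unity (`p` odd). -/
theorem peu_exists_moving (hP : P.LiesOverPrime p) (hunr : UnrProp p P) (hcyc : CycProp p P)
    (hζ : ζ ^ p = 1) (hζ1 : ζ ≠ 1) : ∃ σ ∈ P.inertiaSubgroupIn ℚ, σ ζ ≠ ζ := by
  by_contra h
  push Not at h
  have hfix : ∀ σ ∈ P.inertiaSubgroupIn ℚ, σ (ζ - 1) = ζ - 1 := fun σ hσ => by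
    rw [map_sub, map_one, h σ hσ]
  exact hcyc p Fact.out ζ hζ hζ1 (hunr _ (peu_sub_one_mem_nonunits hP hζ) hfix)

/-- **Orbit product lemma.**  A family `G : ℤ/p → P` permuted by inertia like the powers of `ζ`,
with `G 1` a nonunit, has `G 1 / (1 - ζ) ∈ P`. -/
theorem peu_orbit_div' (hP : P.LiesOverPrime p) (hunr : UnrProp p P)
    (hζ : ζ ^ p = 1) (hζ1 : ζ ≠ 1) (G : ZMod p → Kb)
    (hG : ∀ c, G c ∈ P) (hG1 : G 1 ∈ P.nonunits)
    (hconj : ∀ τ ∈ P.inertiaSubgroupIn ℚ, ∀ t : ZMod p, τ ζ = peuChi p ζ t →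
      ∀ c, τ (G c) = G (t * c)) :
    G 1 / (1 - ζ) ∈ P := by
  classical
  have hp : p.Prime := Fact.out
  -- the orbit of `1`
  set H : Finset (ZMod p) :=
    Finset.univ.filter (fun c => ∃ σ ∈ P.inertiaSubgroupIn ℚ, σ ζ = peuChi p ζ c) with hH
  have hmemH : ∀ c, c ∈ H ↔ ∃ σ ∈ P.inertiaSubgroupIn ℚ, σ ζ = peuChi p ζ c := by
    intro c
    rw [hH, Finset.mem_filter]
    exact ⟨fun h => h.2, fun h => ⟨Finset.mem_univ _, h⟩⟩
  have h1H : (1 : ZMod p) ∈ H := by
    rw [hmemH]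
    exact ⟨1, (P.inertiaSubgroupIn ℚ).one_mem, by rw [peuChi_one]; rfl⟩
  have h0H : ∀ c ∈ H, c ≠ 0 := by
    intro c hc h0
    obtain ⟨σ, -, h⟩ := (hmemH c).1 hc
    rw [h0, peuChi_zero] at h
    apply hζ1
    have h1 : σ ζ = σ 1 := by rw [h, map_one]
    exact σ.injective h1
  have hsub : H ⊆ (Finset.univ : Finset (ZMod p)).erase 0 := fun c hc =>
    Finset.mem_erase.2 ⟨h0H c hc, Finset.mem_univ _⟩
  -- stability of the orbit
  have hstab : ∀ τ ∈ P.inertiaSubgroupIn ℚ, ∀ t : ZMod p, τ ζ = peuChi p ζ t →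
      ∀ c, c ∈ H ↔ t * c ∈ H := by
    intro τ hτ t ht c
    rw [hmemH, hmemH]
    constructor
    · rintro ⟨σ, hσ, h⟩
      refine ⟨τ * σ, (P.inertiaSubgroupIn ℚ).mul_mem hτ hσ, ?_⟩
      show τ (σ ζ) = _
      rw [h, peu_conj_chi hζ ht]
    · rintro ⟨σ, hσ, h⟩
      refine ⟨τ⁻¹ * σ, (P.inertiaSubgroupIn ℚ).mul_mem
        ((P.inertiaSubgroupIn ℚ).inv_mem hτ) hσ, ?_⟩
      show τ⁻¹ (σ ζ) = _
      rw [h, ← peu_conj_chi hζ ht]
      show (τ⁻¹ * τ) _ = _
      rw [inv_mul_cancel]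
      rfl
  -- the quotients
  set y : ZMod p → Kb := fun c => G c / (1 - peuChi p ζ c) with hy
  have hyconj : ∀ τ ∈ P.inertiaSubgroupIn ℚ, ∀ t : ZMod p, τ ζ = peuChi p ζ t →
      ∀ c, τ (y c) = y (t * c) := by
    intro τ hτ t ht c
    simp only [hy]
    rw [map_div₀, map_sub, map_one, hconj τ hτ t ht c, peu_conj_chi hζ ht]
  have hyH : ∀ c ∈ H, ∃ σ ∈ P.inertiaSubgroupIn ℚ, y c = σ (y 1) := by
    intro c hc
    obtain ⟨σ, hσ, h⟩ := (hmemH c).1 hc
    exact ⟨σ, hσ, by rw [hyconj σ hσ c h 1, mul_one]⟩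
  -- the product of the `G c` over the orbit is fixed and a nonunit
  have hDfix : ∀ τ ∈ P.inertiaSubgroupIn ℚ, τ (∏ c ∈ H, G c) = ∏ c ∈ H, G c := by
    intro τ hτ
    obtain ⟨t, ht0, ht⟩ := peu_exists_exp hζ hζ1 τ
    rw [map_prod, Finset.prod_congr rfl (fun c _ => hconj τ hτ t ht c)]
    exact Finset.prod_equiv (Equiv.mulLeft₀ t ht0) (fun c => hstab τ hτ t ht c)
      (fun c _ => rfl)
  have hDnu : ∏ c ∈ H, G c ∈ P.nonunits :=
    peu_prod_mem_nonunits H G (fun c _ => hG c) h1H hG1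
  have hDp : (∏ c ∈ H, G c) / (p : Kb) ∈ P := hunr _ hDnu hDfix
  -- the product of the `1 - ζ ^ c` over the orbit divides `p`
  have hE : (∏ c ∈ (Finset.univ : Finset (ZMod p)).erase 0 \ H, (1 - peuChi p ζ c)) *
      ∏ c ∈ H, (1 - peuChi p ζ c) = (p : Kb) := by
    rw [Finset.prod_sdiff hsub]
    exact peu_prod_one_sub hζ hζ1
  have hE0 : ∏ c ∈ H, (1 - peuChi p ζ c) ≠ 0 := by
    rw [Finset.prod_ne_zero_iff]
    intro c hc h
    exact peuChi_ne_one hζ hζ1 (h0H c hc) (sub_eq_zero.1 h).symm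
  have hRmem : ∏ c ∈ (Finset.univ : Finset (ZMod p)).erase 0 \ H, (1 - peuChi p ζ c) ∈ P :=
    peu_prod_mem _ _ fun c _ => sub_mem P.one_mem (peuChi_mem hζ c)
  have hp0 : (p : Kb) ≠ 0 := Nat.cast_ne_zero.2 hp.ne_zero
  have hprod : ∏ c ∈ H, y c ∈ P := by
    have h1 : ∏ c ∈ H, y c = (∏ c ∈ H, G c) / (p : Kb) *
        ∏ c ∈ (Finset.univ : Finset (ZMod p)).erase 0 \ H, (1 - peuChi p ζ c) := by
      have hR0 : ∏ c ∈ (Finset.univ : Finset (ZMod p)).erase 0 \ H, (1 - peuChi p ζ c) ≠ 0 := by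
        intro h0
        rw [h0, zero_mul] at hE
        exact hp0 hE.symm
      simp only [hy]
      rw [Finset.prod_div_distrib, ← hE]
      field_simp
    rw [h1]
    exact P.mul_mem _ _ hDp hRmem
  -- conclusion
  have hgoal : y 1 ∈ P := by
    by_contra hno
    have hall : ∀ c ∈ H, (y c)⁻¹ ∈ P.nonunits := by
      intro c hc
      obtain ⟨σ, hσ, h⟩ := hyH c hc
      rw [h]
      exact peu_inv_mem_nonunits_of_not_mem (peu_conj_not_mem hσ hno)
    have h2 := peu_prod_inv_mem_nonunits H y hall h1H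
    have h3 : ∏ c ∈ H, y c ≠ 0 := by
      rw [Finset.prod_ne_zero_iff]
      intro c hc h0
      obtain ⟨σ, hσ, h⟩ := hyH c hc
      apply peu_conj_not_mem hσ hno
      rw [← h, h0]
      exact P.zero_mem
    have h4 : (1 : Kb) ∈ P.nonunits := by
      have : (1 : Kb) = (∏ c ∈ H, y c)⁻¹ * ∏ c ∈ H, y c := (inv_mul_cancel₀ h3).symm
      rw [this]
      exact red_mul_mem_nonunits_right P h2 hprod
    exact Fermat.Agent.Cyclo.one_not_mem_nonunits P h4
  simp only [hy] at hgoal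
  rwa [peuChi_one] at hgoal

/-- **Orbit product lemma**, second form: `G 1 / (ζ - 1) ∈ P`. -/
theorem peu_orbit_div (hP : P.LiesOverPrime p) (hunr : UnrProp p P)
    (hζ : ζ ^ p = 1) (hζ1 : ζ ≠ 1) (G : ZMod p → Kb)
    (hG : ∀ c, G c ∈ P) (hG1 : G 1 ∈ P.nonunits)
    (hconj : ∀ τ ∈ P.inertiaSubgroupIn ℚ, ∀ t : ZMod p, τ ζ = peuChi p ζ t →
      ∀ c, τ (G c) = G (t * c)) :
    G 1 / (ζ - 1) ∈ P := by
  have h := peu_orbit_div' hP hunr hζ hζ1 G hG hG1 hconj
  have h1 : G 1 / (ζ - 1) = -(G 1 / (1 - ζ)) := by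
    have h2 : (1 - ζ) = -(ζ - 1) := by ring
    rw [h2, div_neg, neg_neg]
  rw [h1]
  exact P.neg_mem _ h

end Chi

end Fermat.Agent.FFL
end MergeWrap_Lib_FFL_PeuArith

section MergeWrap_Lib_FFL_PeuCore -- from Lib/FFL/PeuCore.lean

set_option autoImplicit false
set_option linter.unusedSectionVars false
set_option linter.unusedVariables false
set_option linter.style.haveILetI false
set_option linter.unnecessarySimpa false

namespace Fermat.Agent.FFL

open Fermat.Agent.FlatMod GaloisRep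

local notation "Kb" => AlgebraicClosure ℚ
local notation "GK" => (AlgebraicClosure ℚ ≃ₐ[ℚ] AlgebraicClosure ℚ)

variable {p : ℕ} {P : ValuationSubring Kb} [Fact p.Prime] {ζ : Kb}

/-- The pairing of functions on `ℤ/p`. -/
noncomputable def peuPair (u f : ZMod p → Kb) : Kb := ∑ c, u c * f c

/-- The Fourier transform on `ℤ/p` with respect to `ζ`. -/
noncomputable def peuHat (ζ : Kb) (u : ZMod p → Kb) (i : ZMod p) : Kb :=
  ∑ c, u c * peuChi p ζ (i * c)

/-- Convolution with `([1] - ζ^k [0]) / (ζ - ζ^k)`. -/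
noncomputable def peuStep (ζ : Kb) (k : ZMod p) (u : ZMod p → Kb) : ZMod p → Kb :=
  fun c => (u (c - 1) - peuChi p ζ k * u c) / (ζ - peuChi p ζ k)

theorem peuChi_neg (hζ : ζ ^ p = 1) (c : ZMod p) : peuChi p ζ (-c) = (peuChi p ζ c)⁻¹ := by
  have h : peuChi p ζ (-c) * peuChi p ζ c = 1 := by
    rw [← peuChi_add hζ, neg_add_cancel, peuChi_zero]
  exact eq_inv_of_mul_eq_one_left h

theorem peuChi_sub (hζ : ζ ^ p = 1) (c e : ZMod p) :
    peuChi p ζ (c - e) = peuChi p ζ c * (peuChi p ζ e)⁻¹ := by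
  rw [sub_eq_add_neg, peuChi_add hζ, peuChi_neg hζ]

/-- Shifting the summation variable. -/
theorem peu_sum_shift (φ : ZMod p → Kb) (a : ZMod p) : ∑ c, φ (c + a) = ∑ c, φ c :=
  Fintype.sum_equiv (Equiv.addRight a) _ _ (fun _ => rfl)

theorem peuHat_step (hζ : ζ ^ p = 1) (k : ZMod p) (u : ZMod p → Kb) (i : ZMod p) :
    peuHat ζ (peuStep ζ k u) i =
      (peuChi p ζ i - peuChi p ζ k) / (ζ - peuChi p ζ k) * peuHat ζ u i := by
  unfold peuHat peuStep
  have h1 : ∑ c, u (c - 1) * peuChi p ζ (i * c) = peuChi p ζ i * ∑ c, u c * peuChi p ζ (i * c) := by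
    rw [← peu_sum_shift (fun c => u (c - 1) * peuChi p ζ (i * c)) 1, Finset.mul_sum]
    refine Finset.sum_congr rfl fun c _ => ?_
    show u (c + 1 - 1) * peuChi p ζ (i * (c + 1)) = _
    rw [add_sub_cancel_right, mul_add, mul_one, peuChi_add hζ]
    ring
  have h2 : ∀ c, (u (c - 1) - peuChi p ζ k * u c) / (ζ - peuChi p ζ k) * peuChi p ζ (i * c) =
      (u (c - 1) * peuChi p ζ (i * c) - peuChi p ζ k * (u c * peuChi p ζ (i * c))) /
        (ζ - peuChi p ζ k) := fun c => by ring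
  rw [Finset.sum_congr rfl (fun c _ => h2 c), ← Finset.sum_div, Finset.sum_sub_distrib, h1,
    ← Finset.mul_sum]
  ring

/-- Orthogonality of the characters of `ℤ/p`. -/
theorem peu_orthogonality (hζ : ζ ^ p = 1) (hζ1 : ζ ≠ 1) (d : ZMod p) :
    ∑ i : ZMod p, peuChi p ζ (i * d) = if d = 0 then (p : Kb) else 0 := by
  by_cases hd : d = 0
  · rw [if_pos hd, hd]
    simp only [mul_zero, peuChi_zero, Finset.sum_const, Finset.card_univ, ZMod.card,
      nsmul_eq_mul, mul_one]
  · rw [if_neg hd]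
    have h1 : ∑ i : ZMod p, peuChi p ζ (i * d) =
        peuChi p ζ d * ∑ i : ZMod p, peuChi p ζ (i * d) := by
      conv_lhs => rw [← peu_sum_shift (fun i => peuChi p ζ (i * d)) 1]
      rw [Finset.mul_sum]
      refine Finset.sum_congr rfl fun i _ => ?_
      show peuChi p ζ ((i + 1) * d) = _
      rw [add_mul, one_mul, peuChi_add hζ, mul_comm]
    have h2 : (peuChi p ζ d - 1) * ∑ i : ZMod p, peuChi p ζ (i * d) = 0 := by
      rw [sub_mul, one_mul, ← h1, sub_self]
    rcases mul_eq_zero.1 h2 with h | h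
    · exact absurd (sub_eq_zero.1 h) (peuChi_ne_one hζ hζ1 hd)
    · exact h

/-- Fourier inversion on `ℤ/p`. -/
theorem peu_fourier_inv (hζ : ζ ^ p = 1) (hζ1 : ζ ≠ 1) (u : ZMod p → Kb) (c : ZMod p) :
    u c = (p : Kb)⁻¹ * ∑ i, peuHat ζ u i * (peuChi p ζ (i * c))⁻¹ := by
  classical
  have hp0 : (p : Kb) ≠ 0 := Nat.cast_ne_zero.2 (Fact.out : p.Prime).ne_zero
  unfold peuHat
  have h1 : ∀ i : ZMod p, (∑ e, u e * peuChi p ζ (i * e)) * (peuChi p ζ (i * c))⁻¹ =
      ∑ e, u e * peuChi p ζ (i * (e - c)) := by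
    intro i
    rw [Finset.sum_mul]
    refine Finset.sum_congr rfl fun e _ => ?_
    rw [mul_sub, peuChi_sub hζ]
    ring
  rw [Finset.sum_congr rfl (fun i _ => h1 i), Finset.sum_comm]
  have h2 : ∀ e : ZMod p, ∑ i, u e * peuChi p ζ (i * (e - c)) =
      u e * (if e - c = 0 then (p : Kb) else 0) := by
    intro e
    rw [← Finset.mul_sum, peu_orthogonality hζ hζ1]
  rw [Finset.sum_congr rfl (fun e _ => h2 e)]
  have h3 : ∀ e : ZMod p, u e * (if e - c = 0 then (p : Kb) else 0) =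
      if e = c then u c * (p : Kb) else 0 := by
    intro e
    by_cases h : e = c
    · rw [if_pos h, if_pos (by rw [h, sub_self]), h]
    · rw [if_neg h, if_neg (fun h' => h (sub_eq_zero.1 h')), mul_zero]
  rw [Finset.sum_congr rfl (fun e _ => h3 e), Finset.sum_ite_eq' Finset.univ c,
    if_pos (Finset.mem_univ _)]
  field_simp

/-- The values of the linear factors on `𝔄` are integral. -/
theorem peu_factor_mem (P : ValuationSubring Kb) (hζ : ζ ^ p = 1) (hζ1 : ζ ≠ 1) {k : ZMod p}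
    (hk : k ≠ 1) {a b : Kb} (ha : a ∈ P) (hb : b ∈ P) (hab : (a - b) / (ζ - 1) ∈ P) :
    (a - peuChi p ζ k * b) / (ζ - peuChi p ζ k) ∈ P := by
  have hζ0 : ζ - 1 ≠ 0 := sub_ne_zero.2 hζ1
  have hk1 : (1 : ZMod p) - k ≠ 0 := fun h => hk (sub_eq_zero.1 h).symm
  have hη1 : peuChi p ζ (1 - k) ≠ 1 := peuChi_ne_one hζ hζ1 hk1
  have hη0 : peuChi p ζ (1 - k) - 1 ≠ 0 := sub_ne_zero.2 hη1
  have hχ0 : peuChi p ζ k ≠ 0 := peuChi_ne_zero hζ k
  have hden : ζ - peuChi p ζ k = peuChi p ζ k * (peuChi p ζ (1 - k) - 1) := by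
    rw [peuChi_sub hζ, peuChi_one]
    field_simp
  have hden0 : ζ - peuChi p ζ k ≠ 0 := by
    rw [hden]
    exact mul_ne_zero hχ0 hη0
  have h1 : (a - peuChi p ζ k * b) / (ζ - peuChi p ζ k) =
      (peuChi p ζ k)⁻¹ * ((a - b) / (ζ - 1) * ((ζ - 1) / (peuChi p ζ (1 - k) - 1))
        - b * ((peuChi p ζ k - 1) / (peuChi p ζ (1 - k) - 1))) := by
    rw [hden]
    field_simp
    ring
  rw [h1]
  refine P.mul_mem _ _ (peuChi_inv_mem hζ k) (sub_mem (P.mul_mem _ _ hab ?_) (P.mul_mem _ _ hb ?_))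
  · exact peu_ratio_mem P (peuChi_pow_p hζ _) hη1 hζ
  · exact peu_ratio_mem P (peuChi_pow_p hζ _) hη1 (peuChi_pow_p hζ k)

/-- One step preserves integrality on a comultiplication-closed family. -/
theorem peuPair_step_mem (hζ : ζ ^ p = 1) (hζ1 : ζ ≠ 1) (𝔄 : Set (ZMod p → Kb))
    (hcomul : ComulClosed 𝔄) (hval : ∀ f ∈ 𝔄, ∀ c, f c ∈ P)
    (hdiv : ∀ f ∈ 𝔄, (f 1 - f 0) / (ζ - 1) ∈ P) {k : ZMod p} (hk : k ≠ 1)
    (u : ZMod p → Kb) (hu : ∀ f ∈ 𝔄, peuPair u f ∈ P) :
    ∀ f ∈ 𝔄, peuPair (peuStep ζ k u) f ∈ P := by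
  intro f hf
  obtain ⟨n, g, h, hg, hh, hgh⟩ := hcomul f hf
  have h1 : ∑ c, u (c - 1) * f c = ∑ i, peuPair u (g i) * h i 1 := by
    rw [← peu_sum_shift (fun c => u (c - 1) * f c) 1]
    have : ∀ c : ZMod p, u (c + 1 - 1) * f (c + 1) = ∑ i, u c * g i c * h i 1 := by
      intro c
      rw [add_sub_cancel_right, hgh, Finset.mul_sum]
      exact Finset.sum_congr rfl fun i _ => by ring
    rw [Finset.sum_congr rfl (fun c _ => this c), Finset.sum_comm]
    refine Finset.sum_congr rfl fun i _ => ?_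
    unfold peuPair
    rw [Finset.sum_mul]
  have h2 : ∑ c, u c * f c = ∑ i, peuPair u (g i) * h i 0 := by
    have : ∀ c : ZMod p, u c * f c = ∑ i, u c * g i c * h i 0 := by
      intro c
      have h0 := hgh c 0
      rw [add_zero] at h0
      rw [h0, Finset.mul_sum]
      exact Finset.sum_congr rfl fun i _ => by ring
    rw [Finset.sum_congr rfl (fun c _ => this c), Finset.sum_comm]
    refine Finset.sum_congr rfl fun i _ => ?_
    unfold peuPair
    rw [Finset.sum_mul]
  have h3 : peuPair (peuStep ζ k u) f =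
      ∑ i, peuPair u (g i) * ((h i 1 - peuChi p ζ k * h i 0) / (ζ - peuChi p ζ k)) := by
    have e1 : peuPair (peuStep ζ k u) f =
        (∑ c, u (c - 1) * f c - peuChi p ζ k * ∑ c, u c * f c) / (ζ - peuChi p ζ k) := by
      unfold peuPair peuStep
      rw [Finset.mul_sum, ← Finset.sum_sub_distrib, Finset.sum_div]
      exact Finset.sum_congr rfl fun c _ => by ring
    rw [e1, h1, h2, Finset.mul_sum, ← Finset.sum_sub_distrib, Finset.sum_div]
    exact Finset.sum_congr rfl fun i _ => by ring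
  rw [h3]
  refine peu_sum_mem _ _ fun i _ => P.mul_mem _ _ (hu _ (hg i)) ?_
  exact peu_factor_mem P hζ hζ1 hk (hval _ (hh i) 1) (hval _ (hh i) 0) (hdiv _ (hh i))

/-- Partial products: for every finite set `s` of `k ≠ 1` there is an integral functional with
Fourier transform `∏_{k ∈ s} (ζ^i - ζ^k) / (ζ - ζ^k)`. -/
theorem peu_exists_partial (hζ : ζ ^ p = 1) (hζ1 : ζ ≠ 1) (𝔄 : Set (ZMod p → Kb))
    (hcomul : ComulClosed 𝔄) (hval : ∀ f ∈ 𝔄, ∀ c, f c ∈ P)
    (hdiv : ∀ f ∈ 𝔄, (f 1 - f 0) / (ζ - 1) ∈ P) (s : Finset (ZMod p)) (hs : (1 : ZMod p) ∉ s) :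
    ∃ u : ZMod p → Kb, (∀ f ∈ 𝔄, peuPair u f ∈ P) ∧
      ∀ i, peuHat ζ u i = ∏ k ∈ s, (peuChi p ζ i - peuChi p ζ k) / (ζ - peuChi p ζ k) := by
  classical
  induction s using Finset.induction_on with
  | empty =>
    refine ⟨fun c => if c = 0 then 1 else 0, fun f hf => ?_, fun i => ?_⟩
    · unfold peuPair
      simp only [ite_mul, one_mul, zero_mul, Finset.sum_ite_eq', Finset.mem_univ, if_true]
      exact hval f hf 0
    · unfold peuHat
      simp only [ite_mul, one_mul, zero_mul, Finset.sum_ite_eq', Finset.mem_univ, if_true,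
        mul_zero, peuChi_zero, Finset.prod_empty]
  | insert k s hks ih =>
    have hk1 : k ≠ 1 := fun h => hs (h ▸ Finset.mem_insert_self k s)
    obtain ⟨u, hu, hhat⟩ := ih (fun h => hs (Finset.mem_insert_of_mem h))
    refine ⟨peuStep ζ k u, peuPair_step_mem hζ hζ1 𝔄 hcomul hval hdiv hk1 u hu, fun i => ?_⟩
    rw [peuHat_step hζ, hhat, Finset.prod_insert hks]

/-- **CORE lemma for PEU**: the idempotent of the character `ζ` is integral on `𝔄`. -/
theorem peu_core (hζ : ζ ^ p = 1) (hζ1 : ζ ≠ 1) (𝔄 : Set (ZMod p → Kb))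
    (hcomul : ComulClosed 𝔄) (hval : ∀ f ∈ 𝔄, ∀ c, f c ∈ P)
    (hdiv : ∀ f ∈ 𝔄, (f 1 - f 0) / (ζ - 1) ∈ P) (f : ZMod p → Kb) (hf : f ∈ 𝔄) :
    (p : Kb)⁻¹ * ∑ c, (peuChi p ζ c)⁻¹ * f c ∈ P := by
  classical
  obtain ⟨u, hu, hhat⟩ := peu_exists_partial hζ hζ1 𝔄 hcomul hval hdiv
    ((Finset.univ : Finset (ZMod p)).erase 1) (Finset.notMem_erase _ _)
  have hhat1 : peuHat ζ u 1 = 1 := by
    rw [hhat]
    refine Finset.prod_eq_one fun k hk => ?_
    have hk1 : k ≠ 1 := (Finset.mem_erase.1 hk).1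
    rw [peuChi_one]
    refine div_self (sub_ne_zero.2 fun h => hk1 ?_)
    apply peuChi_injective hζ hζ1
    rw [peuChi_one]
    exact h.symm
  have hhat0 : ∀ i : ZMod p, i ≠ 1 → peuHat ζ u i = 0 := by
    intro i hi
    rw [hhat]
    refine Finset.prod_eq_zero (Finset.mem_erase.2 ⟨hi, Finset.mem_univ i⟩) ?_
    rw [sub_self, zero_div]
  have hu_eq : ∀ c, u c = (p : Kb)⁻¹ * (peuChi p ζ c)⁻¹ := by
    intro c
    rw [peu_fourier_inv hζ hζ1 u c]
    congr 1
    rw [Finset.sum_eq_single (1 : ZMod p)]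
    · rw [hhat1, one_mul, one_mul]
    · intro i _ hi
      rw [hhat0 i hi, zero_mul]
    · intro h
      exact absurd (Finset.mem_univ _) h
  have h1 := hu f hf
  unfold peuPair at h1
  have h2 : ∑ c, u c * f c = (p : Kb)⁻¹ * ∑ c, (peuChi p ζ c)⁻¹ * f c := by
    rw [Finset.mul_sum]
    exact Finset.sum_congr rfl fun c _ => by rw [hu_eq c]; ring
  rwa [h2] at h1

end Fermat.Agent.FFL
end MergeWrap_Lib_FFL_PeuCore

section MergeWrap_Lib_FFL_PeuProj -- from Lib/FFL/PeuProj.lean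

set_option autoImplicit false
set_option linter.unusedSectionVars false
set_option linter.unusedVariables false
set_option linter.style.haveILetI false
set_option linter.unnecessarySimpa false

namespace Fermat.Agent.FFL

open Fermat.Agent.FlatMod GaloisRep

local notation "Kb" => AlgebraicClosure ℚ
local notation "GK" => (AlgebraicClosure ℚ ≃ₐ[ℚ] AlgebraicClosure ℚ)

/-- Hypotheses of the abstract PEU theorem. -/
structure PeuHyp (p : ℕ) (P : ValuationSubring Kb) {M : Type*} [AddCommGroup M]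
    (act : GK → M → M) (B : Set (M → Kb)) (N : AddSubgroup M) (ι : M → Kb) : Prop where
  act_add : ∀ σ ∈ P.inertiaSubgroupIn ℚ, ∀ x y, act σ (x + y) = act σ x + act σ y
  val_mem : ∀ f ∈ B, ∀ x, f x ∈ P
  equiv : ∀ f ∈ B, ∀ σ ∈ P.inertiaSubgroupIn ℚ, ∀ x, f (act σ x) = σ (f x)
  comul : ComulClosed B
  ι_pow : ∀ n ∈ N, ι n ^ p = 1
  ι_add : ∀ n ∈ N, ∀ n' ∈ N, ι (n + n') = ι n * ι n'
  act_mem : ∀ σ ∈ P.inertiaSubgroupIn ℚ, ∀ n ∈ N, act σ n ∈ N
  ι_equiv : ∀ σ ∈ P.inertiaSubgroupIn ℚ, ∀ n ∈ N, ι (act σ n) = σ (ι n)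
  inv : ∀ f ∈ B, ∀ n ∈ N, ι n = 1 → ∀ x, f (x + n) = f x
  quot : ∀ σ ∈ P.inertiaSubgroupIn ℚ, ∀ m, act σ m - m ∈ N

/-- The weight-one projector (Lagrange resolvent) along `n₀`. -/
noncomputable def peuE (p : ℕ) [Fact p.Prime] {M : Type*} [AddCommGroup M] (ζ : Kb) (n₀ : M)
    (f : M → Kb) :
    M → Kb :=
  fun x => (p : Kb)⁻¹ * ∑ c : ZMod p, (peuChi p ζ c)⁻¹ * f (x + c.val • n₀)

variable {p : ℕ} {P : ValuationSubring Kb} [Fact p.Prime] {M : Type*} [AddCommGroup M]
  {act : GK → M → M} {B : Set (M → Kb)} {N : AddSubgroup M} {ι : M → Kb}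

namespace PeuHyp

variable (H : PeuHyp p P act B N ι)
include H

theorem ι_zero : ι 0 = 1 := by
  have hp : p.Prime := Fact.out
  have h1 := H.ι_add 0 N.zero_mem 0 N.zero_mem
  rw [add_zero] at h1
  have h2 := H.ι_pow 0 N.zero_mem
  have h0 : ι 0 ≠ 0 := by
    intro h
    rw [h, zero_pow hp.ne_zero] at h2
    exact zero_ne_one h2
  have h3 : ι 0 * (ι 0 - 1) = 0 := by linear_combination -h1
  rcases mul_eq_zero.1 h3 with h | h
  · exact absurd h h0
  · exact sub_eq_zero.1 h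

theorem ι_ne_zero {n : M} (hn : n ∈ N) : ι n ≠ 0 := by
  have hp : p.Prime := Fact.out
  intro h
  have h2 := H.ι_pow n hn
  rw [h, zero_pow hp.ne_zero] at h2
  exact zero_ne_one h2

theorem ι_neg {n : M} (hn : n ∈ N) : ι (-n) = (ι n)⁻¹ := by
  have h1 := H.ι_add (-n) (N.neg_mem hn) n hn
  rw [neg_add_cancel, H.ι_zero] at h1
  exact eq_inv_of_mul_eq_one_left h1.symm

theorem ι_sub {n n' : M} (hn : n ∈ N) (hn' : n' ∈ N) : ι (n - n') = ι n * (ι n')⁻¹ := by
  rw [sub_eq_add_neg, H.ι_add n hn (-n') (N.neg_mem hn'), H.ι_neg hn']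

theorem ι_nsmul {n : M} (hn : n ∈ N) (k : ℕ) : ι (k • n) = ι n ^ k := by
  induction k with
  | zero => rw [zero_smul, pow_zero, H.ι_zero]
  | succ k ih =>
    rw [succ_nsmul, H.ι_add _ (N.nsmul_mem hn k) n hn, ih, pow_succ]

theorem ι_val_smul {n₀ : M} (hn₀ : n₀ ∈ N) (c : ZMod p) :
    ι (c.val • n₀) = peuChi p (ι n₀) c := by
  rw [H.ι_nsmul hn₀]
  rfl

theorem act_zero {σ : GK} (hσ : σ ∈ P.inertiaSubgroupIn ℚ) : act σ 0 = 0 := by
  have h := H.act_add σ hσ 0 0
  rw [add_zero] at h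
  exact left_eq_add.1 h

theorem act_nsmul {σ : GK} (hσ : σ ∈ P.inertiaSubgroupIn ℚ) (k : ℕ) (x : M) :
    act σ (k • x) = k • act σ x := by
  induction k with
  | zero => rw [zero_smul, zero_smul, H.act_zero hσ]
  | succ k ih => rw [succ_nsmul, succ_nsmul, H.act_add σ hσ, ih]

/-- **Normal form**: on `N`, the functions of `B` only see `ι`. -/
theorem normal_form {n₀ : M} (hn₀ : n₀ ∈ N) {f : M → Kb} (hf : f ∈ B) (y : M) {n : M}
    (hn : n ∈ N) {c : ZMod p} (hc : ι n = peuChi p (ι n₀) c) :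
    f (y + n) = f (y + c.val • n₀) := by
  have hmem : n - c.val • n₀ ∈ N := N.sub_mem hn (N.nsmul_mem hn₀ _)
  have h1 : ι (n - c.val • n₀) = 1 := by
    rw [H.ι_sub hn (N.nsmul_mem hn₀ _), H.ι_val_smul hn₀, hc]
    exact mul_inv_cancel₀ (peuChi_ne_zero (H.ι_pow n₀ hn₀) c)
  have h2 := H.inv f hf _ hmem h1 (y + c.val • n₀)
  rw [← h2]
  congr 1
  abel

/-! ### The kernel of reduction -/

/-- Congruent points have congruent sums. -/
theorem cong_add {w₁ w₁' w₂ w₂' : M} (h₁ : ∀ f ∈ B, f w₁ - f w₁' ∈ P.nonunits)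
    (h₂ : ∀ f ∈ B, f w₂ - f w₂' ∈ P.nonunits) :
    ∀ f ∈ B, f (w₁ + w₂) - f (w₁' + w₂') ∈ P.nonunits := by
  intro f hf
  obtain ⟨n, g, h, hg, hh, hgh⟩ := H.comul f hf
  rw [hgh, hgh, ← Finset.sum_sub_distrib]
  refine peu_sum_mem_nonunits _ _ fun i _ => ?_
  have e : g i w₁ * h i w₂ - g i w₁' * h i w₂' =
      (g i w₁ - g i w₁') * h i w₂ + g i w₁' * (h i w₂ - h i w₂') := by ring
  rw [e]
  exact red_add_mem_nonunits P
    (red_mul_mem_nonunits_right P (h₁ _ (hg i)) (H.val_mem _ (hh i) _))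
    (red_mul_mem_nonunits_left P (H.val_mem _ (hg i) _) (h₂ _ (hh i)))

theorem act_sub_cong {σ : GK} (hσ : σ ∈ P.inertiaSubgroupIn ℚ) (v : M) :
    ∀ f ∈ B, f (act σ v - v) - f 0 ∈ P.nonunits := by
  have h1 : ∀ f ∈ B, f (act σ v) - f v ∈ P.nonunits := by
    intro f hf
    rw [H.equiv f hf σ hσ]
    exact Fermat.Agent.Cyclo.inertia_sub_mem_nonunits P hσ (H.val_mem f hf v)
  have h2 : ∀ f ∈ B, f (-v) - f (-v) ∈ P.nonunits := by
    intro f _
    rw [sub_self]
    exact red_zero_mem_nonunits P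
  intro f hf
  have := H.cong_add h1 h2 f hf
  rwa [← sub_eq_add_neg, ← sub_eq_add_neg, sub_self] at this

theorem nsmul_cong {w : M} (hw : ∀ f ∈ B, f w - f 0 ∈ P.nonunits) (k : ℕ) :
    ∀ f ∈ B, f (k • w) - f 0 ∈ P.nonunits := by
  induction k with
  | zero =>
    intro f _
    rw [zero_smul, sub_self]
    exact red_zero_mem_nonunits P
  | succ k ih =>
    intro f hf
    have := H.cong_add ih hw f hf
    rwa [add_zero, ← succ_nsmul] at this

/-- **S1**: a point `n₀ ∈ N` with `ι n₀ ≠ 1` reduces to the identity. -/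
theorem redKer_of_ne_one (hP : P.LiesOverPrime p) (hunr : UnrProp p P) (hcyc : CycProp p P)
    {n₀ : M} (hn₀ : n₀ ∈ N) (hζ1 : ι n₀ ≠ 1) : ∀ f ∈ B, f n₀ - f 0 ∈ P.nonunits := by
  have hζ : ι n₀ ^ p = 1 := H.ι_pow n₀ hn₀
  obtain ⟨σ, hσ, hmove⟩ := peu_exists_moving hP hunr hcyc hζ hζ1
  obtain ⟨t, ht0, ht⟩ := peu_exists_exp hζ hζ1 σ
  have ht1 : t - 1 ≠ 0 := by
    intro h
    apply hmove
    rw [ht, sub_eq_zero.1 h, peuChi_one]
  -- the point `w = σ n₀ - n₀`
  have hwN : act σ n₀ - n₀ ∈ N := H.quot σ hσ n₀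
  have hιw : ι (act σ n₀ - n₀) = peuChi p (ι n₀) (t - 1) := by
    rw [H.ι_sub (H.act_mem σ hσ n₀ hn₀) hn₀, H.ι_equiv σ hσ n₀ hn₀, ht, peuChi_sub hζ,
      peuChi_one]
  have hw := H.act_sub_cong hσ n₀
  set k : ℕ := ((t - 1)⁻¹ : ZMod p).val with hk
  have hkw := H.nsmul_cong hw k
  have hιkw : ι (k • (act σ n₀ - n₀)) = peuChi p (ι n₀) 1 := by
    rw [H.ι_nsmul hwN, hιw, hk, ← peuChi_mul hζ, mul_inv_cancel₀ ht1]
  intro f hf
  have h1 := H.normal_form hn₀ hf 0 (N.nsmul_mem hwN k) hιkw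
  haveI : Fact (1 < p) := ⟨(Fact.out : p.Prime).one_lt⟩
  rw [zero_add, zero_add, ZMod.val_one, one_smul] at h1
  rw [← h1]
  exact hkw f hf

/-- **S2**: divisibility by `ζ - 1`. -/
theorem div_mem (hP : P.LiesOverPrime p) (hunr : UnrProp p P)
    {n₀ : M} (hn₀ : n₀ ∈ N) (hζ1 : ι n₀ ≠ 1) (hred : ∀ f ∈ B, f n₀ - f 0 ∈ P.nonunits)
    {f : M → Kb} (hf : f ∈ B) :
    (f n₀ - f 0) / (ι n₀ - 1) ∈ P := by
  have hζ : ι n₀ ^ p = 1 := H.ι_pow n₀ hn₀
  haveI : Fact (1 < p) := ⟨(Fact.out : p.Prime).one_lt⟩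
  have h := peu_orbit_div hP hunr hζ hζ1 (fun c : ZMod p => f (c.val • n₀) - f 0)
    (fun c => sub_mem (H.val_mem f hf _) (H.val_mem f hf _))
    (by
      show f ((1 : ZMod p).val • n₀) - f 0 ∈ P.nonunits
      rw [ZMod.val_one, one_smul]
      exact hred f hf)
    (by
      intro τ hτ t ht c
      show τ (f (c.val • n₀) - f 0) = f ((t * c).val • n₀) - f 0
      rw [map_sub, ← H.equiv f hf τ hτ, ← H.equiv f hf τ hτ, H.act_zero hτ,
        H.act_nsmul hτ]
      have hmem : c.val • act τ n₀ ∈ N := N.nsmul_mem (H.act_mem τ hτ n₀ hn₀) _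
      have hι : ι (c.val • act τ n₀) = peuChi p (ι n₀) (t * c) := by
        rw [H.ι_nsmul (H.act_mem τ hτ n₀ hn₀), H.ι_equiv τ hτ n₀ hn₀, ht, ← peuChi_mul hζ]
      have h1 := H.normal_form hn₀ hf 0 hmem hι
      rw [zero_add, zero_add] at h1
      rw [h1])
  have h2 : f ((1 : ZMod p).val • n₀) - f 0 = f n₀ - f 0 := by
    rw [ZMod.val_one, one_smul]
  simpa only [h2] using h

/-- **Case B**: if `n₀` does not reduce to the identity, inertia acts trivially modulo
`ker ι`. -/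
theorem ι_act_sub_eq_one {n₀ : M} (hn₀ : n₀ ∈ N)
    (hnot : ¬ ∀ f ∈ B, f n₀ - f 0 ∈ P.nonunits) {σ : GK} (hσ : σ ∈ P.inertiaSubgroupIn ℚ)
    (m : M) : ι (act σ m - m) = 1 := by
  by_contra hne
  apply hnot
  have hwN : act σ m - m ∈ N := H.quot σ hσ m
  have hw := H.act_sub_cong hσ m
  obtain ⟨c, hc⟩ := peu_exists_chi (H.ι_pow _ hwN) hne (H.ι_pow n₀ hn₀)
  have hkw := H.nsmul_cong hw c.val
  have hιkw : ι (c.val • (act σ m - m)) = peuChi p (ι n₀) 1 := by
    rw [H.ι_nsmul hwN, peuChi_one, hc]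
    rfl
  intro f hf
  have h1 := H.normal_form hn₀ hf 0 (N.nsmul_mem hwN c.val) hιkw
  haveI : Fact (1 < p) := ⟨(Fact.out : p.Prime).one_lt⟩
  rw [zero_add, zero_add, ZMod.val_one, one_smul] at h1
  rw [← h1]
  exact hkw f hf

/-! ### Integrality of the projector -/

omit H in
/-- The family of restrictions to the lines `x + ℤ n₀`, as functions on `ℤ/p`. -/
def lineFam (B : Set (M → Kb)) (n₀ : M) : Set (ZMod p → Kb) :=
  {φ | ∃ f ∈ B, ∃ x : M, φ = fun c => f (x + c.val • n₀)}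

theorem lineFam_comul {n₀ : M} (hn₀ : n₀ ∈ N) : ComulClosed (lineFam (p := p) B n₀) := by
  rintro φ ⟨f, hf, x, rfl⟩
  obtain ⟨n, g, h, hg, hh, hgh⟩ := H.comul f hf
  refine ⟨n, fun i c => g i (x + c.val • n₀), fun i c => h i (0 + c.val • n₀),
    fun i => ⟨g i, hg i, x, rfl⟩, fun i => ⟨h i, hh i, 0, rfl⟩, fun c e => ?_⟩
  show f (x + (c + e).val • n₀) = ∑ i, g i (x + c.val • n₀) * h i (0 + e.val • n₀)
  have hmem : c.val • n₀ + e.val • n₀ ∈ N := N.add_mem (N.nsmul_mem hn₀ _) (N.nsmul_mem hn₀ _)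
  have hι : ι (c.val • n₀ + e.val • n₀) = peuChi p (ι n₀) (c + e) := by
    rw [H.ι_add _ (N.nsmul_mem hn₀ _) _ (N.nsmul_mem hn₀ _), H.ι_val_smul hn₀,
      H.ι_val_smul hn₀, peuChi_add (H.ι_pow n₀ hn₀)]
  rw [← H.normal_form hn₀ hf x hmem hι, ← add_assoc, hgh]
  simp only [zero_add]

theorem lineFam_val {n₀ : M} : ∀ φ ∈ lineFam (p := p) B n₀, ∀ c, φ c ∈ P := by
  rintro φ ⟨f, hf, x, rfl⟩ c
  exact H.val_mem f hf _

theorem lineFam_div (hP : P.LiesOverPrime p) (hunr : UnrProp p P)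
    {n₀ : M} (hn₀ : n₀ ∈ N) (hζ1 : ι n₀ ≠ 1) (hred : ∀ f ∈ B, f n₀ - f 0 ∈ P.nonunits) :
    ∀ φ ∈ lineFam (p := p) B n₀, (φ 1 - φ 0) / (ι n₀ - 1) ∈ P := by
  rintro φ ⟨f, hf, x, rfl⟩
  haveI : Fact (1 < p) := ⟨(Fact.out : p.Prime).one_lt⟩
  show (f (x + (1 : ZMod p).val • n₀) - f (x + (0 : ZMod p).val • n₀)) / (ι n₀ - 1) ∈ P
  rw [ZMod.val_one, one_smul, ZMod.val_zero, zero_smul]
  obtain ⟨n, g, h, hg, hh, hgh⟩ := H.comul f hf
  rw [hgh, hgh, ← Finset.sum_sub_distrib, Finset.sum_div]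
  refine peu_sum_mem _ _ fun i _ => ?_
  have e : (g i x * h i n₀ - g i x * h i 0) / (ι n₀ - 1) =
      g i x * ((h i n₀ - h i 0) / (ι n₀ - 1)) := by ring
  rw [e]
  exact P.mul_mem _ _ (H.val_mem _ (hg i) _) (H.div_mem hP hunr hn₀ hζ1 hred (hh i))

/-- **S3**: the projector is integral on `B`. -/
theorem peuE_mem (hP : P.LiesOverPrime p) (hunr : UnrProp p P)
    {n₀ : M} (hn₀ : n₀ ∈ N) (hζ1 : ι n₀ ≠ 1) (hred : ∀ f ∈ B, f n₀ - f 0 ∈ P.nonunits)
    {f : M → Kb} (hf : f ∈ B) (x : M) :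
    peuE p (ι n₀) n₀ f x ∈ P :=
  peu_core (H.ι_pow n₀ hn₀) hζ1 (lineFam B n₀) (H.lineFam_comul hn₀) H.lineFam_val
    (H.lineFam_div hP hunr hn₀ hζ1 hred) _ ⟨f, hf, x, rfl⟩

/-! ### Properties of the projector -/

/-- The projector has weight one: `E f (x + n) = ι n * E f x` for `n ∈ N`. -/
theorem peuE_weight {n₀ : M} (hn₀ : n₀ ∈ N) (hζ1 : ι n₀ ≠ 1) {f : M → Kb} (hf : f ∈ B)
    (x : M) {n : M} (hn : n ∈ N) :
    peuE p (ι n₀) n₀ f (x + n) = ι n * peuE p (ι n₀) n₀ f x := by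
  have hζ : ι n₀ ^ p = 1 := H.ι_pow n₀ hn₀
  obtain ⟨e, he⟩ := peu_exists_chi hζ hζ1 (H.ι_pow n hn)
  unfold peuE
  have h1 : ∀ c : ZMod p, (peuChi p (ι n₀) c)⁻¹ * f (x + n + c.val • n₀) =
      ι n * ((peuChi p (ι n₀) (c + e))⁻¹ * f (x + (c + e).val • n₀)) := by
    intro c
    have hmem : n + c.val • n₀ ∈ N := N.add_mem hn (N.nsmul_mem hn₀ _)
    have hι : ι (n + c.val • n₀) = peuChi p (ι n₀) (c + e) := by
      rw [H.ι_add _ hn _ (N.nsmul_mem hn₀ _), H.ι_val_smul hn₀, he, peuChi_add hζ, mul_comm]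
    rw [add_assoc, H.normal_form hn₀ hf x hmem hι, he, peuChi_add hζ]
    have h0 := peuChi_ne_zero hζ c
    have h0' := peuChi_ne_zero hζ e
    field_simp
  rw [Finset.sum_congr rfl (fun c _ => h1 c), ← Finset.mul_sum,
    peu_sum_shift (fun c => (peuChi p (ι n₀) c)⁻¹ * f (x + c.val • n₀)) e]
  ring

/-- The projector commutes with inertia. -/
theorem peuE_equiv {n₀ : M} (hn₀ : n₀ ∈ N) (hζ1 : ι n₀ ≠ 1) {f : M → Kb} (hf : f ∈ B)
    {σ : GK} (hσ : σ ∈ P.inertiaSubgroupIn ℚ) (x : M) :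
    σ (peuE p (ι n₀) n₀ f x) = peuE p (ι n₀) n₀ f (act σ x) := by
  have hζ : ι n₀ ^ p = 1 := H.ι_pow n₀ hn₀
  obtain ⟨t, ht0, ht⟩ := peu_exists_exp hζ hζ1 σ
  unfold peuE
  rw [map_mul, map_inv₀, map_natCast, map_sum]
  congr 1
  have h1 : ∀ c : ZMod p, σ ((peuChi p (ι n₀) c)⁻¹ * f (x + c.val • n₀)) =
      (peuChi p (ι n₀) (t * c))⁻¹ * f (act σ x + (t * c).val • n₀) := by
    intro c
    rw [map_mul, map_inv₀, peu_conj_chi hζ ht, ← H.equiv f hf σ hσ, H.act_add σ hσ,
      H.act_nsmul hσ]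
    have hmem : c.val • act σ n₀ ∈ N := N.nsmul_mem (H.act_mem σ hσ n₀ hn₀) _
    have hι : ι (c.val • act σ n₀) = peuChi p (ι n₀) (t * c) := by
      rw [H.ι_nsmul (H.act_mem σ hσ n₀ hn₀), H.ι_equiv σ hσ n₀ hn₀, ht, ← peuChi_mul hζ]
    rw [H.normal_form hn₀ hf (act σ x) hmem hι]
  rw [Finset.sum_congr rfl (fun c _ => h1 c)]
  exact Fintype.sum_equiv (Equiv.mulLeft₀ t ht0) _ _ (fun _ => rfl)

omit H in
/-- Comultiplication of the projector, first variable. -/
theorem peuE_comul (ζ : Kb) (n₀ : M) {f : M → Kb} {n : ℕ} {g h : Fin n → M → Kb}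
    (hgh : ∀ w w' : M, f (w + w') = ∑ i, g i w * h i w') (x y : M) :
    peuE p ζ n₀ f (x + y) = ∑ i, peuE p ζ n₀ (g i) x * h i y := by
  unfold peuE
  have h1 : ∀ c : ZMod p, (peuChi p ζ c)⁻¹ * f (x + y + c.val • n₀) =
      ∑ i, (peuChi p ζ c)⁻¹ * g i (x + c.val • n₀) * h i y := by
    intro c
    rw [add_right_comm, hgh, Finset.mul_sum]
    exact Finset.sum_congr rfl fun i _ => by ring
  rw [Finset.sum_congr rfl (fun c _ => h1 c), Finset.sum_comm, Finset.mul_sum]
  refine Finset.sum_congr rfl fun i _ => ?_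
  rw [mul_assoc, Finset.sum_mul, Finset.mul_sum]

/-- A function of weight one is fixed by the projector. -/
theorem peuE_of_weight {n₀ : M} (hn₀ : n₀ ∈ N) (φ : M → Kb)
    (hφ : ∀ x, ∀ n ∈ N, φ (x + n) = ι n * φ x) (x : M) :
    peuE p (ι n₀) n₀ φ x = φ x := by
  have hζ : ι n₀ ^ p = 1 := H.ι_pow n₀ hn₀
  have hp0 : (p : Kb) ≠ 0 := Nat.cast_ne_zero.2 (Fact.out : p.Prime).ne_zero
  unfold peuE
  have h1 : ∀ c : ZMod p, (peuChi p (ι n₀) c)⁻¹ * φ (x + c.val • n₀) = φ x := by
    intro c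
    rw [hφ x _ (N.nsmul_mem hn₀ _), H.ι_val_smul hn₀, ← mul_assoc,
      inv_mul_cancel₀ (peuChi_ne_zero hζ c), one_mul]
  rw [Finset.sum_congr rfl (fun c _ => h1 c), Finset.sum_const, Finset.card_univ, ZMod.card,
    nsmul_eq_mul]
  field_simp

/-- Comultiplication of the projector, both variables. -/
theorem peuE_comul₂ {n₀ : M} (hn₀ : n₀ ∈ N) (hζ1 : ι n₀ ≠ 1) {f : M → Kb} (hf : f ∈ B)
    {n : ℕ} {g h : Fin n → M → Kb} (hgh : ∀ w w' : M, f (w + w') = ∑ i, g i w * h i w')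
    (x y : M) :
    peuE p (ι n₀) n₀ f (x + y) =
      ∑ i, peuE p (ι n₀) n₀ (g i) x * peuE p (ι n₀) n₀ (h i) y := by
  -- `y ↦ E f (x + y)` has weight one
  have h1 := H.peuE_of_weight hn₀ (fun y => peuE p (ι n₀) n₀ f (x + y))
    (fun y n hn => by
      show peuE p (ι n₀) n₀ f (x + (y + n)) = ι n * peuE p (ι n₀) n₀ f (x + y)
      rw [← add_assoc]
      exact H.peuE_weight hn₀ hζ1 hf (x + y) hn) y
  rw [← h1]
  show (p : Kb)⁻¹ * ∑ c : ZMod p, (peuChi p (ι n₀) c)⁻¹ *
    peuE p (ι n₀) n₀ f (x + (y + c.val • n₀)) = _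
  have h2 : ∀ c : ZMod p, (peuChi p (ι n₀) c)⁻¹ * peuE p (ι n₀) n₀ f (x + (y + c.val • n₀)) =
      ∑ i, peuE p (ι n₀) n₀ (g i) x * ((peuChi p (ι n₀) c)⁻¹ * h i (y + c.val • n₀)) := by
    intro c
    rw [peuE_comul (ι n₀) n₀ hgh, Finset.mul_sum]
    exact Finset.sum_congr rfl fun i _ => by ring
  rw [Finset.sum_congr rfl (fun c _ => h2 c), Finset.sum_comm, Finset.mul_sum]
  refine Finset.sum_congr rfl fun i _ => ?_
  unfold peuE
  rw [← Finset.mul_sum]
  ring

end PeuHyp

end Fermat.Agent.FFL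
end MergeWrap_Lib_FFL_PeuProj

section MergeWrap_Lib_FFL_Peu -- from Lib/FFL/Peu.lean

set_option autoImplicit false
set_option linter.unusedSectionVars false
set_option linter.unusedVariables false
set_option linter.style.haveILetI false
set_option linter.unnecessarySimpa false

namespace Fermat.Agent.FFL

open Fermat.Agent.FlatMod GaloisRep

local notation "Kb" => AlgebraicClosure ℚ
local notation "GK" => (AlgebraicClosure ℚ ≃ₐ[ℚ] AlgebraicClosure ℚ)

variable {p : ℕ} {P : ValuationSubring Kb} [Fact p.Prime] {M : Type*} [AddCommGroup M]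
  {act : GK → M → M} {B : Set (M → Kb)} {N : AddSubgroup M} {ι : M → Kb}

namespace PeuHyp

variable (H : PeuHyp p P act B N ι)
include H

/-- The values at `0` of the projections lie in the inertia ring. -/
theorem peuE_zero_mem_inertiaRing (hP : P.LiesOverPrime p) (hunr : UnrProp p P)
    {n₀ : M} (hn₀ : n₀ ∈ N) (hζ1 : ι n₀ ≠ 1) (hred : ∀ f ∈ B, f n₀ - f 0 ∈ P.nonunits)
    {f : M → Kb} (hf : f ∈ B) : peuE p (ι n₀) n₀ f 0 ∈ inertiaRing P :=
  ⟨H.peuE_mem hP hunr hn₀ hζ1 hred hf 0, fun σ hσ => by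
    rw [H.peuE_equiv hn₀ hζ1 hf hσ, H.act_zero hσ]⟩

/-- **S4**: some projection has a unit value at `0`. -/
theorem exists_unit_value (hP : P.LiesOverPrime p) (hunr : UnrProp p P) (hdvd : DvdProp p P)
    {n₀ : M} (hn₀ : n₀ ∈ N) (hζ1 : ι n₀ ≠ 1) (hred : ∀ f ∈ B, f n₀ - f 0 ∈ P.nonunits)
    (hfull : ∃ f ∈ B, peuE p (ι n₀) n₀ f 0 ≠ 0) :
    ∃ f ∈ B, peuE p (ι n₀) n₀ f 0 ∉ P.nonunits := by
  classical
  have hp : p.Prime := Fact.out
  have hp0 : (p : Kb) ≠ 0 := Nat.cast_ne_zero.2 hp.ne_zero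
  -- the possible valuations
  let Q : ℕ → Prop := fun k => ∃ f ∈ B, ∃ u : Kb, u ∈ P ∧ u⁻¹ ∈ P ∧ u ≠ 0 ∧
    peuE p (ι n₀) n₀ f 0 = (p : Kb) ^ k * u
  have hfac : ∀ g ∈ B, peuE p (ι n₀) n₀ g 0 ≠ 0 → ∃ k, ∃ u : Kb, u ∈ P ∧ u⁻¹ ∈ P ∧ u ≠ 0 ∧
      peuE p (ι n₀) n₀ g 0 = (p : Kb) ^ k * u := by
    intro g hg hne
    obtain ⟨k, u, hu, hu', h⟩ := exists_eq_pow_mul_unit hp.ne_zero hP hunr hdvd
      (H.peuE_zero_mem_inertiaRing hP hunr hn₀ hζ1 hred hg) hne
    refine ⟨k, u, hu.1, hu'.1, ?_, h⟩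
    rintro rfl
    rw [mul_zero] at h
    exact hne h
  have hQ : ∃ k, Q k := by
    obtain ⟨f, hf, hne⟩ := hfull
    obtain ⟨k, u, hu, hu', hu0, h⟩ := hfac f hf hne
    exact ⟨k, f, hf, u, hu, hu', hu0, h⟩
  obtain ⟨f, hf, u, hu, hu', hu0, hfu⟩ := Nat.find_spec hQ
  set k := Nat.find hQ with hk
  -- all values are divisible by `p ^ k`
  have hmin : ∀ g ∈ B, peuE p (ι n₀) n₀ g 0 / (p : Kb) ^ k ∈ P := by
    intro g hg
    by_cases hne : peuE p (ι n₀) n₀ g 0 = 0
    · rw [hne, zero_div]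
      exact P.zero_mem
    · obtain ⟨k', u', hu1, hu2, hu3, h⟩ := hfac g hg hne
      have hle : k ≤ k' := Nat.find_min' hQ ⟨g, hg, u', hu1, hu2, hu3, h⟩
      obtain ⟨j, rfl⟩ : ∃ j, k' = k + j := ⟨k' - k, by omega⟩
      have e : peuE p (ι n₀) n₀ g 0 / (p : Kb) ^ k = (p : Kb) ^ j * u' := by
        rw [h, pow_add]
        field_simp
      rw [e]
      exact P.mul_mem _ _ (pow_mem (natCast_mem P p) j) hu1
  -- comultiplication at `(0, 0)`
  obtain ⟨n, g, h, hg, hh, hgh⟩ := H.comul f hf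
  have hcm := H.peuE_comul₂ hn₀ hζ1 hf hgh 0 0
  rw [add_zero] at hcm
  have hs : ∑ i, (peuE p (ι n₀) n₀ (g i) 0 / (p : Kb) ^ k) *
      (peuE p (ι n₀) n₀ (h i) 0 / (p : Kb) ^ k) ∈ P :=
    peu_sum_mem _ _ fun i _ => P.mul_mem _ _ (hmin _ (hg i)) (hmin _ (hh i))
  have hu_eq : u = (p : Kb) ^ k * ∑ i, (peuE p (ι n₀) n₀ (g i) 0 / (p : Kb) ^ k) *
      (peuE p (ι n₀) n₀ (h i) 0 / (p : Kb) ^ k) := by
    have h1 : (p : Kb) ^ k * u = ∑ i, peuE p (ι n₀) n₀ (g i) 0 * peuE p (ι n₀) n₀ (h i) 0 := by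
      rw [← hfu, hcm]
    have h2 : ∀ i, peuE p (ι n₀) n₀ (g i) 0 * peuE p (ι n₀) n₀ (h i) 0 =
        (p : Kb) ^ k * ((p : Kb) ^ k * ((peuE p (ι n₀) n₀ (g i) 0 / (p : Kb) ^ k) *
          (peuE p (ι n₀) n₀ (h i) 0 / (p : Kb) ^ k))) := by
      intro i
      field_simp
    rw [Finset.sum_congr rfl (fun i _ => h2 i), ← Finset.mul_sum, ← Finset.mul_sum] at h1
    exact mul_left_cancel₀ (pow_ne_zero k hp0) h1
  have hu_nu : u ∉ P.nonunits := by
    intro hnu
    have h1 : (1 : Kb) ∈ P.nonunits := by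
      have : (1 : Kb) = u * u⁻¹ := (mul_inv_cancel₀ hu0).symm
      rw [this]
      exact red_mul_mem_nonunits_right P hnu hu'
    exact Fermat.Agent.Cyclo.one_not_mem_nonunits P h1
  by_cases hk0 : k = 0
  · refine ⟨f, hf, ?_⟩
    rw [hfu, hk0, pow_zero, one_mul]
    exact hu_nu
  · exfalso
    apply hu_nu
    rw [hu_eq]
    refine red_mul_mem_nonunits_right P ?_ hs
    obtain ⟨j, hj⟩ : ∃ j, k = j + 1 := ⟨k - 1, by omega⟩
    rw [hj, pow_succ]
    exact red_mul_mem_nonunits_left P (pow_mem (natCast_mem P p) j) hP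

/-- **S5**: the torsor step. -/
theorem exists_unit_at (hP : P.LiesOverPrime p) (hunr : UnrProp p P) (hdvd : DvdProp p P)
    {n₀ : M} (hn₀ : n₀ ∈ N) (hζ1 : ι n₀ ≠ 1) (hred : ∀ f ∈ B, f n₀ - f 0 ∈ P.nonunits)
    (hfull : ∃ f ∈ B, peuE p (ι n₀) n₀ f 0 ≠ 0) (m : M) :
    ∃ a : Kb, a ∈ P ∧ a⁻¹ ∈ P ∧ a ≠ 0 ∧
      ∀ σ ∈ P.inertiaSubgroupIn ℚ, σ a = ι (act σ m - m) * a := by
  obtain ⟨f, hf, hunit⟩ := H.exists_unit_value hP hunr hdvd hn₀ hζ1 hred hfull
  obtain ⟨n, g, h, hg, hh, hgh⟩ := H.comul f hf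
  have hcm := H.peuE_comul₂ hn₀ hζ1 hf hgh m (-m)
  rw [add_neg_cancel] at hcm
  -- some `E (g i) m` is a unit
  have hex : ∃ i, peuE p (ι n₀) n₀ (g i) m ∉ P.nonunits := by
    by_contra hall
    push Not at hall
    apply hunit
    rw [hcm]
    exact peu_sum_mem_nonunits _ _ fun i _ =>
      red_mul_mem_nonunits_right P (hall i) (H.peuE_mem hP hunr hn₀ hζ1 hred (hh i) _)
  obtain ⟨i, hi⟩ := hex
  have haP : peuE p (ι n₀) n₀ (g i) m ∈ P := H.peuE_mem hP hunr hn₀ hζ1 hred (hg i) m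
  refine ⟨peuE p (ι n₀) n₀ (g i) m, haP, base_inv_mem_of_not_mem_nonunits haP hi,
    fun h0 => hi (h0 ▸ red_zero_mem_nonunits P), fun σ hσ => ?_⟩
  rw [H.peuE_equiv hn₀ hζ1 (hg i) hσ, ← H.peuE_weight hn₀ hζ1 (hg i) m (H.quot σ hσ m)]
  congr 1
  abel

/-- **PEU, abstract form** (all primes `p`). -/
theorem peu (hP : P.LiesOverPrime p)
    (hfull : ∀ n₀ ∈ N, ι n₀ ≠ 1 → ∃ f ∈ B, peuE p (ι n₀) n₀ f 0 ≠ 0) (m : M) :
    ∃ a : Kb, a ∈ P ∧ a⁻¹ ∈ P ∧ a ≠ 0 ∧
      ∀ σ ∈ P.inertiaSubgroupIn ℚ, σ a = ι (act σ m - m) * a := by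
  have hp : p.Prime := Fact.out
  have hunr : UnrProp p P := unrProp p hp P hP
  have hdvd : DvdProp p P := dvdProp hp hP
  by_cases hcase : ∃ n₀ ∈ N, ι n₀ ≠ 1 ∧ ∀ f ∈ B, f n₀ - f 0 ∈ P.nonunits
  · obtain ⟨n₀, hn₀, hζ1, hred⟩ := hcase
    exact H.exists_unit_at hP hunr hdvd hn₀ hζ1 hred (hfull n₀ hn₀ hζ1) m
  · -- inertia acts trivially modulo `ker ι`
    refine ⟨1, P.one_mem, by rw [inv_one]; exact P.one_mem, one_ne_zero, fun σ hσ => ?_⟩
    rw [map_one, mul_one]
    by_contra hne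
    have hwN : act σ m - m ∈ N := H.quot σ hσ m
    apply hcase
    refine ⟨act σ m - m, hwN, fun h => hne h.symm, ?_⟩
    by_contra hnot
    exact hne (H.ι_act_sub_eq_one hwN hnot hσ m).symm

end PeuHyp

end Fermat.Agent.FFL
end MergeWrap_Lib_FFL_Peu

section MergeWrap_Lib_FFL_PeuDefs -- from Lib/FFL/PeuDefs.lean

set_option autoImplicit false

namespace Fermat.Agent.FFL

open Fermat.Agent.FlatMod

/-- **FFL-PEU**, as a statement. -/
def PeuFlat (p : ℕ) (P : ValuationSubring (AlgebraicClosure ℚ)) : Prop :=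
  ∀ (M : Type) [AddCommGroup M]
    (act : (AlgebraicClosure ℚ ≃ₐ[ℚ] AlgebraicClosure ℚ) → M → M),
    IsFlatGaloisModule p M act →
    ∀ (N : AddSubgroup M) (ι : M → AlgebraicClosure ℚ),
      (∀ σ ∈ P.inertiaSubgroupIn ℚ, ∀ m : M, act σ m - m ∈ N) →
      (∀ x ∈ N, ∀ y ∈ N, ι (x + y) = ι x * ι y) →
      (∀ x ∈ N, ι x ^ p = 1) →
      (∀ σ ∈ P.inertiaSubgroupIn ℚ, ∀ x ∈ N, ι (act σ x) = σ (ι x)) →
      ∀ m : M, ∃ a : AlgebraicClosure ℚ, a ∈ P ∧ a⁻¹ ∈ P ∧ a ≠ 0 ∧
        ∀ σ ∈ P.inertiaSubgroupIn ℚ, σ a = ι (act σ m - m) * a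

end Fermat.Agent.FFL
end MergeWrap_Lib_FFL_PeuDefs

section MergeWrap_Lib_FFL_EtMax -- from Lib/FFL/EtMax.lean

set_option autoImplicit false
set_option linter.style.haveILetI false
set_option linter.unusedSectionVars false

namespace Fermat.Agent.FFL

open Fermat.Agent.FlatMod GaloisRep

local notation "Kb" => AlgebraicClosure ℚ
local notation "GK" => (AlgebraicClosure ℚ ≃ₐ[ℚ] AlgebraicClosure ℚ)

variable {p : ℕ} {W : Type*} [AddCommGroup W] {act : GK → W → W}

/-! ### The span is a ring of functions -/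

theorem spanB_one_mem (P : ValuationSubring Kb) (O : HopfOrder p W act) :
    (fun _ : W => (1 : Kb)) ∈ spanB P O :=
  subset_spanB P O O.alg.one_mem

theorem spanB_const_mem (P : ValuationSubring Kb) (O : HopfOrder p W act) {c : Kb}
    (hc : c ∈ inertiaRing P) : (fun _ : W => c) ∈ spanB P O := by
  have h := smul_mem_spanB P O hc (spanB_one_mem P O)
  simpa using h

theorem spanB_add_mem (P : ValuationSubring Kb) (O : HopfOrder p W act) {f g : W → Kb}
    (hf : f ∈ spanB P O) (hg : g ∈ spanB P O) : (fun w => f w + g w) ∈ spanB P O :=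
  (spanB P O).add_mem hf hg

theorem spanB_sub_mem (P : ValuationSubring Kb) (O : HopfOrder p W act) {f g : W → Kb}
    (hf : f ∈ spanB P O) (hg : g ∈ spanB P O) : (fun w => f w - g w) ∈ spanB P O :=
  (spanB P O).sub_mem hf hg

theorem spanB_mul_mem (P : ValuationSubring Kb) (O : HopfOrder p W act) {f g : W → Kb}
    (hf : f ∈ spanB P O) (hg : g ∈ spanB P O) : (fun w => f w * g w) ∈ spanB P O := by
  induction hf using Submodule.span_induction with
  | mem h hh =>
    induction hg using Submodule.span_induction with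
    | mem h' hh' => exact subset_spanB P O (O.alg.mul_mem hh hh')
    | zero =>
      have : (fun w => h w * (0 : W → Kb) w) = 0 := by funext w; simp
      rw [this]; exact (spanB P O).zero_mem
    | add a b _ _ ha hb =>
      have : (fun w => h w * (a + b) w) = (fun w => h w * a w) + (fun w => h w * b w) := by
        funext w; simp [mul_add]
      rw [this]; exact (spanB P O).add_mem ha hb
    | smul r a _ ha =>
      have : (fun w => h w * (r • a) w) = r • (fun w => h w * a w) := by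
        funext w
        show h w * ((r : Kb) * a w) = (r : Kb) * (h w * a w)
        ring
      rw [this]; exact (spanB P O).smul_mem r ha
  | zero =>
    have : (fun w => (0 : W → Kb) w * g w) = 0 := by funext w; simp
    rw [this]; exact (spanB P O).zero_mem
  | add a b _ _ ha hb =>
    have : (fun w => (a + b) w * g w) = (fun w => a w * g w) + (fun w => b w * g w) := by
      funext w; simp [add_mul]
    rw [this]; exact (spanB P O).add_mem ha hb
  | smul r a _ ha =>
    have : (fun w => (r • a) w * g w) = r • (fun w => a w * g w) := by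
      funext w
      show ((r : Kb) * a w) * g w = (r : Kb) * (a w * g w)
      ring
    rw [this]; exact (spanB P O).smul_mem r ha

theorem spanB_comp_neg_mem (P : ValuationSubring Kb) (O : HopfOrder p W act) {f : W → Kb}
    (hf : f ∈ spanB P O) : (fun w => f (-w)) ∈ spanB P O := by
  induction hf using Submodule.span_induction with
  | mem h hh => exact subset_spanB P O (O.neg h hh)
  | zero => exact (spanB P O).zero_mem
  | add a b _ _ ha hb => exact (spanB P O).add_mem ha hb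
  | smul r a _ ha => exact (spanB P O).smul_mem r ha

theorem spanB_prod_mem (P : ValuationSubring Kb) (O : HopfOrder p W act) {ι : Type*}
    (s : Finset ι) (G : ι → W → Kb) (hG : ∀ i ∈ s, G i ∈ spanB P O) :
    (fun w => ∏ i ∈ s, G i w) ∈ spanB P O := by
  classical
  induction s using Finset.induction_on with
  | empty =>
    simp only [Finset.prod_empty]
    exact spanB_one_mem P O
  | insert a s ha ih =>
    have h1 : (fun w => ∏ i ∈ insert a s, G i w) = (fun w => G a w * ∏ i ∈ s, G i w) := by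
      funext w
      rw [Finset.prod_insert ha]
    rw [h1]
    exact spanB_mul_mem P O (hG a (Finset.mem_insert_self a s))
      (ih (fun i hi => hG i (Finset.mem_insert_of_mem hi)))

/-! ### The invariant part -/

/-- The `V₁`-invariant part of the `R'`-span of a Hopf order. -/
def etB1 (P : ValuationSubring Kb) (O : HopfOrder p W act) (V₁ : AddSubgroup W) :
    Set (W → Kb) :=
  {f | f ∈ spanB P O ∧ TransInv (V₁ : Set W) f}

theorem etB1_comulClosed (hp : p.Prime) (P : ValuationSubring Kb) (hP : P.LiesOverPrime p)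
    (O : HopfOrder p W act) (V₁ : AddSubgroup W) : ComulClosed (etB1 P O V₁) := by
  have : Fact p.Prime := ⟨hp⟩
  have hfin : Finite W := O.finite_W
  have hpid : IsPrincipalIdealRing (inertiaRing P) :=
    inertiaRing_isPrincipalIdealRing hp.ne_zero hP (unrProp p hp P hP) (dvdProp hp hP)
  have h := comulClosed_transInv_subring (inertiaRing P) (spanFun O)
    (spanFun_linearIndependent O) (span_range_comulClosed P hP O) (V₁ : Set W)
  have hset : etB1 P O V₁ = {f : W → Kb |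
      f ∈ Submodule.span (inertiaRing P) (Set.range (spanFun O)) ∧ TransInv (V₁ : Set W) f} := by
    unfold etB1
    rw [spanB_eq_span_range P hP O]
  rw [hset]
  exact h

/-- (F2) the values of the invariant functions are in `R'`. -/
theorem etB1_value_mem (hp : p.Prime) (P : ValuationSubring Kb) (hP : P.LiesOverPrime p)
    (O : HopfOrder p W act) (V₁ : AddSubgroup W)
    (hV : ∀ σ ∈ P.inertiaSubgroupIn ℚ, ∀ w, act σ w - w ∈ V₁) {f : W → Kb}
    (hf : f ∈ etB1 P O V₁) (w : W) : f w ∈ inertiaRing P := by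
  have : Fact p.Prime := ⟨hp⟩
  exact ⟨spanB_mem P hP O hf.1 w, fun σ hσ =>
    spanB_value_fixed P O hf.1 (V₁ : Set W) hf.2 σ hσ w (hV σ hσ w)⟩

/-- The invariant part is stable under all translations. -/
theorem etB1_translate (hp : p.Prime) (P : ValuationSubring Kb) (hP : P.LiesOverPrime p)
    (O : HopfOrder p W act) (V₁ : AddSubgroup W)
    (hV : ∀ σ ∈ P.inertiaSubgroupIn ℚ, ∀ w, act σ w - w ∈ V₁) {f : W → Kb}
    (hf : f ∈ etB1 P O V₁) (a : W) : (fun w => f (w + a)) ∈ etB1 P O V₁ := by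
  obtain ⟨n, g, h, hg, hh, hgh⟩ := etB1_comulClosed hp P hP O V₁ f hf
  refine ⟨?_, fun v u hu => ?_⟩
  · have h1 : (fun w => f (w + a)) =
        ∑ i, (⟨h i a, etB1_value_mem hp P hP O V₁ hV (hh i) a⟩ : inertiaRing P) • g i := by
      funext w
      rw [hgh, Finset.sum_apply]
      refine Finset.sum_congr rfl (fun i _ => ?_)
      show g i w * h i a = h i a * g i w
      ring
    rw [h1]
    exact Submodule.sum_mem _ (fun i _ => Submodule.smul_mem _ _ (hg i).1)
  · show f (v + u + a) = f (v + a)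
    have h2 : v + u + a = (v + a) + u := by abel
    rw [h2]
    exact hf.2 _ _ hu

theorem etB1_comp_neg (P : ValuationSubring Kb) (O : HopfOrder p W act) (V₁ : AddSubgroup W)
    {f : W → Kb} (hf : f ∈ etB1 P O V₁) : (fun w => f (-w)) ∈ etB1 P O V₁ := by
  refine ⟨spanB_comp_neg_mem P O hf.1, fun v u hu => ?_⟩
  show f (-(v + u)) = f (-v)
  have h2 : -(v + u) = -v + -u := by abel
  rw [h2]
  exact hf.2 _ _ (V₁.neg_mem hu)

theorem etmax_sum_mem_nonunits (P : ValuationSubring Kb) {ι : Type*} (s : Finset ι) (F : ι → Kb)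
    (hF : ∀ i ∈ s, F i ∈ P.nonunits) : ∑ i ∈ s, F i ∈ P.nonunits := by
  classical
  induction s using Finset.induction_on with
  | empty =>
    rw [Finset.sum_empty]
    exact red_zero_mem_nonunits P
  | insert a s ha ih =>
    rw [Finset.sum_insert ha]
    exact red_add_mem_nonunits P (hF a (Finset.mem_insert_self a s))
      (ih (fun i hi => hF i (Finset.mem_insert_of_mem hi)))

/-- The points which reduce to the identity with respect to the invariant functions form a
subgroup. -/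
def etRedSub (hp : p.Prime) (P : ValuationSubring Kb) (hP : P.LiesOverPrime p)
    (O : HopfOrder p W act) (V₁ : AddSubgroup W) : AddSubgroup W where
  carrier := {y | ∀ f ∈ etB1 P O V₁, f y - f 0 ∈ P.nonunits}
  zero_mem' := fun f _ => by
    rw [sub_self]
    exact red_zero_mem_nonunits P
  add_mem' := by
    intro y y' hy hy' f hf
    have : Fact p.Prime := ⟨hp⟩
    obtain ⟨n, g, h, hg, hh, hgh⟩ := etB1_comulClosed hp P hP O V₁ f hf
    have h0 : f 0 = ∑ i, g i 0 * h i 0 := by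
      have := hgh 0 0
      rwa [add_zero] at this
    rw [hgh, h0, ← Finset.sum_sub_distrib]
    refine etmax_sum_mem_nonunits P _ _ (fun i _ => ?_)
    have h1 : g i y * h i y' - g i 0 * h i 0 =
        (g i y - g i 0) * h i y' + g i 0 * (h i y' - h i 0) := by ring
    rw [h1]
    exact red_add_mem_nonunits P
      (red_mul_mem_nonunits_right P (hy (g i) (hg i)) (spanB_mem P hP O (hh i).1 y'))
      (red_mul_mem_nonunits_left P (spanB_mem P hP O (hg i).1 0) (hy' (h i) (hh i)))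
  neg_mem' := by
    intro y hy f hf
    have h1 := hy _ (etB1_comp_neg P O V₁ hf)
    simpa using h1

theorem mem_etRedSub (hp : p.Prime) (P : ValuationSubring Kb) (hP : P.LiesOverPrime p)
    (O : HopfOrder p W act) (V₁ : AddSubgroup W) (y : W) :
    y ∈ etRedSub hp P hP O V₁ ↔ ∀ f ∈ etB1 P O V₁, f y - f 0 ∈ P.nonunits := Iff.rfl

open scoped Classical in
/-- The invariant part contains `p ^ N` times the indicator functions of the cosets. -/
theorem etB1_full (hp : p.Prime) (P : ValuationSubring Kb) (hP : P.LiesOverPrime p)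
    (O : HopfOrder p W act) (V₁ : AddSubgroup W)
    (hV : ∀ σ ∈ P.inertiaSubgroupIn ℚ, ∀ w, act σ w - w ∈ V₁) :
    ∃ N : ℕ, ∀ w₀ : W, (fun w : W => if w - w₀ ∈ V₁ then (p : Kb) ^ N else 0) ∈ etB1 P O V₁ := by
  have : Fact p.Prime := ⟨hp⟩
  obtain ⟨N, hN⟩ := spanB_full_indicator P hP (dvdProp hp hP) O V₁ hV
  refine ⟨N, fun w₀ => ⟨?_, ?_⟩⟩
  · convert hN w₀ using 2
  · convert transInv_indicator V₁ w₀ ((p : Kb) ^ N) using 2

/-- **Separation**: a point outside `V₁` is separated from `0` modulo the maximal ideal of `P`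
by an invariant function. -/
theorem etB1_separates (hp : p.Prime) (hp2 : p ≠ 2) (P : ValuationSubring Kb)
    (hP : P.LiesOverPrime p) (O : HopfOrder p W act) (V₁ : AddSubgroup W)
    (hV : ∀ σ ∈ P.inertiaSubgroupIn ℚ, ∀ w, act σ w - w ∈ V₁) {x : W} (hx : x ∉ V₁) :
    ∃ f ∈ etB1 P O V₁, f x - f 0 ∉ P.nonunits := by
  classical
  by_contra hcon
  have hcon' : ∀ f ∈ etB1 P O V₁, f x - f 0 ∈ P.nonunits :=
    fun f hf => by_contra (fun h => hcon ⟨f, hf, h⟩)
  have : Fact p.Prime := ⟨hp⟩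
  have hfin : Finite W := O.finite_W
  have hle : etRedSub hp P hP O V₁ ≤ V₁ :=
    ma_le_of_core (coreProp hp hp2 P hP) (unrProp p hp P hP) V₁ (etB1 P O V₁)
      (fun f hf => hf.2) (etB1_comulClosed hp P hP O V₁) (etB1_full hp P hP O V₁ hV)
      (fun f hf w σ hσ => (etB1_value_mem hp P hP O V₁ hV hf w).2 σ hσ)
      (etRedSub hp P hP O V₁) (fun y hy => hy)
  exact hx (hle hcon')

/-! ### The statement -/

open scoped Classical in
/-- **FFL-ETMAX**: if inertia acts trivially on `W ⧸ V₁`, the indicator function of every coset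
of `V₁` lies in the `R'`-span of the Hopf order (and is `V₁`-invariant). -/
theorem etmax_indicator_mem_etB1 (hp : p.Prime) (hp2 : p ≠ 2) (P : ValuationSubring Kb)
    (hP : P.LiesOverPrime p) (O : HopfOrder p W act) (V₁ : AddSubgroup W)
    (hV : ∀ σ ∈ P.inertiaSubgroupIn ℚ, ∀ w, act σ w - w ∈ V₁) (w₀ : W) :
    (fun w : W => if w - w₀ ∈ V₁ then (1 : Kb) else 0) ∈ etB1 P O V₁ := by
  have : Fact p.Prime := ⟨hp⟩
  have hfin : Finite W := O.finite_W
  letI : Fintype W := Fintype.ofFinite W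
  refine ⟨?_, transInv_indicator V₁ w₀ 1⟩
  -- the separating functions
  have hsep : ∀ w₁ : W, ∃ F : W → Kb, F ∈ etB1 P O V₁ ∧
      (w₁ - w₀ ∉ V₁ → F (w₁ - w₀) - F 0 ∉ P.nonunits) := by
    intro w₁
    by_cases h : w₁ - w₀ ∈ V₁
    · exact ⟨fun _ => 1, ⟨spanB_one_mem P O, fun _ _ _ => rfl⟩, fun h' => absurd h h'⟩
    · obtain ⟨F, hF, hFu⟩ := etB1_separates hp hp2 P hP O V₁ hV h
      exact ⟨F, hF, fun _ => hFu⟩
  choose F hF hFu using hsep
  -- the Lagrange factors
  let G : W → W → Kb := fun w₁ w =>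
    if w₁ - w₀ ∈ V₁ then 1
    else (F w₁ (w + -w₀) - F w₁ (w₁ - w₀)) * (F w₁ 0 - F w₁ (w₁ - w₀))⁻¹
  have hG : ∀ w₁ ∈ (Finset.univ : Finset W), G w₁ ∈ spanB P O := by
    intro w₁ _
    by_cases h : w₁ - w₀ ∈ V₁
    · have : G w₁ = fun _ => 1 := by
        funext w
        simp only [G, if_pos h]
      rw [this]
      exact spanB_one_mem P O
    · have h1 : G w₁ = fun w => (F w₁ (w + -w₀) - F w₁ (w₁ - w₀)) *
          (F w₁ 0 - F w₁ (w₁ - w₀))⁻¹ := by
        funext w
        simp only [G, if_neg h]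
      rw [h1]
      have hu : F w₁ 0 - F w₁ (w₁ - w₀) ∈ inertiaRing P :=
        (inertiaRing P).sub_mem (etB1_value_mem hp P hP O V₁ hV (hF w₁) 0)
          (etB1_value_mem hp P hP O V₁ hV (hF w₁) _)
      have hnu : F w₁ 0 - F w₁ (w₁ - w₀) ∉ P.nonunits := by
        intro hmem
        apply hFu w₁ h
        have := red_neg_mem_nonunits P hmem
        rwa [neg_sub] at this
      have hinv : (F w₁ 0 - F w₁ (w₁ - w₀))⁻¹ ∈ inertiaRing P :=
        ⟨base_inv_mem_of_not_mem_nonunits hu.1 hnu, fun σ hσ => by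
          rw [map_inv₀, hu.2 σ hσ]⟩
      exact spanB_mul_mem P O
        (spanB_sub_mem P O (etB1_translate hp P hP O V₁ hV (hF w₁) (-w₀)).1
          (spanB_const_mem P O (etB1_value_mem hp P hP O V₁ hV (hF w₁) _)))
        (spanB_const_mem P O hinv)
  have hprod := spanB_prod_mem P O Finset.univ G hG
  have heq : (fun w : W => if w - w₀ ∈ V₁ then (1 : Kb) else 0) =
      (fun w => ∏ w₁ ∈ (Finset.univ : Finset W), G w₁ w) := by
    funext w
    by_cases hw : w - w₀ ∈ V₁
    · rw [if_pos hw]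
      symm
      refine Finset.prod_eq_one (fun w₁ _ => ?_)
      by_cases h : w₁ - w₀ ∈ V₁
      · simp only [G, if_pos h]
      · simp only [G, if_neg h]
        have h2 : F w₁ (w + -w₀) = F w₁ 0 := by
          have h3 := (hF w₁).2 0 (w - w₀) hw
          rw [zero_add] at h3
          rw [← sub_eq_add_neg]
          exact h3
        rw [h2]
        have hne : F w₁ 0 - F w₁ (w₁ - w₀) ≠ 0 := by
          intro h0
          apply hFu w₁ h
          have : F w₁ (w₁ - w₀) - F w₁ 0 = 0 := by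
            rw [← neg_sub, h0, neg_zero]
          rw [this]
          exact red_zero_mem_nonunits P
        exact mul_inv_cancel₀ hne
    · rw [if_neg hw]
      symm
      refine Finset.prod_eq_zero (Finset.mem_univ w) ?_
      simp only [G, if_neg hw]
      rw [← sub_eq_add_neg, sub_self, zero_mul]
  rw [heq]
  exact hprod

open scoped Classical in
/-- **FFL-ETMAX** (the statement of the blueprint): the indicator function of `w₀ + V₁` lies in
`Submodule.span (inertiaRing P) O.alg`. -/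
theorem etmax_indicator (hp : p.Prime) (hp2 : p ≠ 2) (P : ValuationSubring Kb)
    (hP : P.LiesOverPrime p) (O : HopfOrder p W act) (V₁ : AddSubgroup W)
    (hV : ∀ σ ∈ P.inertiaSubgroupIn ℚ, ∀ w, act σ w - w ∈ V₁) (w₀ : W) :
    (fun w : W => if w - w₀ ∈ V₁ then (1 : Kb) else 0) ∈
      Submodule.span (inertiaRing P) (O.alg : Set (W → Kb)) :=
  (etmax_indicator_mem_etB1 hp hp2 P hP O V₁ hV w₀).1

open scoped Classical in
/-- **FFL-ETMAX**, with the hypothesis `redKer ⊆ V₁`. -/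
theorem etmax_indicator_of_redKer (hp : p.Prime) (hp2 : p ≠ 2) (P : ValuationSubring Kb)
    (hP : P.LiesOverPrime p) (O : HopfOrder p W act) (V₁ : AddSubgroup W)
    (hred : redKer P (O.alg : Set (W → Kb)) ⊆ (V₁ : Set W)) (w₀ : W) :
    (fun w : W => if w - w₀ ∈ V₁ then (1 : Kb) else 0) ∈
      Submodule.span (inertiaRing P) (O.alg : Set (W → Kb)) := by
  have : Fact p.Prime := ⟨hp⟩
  refine etmax_indicator hp hp2 P hP O V₁ (fun σ hσ w => hred ?_) w₀
  exact augI_subset_redKer O hP (act_sub_mem_augI P act hσ w)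

open scoped Classical in
/-- Every `V₁`-invariant function with values in `R'` lies in the `R'`-span of the Hopf order:
the invariant part of an order with unramified quotient `W ⧸ V₁` is the MAXIMAL order. -/
theorem etmax_mem_of_transInv (hp : p.Prime) (hp2 : p ≠ 2) (P : ValuationSubring Kb)
    (hP : P.LiesOverPrime p) (O : HopfOrder p W act) (V₁ : AddSubgroup W)
    (hV : ∀ σ ∈ P.inertiaSubgroupIn ℚ, ∀ w, act σ w - w ∈ V₁) (f : W → Kb)
    (hinv : TransInv (V₁ : Set W) f) (hval : ∀ w, f w ∈ inertiaRing P) :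
    f ∈ etB1 P O V₁ := by
  have : Fact p.Prime := ⟨hp⟩
  have hfin : Finite W := O.finite_W
  letI : Fintype W := Fintype.ofFinite W
  refine ⟨?_, hinv⟩
  -- `f = ∑_{w₀} f w₀ / #(V₁) ...` is awkward; use one representative per coset instead:
  -- `f = ∑ w₀ ∈ reps, f w₀ • 1_{w₀ + V₁}` where `reps` picks the canonical representative.
  let rep : W → W := fun w => (Quotient.out (QuotientAddGroup.mk (s := V₁) w) : W)
  have hrep : ∀ w, rep w - w ∈ V₁ := by
    intro w
    have h1 : (QuotientAddGroup.mk (s := V₁) (rep w) : W ⧸ V₁) = QuotientAddGroup.mk w :=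
      Quotient.out_eq _
    have h2 := (QuotientAddGroup.eq (s := V₁)).1 h1
    have h3 : rep w - w = -(-rep w + w) := by abel
    rw [h3]
    exact V₁.neg_mem h2
  have hrep_eq : ∀ w w', w - w' ∈ V₁ → rep w = rep w' := by
    intro w w' h
    have h1 : (QuotientAddGroup.mk (s := V₁) w : W ⧸ V₁) = QuotientAddGroup.mk w' := by
      rw [QuotientAddGroup.eq]
      have h3 : -w + w' = -(w - w') := by abel
      rw [h3]
      exact V₁.neg_mem h
    show (Quotient.out (QuotientAddGroup.mk (s := V₁) w) : W) =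
      Quotient.out (QuotientAddGroup.mk (s := V₁) w')
    rw [h1]
  have heq : f = ∑ w₀ ∈ Finset.univ.image rep,
      (⟨f w₀, hval w₀⟩ : inertiaRing P) • (fun w : W => if w - w₀ ∈ V₁ then (1 : Kb) else 0) := by
    funext w
    rw [Finset.sum_apply]
    rw [Finset.sum_eq_single (rep w)]
    · show f w = f (rep w) * (if w - rep w ∈ V₁ then (1 : Kb) else 0)
      have h1 : w - rep w ∈ V₁ := by
        have h3 : w - rep w = -(rep w - w) := by abel
        rw [h3]
        exact V₁.neg_mem (hrep w)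
      rw [if_pos h1, mul_one]
      have h2 := hinv w (rep w - w) (hrep w)
      have h4 : w + (rep w - w) = rep w := by abel
      rw [h4] at h2
      exact h2.symm
    · intro w₀ hw₀ hne
      show f w₀ * (if w - w₀ ∈ V₁ then (1 : Kb) else 0) = 0
      rw [if_neg, mul_zero]
      intro hmem
      apply hne
      obtain ⟨w', -, rfl⟩ := Finset.mem_image.1 hw₀
      -- `rep w' = rep w` since `w - rep w' ∈ V₁`
      have h5 : w' - w ∈ V₁ := by
        have h6 : w' - w = -(rep w' - w') + -(w - rep w') := by abel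
        rw [h6]
        exact V₁.add_mem (V₁.neg_mem (hrep w')) (V₁.neg_mem hmem)
      exact hrep_eq w' w h5
    · intro h
      exact absurd (Finset.mem_image.2 ⟨w, Finset.mem_univ w, rfl⟩) h
  rw [heq]
  exact Submodule.sum_mem _ (fun w₀ _ => Submodule.smul_mem _ _
    (etmax_indicator_mem_etB1 hp hp2 P hP O V₁ hV w₀).1)

end Fermat.Agent.FFL
end MergeWrap_Lib_FFL_EtMax

section MergeWrap_Lib_FFL_PeuFlat -- from Lib/FFL/PeuFlat.lean

set_option autoImplicit false
set_option linter.unusedSectionVars false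
set_option linter.unusedVariables false
set_option linter.style.haveILetI false
set_option linter.unnecessarySimpa false

namespace Fermat.Agent.FFL

open Fermat.Agent.FlatMod GaloisRep

local notation "Kb" => AlgebraicClosure ℚ
local notation "GK" => (AlgebraicClosure ℚ ≃ₐ[ℚ] AlgebraicClosure ℚ)

variable {p : ℕ} {P : ValuationSubring Kb}

/-- The kernel of `ι` on `N`. -/
def peuKer {M : Type*} [AddCommGroup M] (N : AddSubgroup M) (ι : M → Kb)
    (hmul : ∀ x ∈ N, ∀ y ∈ N, ι (x + y) = ι x * ι y) (h0 : ι 0 = 1) : AddSubgroup M where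
  carrier := {n | n ∈ N ∧ ι n = 1}
  zero_mem' := ⟨N.zero_mem, h0⟩
  add_mem' := fun {a b} ha hb => ⟨N.add_mem ha.1 hb.1, by
    rw [hmul a ha.1 b hb.1, ha.2, hb.2, one_mul]⟩
  neg_mem' := fun {a} ha => ⟨N.neg_mem ha.1, by
    have h := hmul (-a) (N.neg_mem ha.1) a ha.1
    rw [neg_add_cancel, h0, ha.2, mul_one] at h
    exact h.symm⟩

/-- **PEU for a Hopf order** (all primes `p`). -/
theorem peu_of_hopfOrder (hp : p.Prime) (hP : P.LiesOverPrime p) {M : Type*} [AddCommGroup M]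
    {act : GK → M → M} (O : HopfOrder p M act) (N : AddSubgroup M) (ι : M → Kb)
    (hquot : ∀ σ ∈ P.inertiaSubgroupIn ℚ, ∀ m : M, act σ m - m ∈ N)
    (hmul : ∀ x ∈ N, ∀ y ∈ N, ι (x + y) = ι x * ι y)
    (hpow : ∀ x ∈ N, ι x ^ p = 1)
    (hequiv : ∀ σ ∈ P.inertiaSubgroupIn ℚ, ∀ x ∈ N, ι (act σ x) = σ (ι x)) (m : M) :
    ∃ a : Kb, a ∈ P ∧ a⁻¹ ∈ P ∧ a ≠ 0 ∧
      ∀ σ ∈ P.inertiaSubgroupIn ℚ, σ a = ι (act σ m - m) * a := by
  classical
  haveI : Fact p.Prime := ⟨hp⟩
  have hp0 : (p : Kb) ≠ 0 := Nat.cast_ne_zero.2 hp.ne_zero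
  -- `ι 0 = 1`
  have h0 : ι 0 = 1 := by
    have h1 := hmul 0 N.zero_mem 0 N.zero_mem
    rw [add_zero] at h1
    have h2 := hpow 0 N.zero_mem
    have hne : ι 0 ≠ 0 := by
      intro h
      rw [h, zero_pow hp.ne_zero] at h2
      exact zero_ne_one h2
    have h3 : ι 0 * (ι 0 - 1) = 0 := by linear_combination -h1
    rcases mul_eq_zero.1 h3 with h | h
    · exact absurd h hne
    · exact sub_eq_zero.1 h
  have hstab : ∀ σ ∈ P.inertiaSubgroupIn ℚ, ∀ x ∈ N, act σ x ∈ N := by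
    intro σ hσ x hx
    have h := N.add_mem (hquot σ hσ x) hx
    rwa [sub_add_cancel] at h
  have hstab' : ∀ σ ∈ P.inertiaSubgroupIn ℚ, ∀ x, act σ x ∈ N → x ∈ N := by
    intro σ hσ x hx
    have h := N.sub_mem hx (hquot σ hσ x)
    rwa [sub_sub_cancel] at h
  set N' : AddSubgroup M := peuKer N ι hmul h0 with hN'
  -- the hypotheses of the abstract theorem for `B = etB1 P O N'`
  have H : PeuHyp p P act (etB1 P O N') N ι :=
    { act_add := fun σ _ x y => O.act_add σ x y
      val_mem := fun f hf x => spanB_mem P hP O hf.1 x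
      equiv := fun f hf σ hσ x => spanB_equiv P O hf.1 σ hσ x
      comul := etB1_comulClosed hp P hP O N'
      ι_pow := hpow
      ι_add := hmul
      act_mem := hstab
      ι_equiv := hequiv
      inv := fun f hf n hn h1 x => hf.2 x n ⟨hn, h1⟩
      quot := hquot }
  refine H.peu hP (fun n₀ hn₀ hζ1 => ?_) m
  -- fullness: the function `ι` extended by zero
  set φ : M → Kb := fun x => if x ∈ N then ι x else 0 with hφ
  have hφequiv : ∀ σ ∈ P.inertiaSubgroupIn ℚ, ∀ w, φ (act σ w) = σ (φ w) := by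
    intro σ hσ w
    simp only [hφ]
    by_cases hw : w ∈ N
    · rw [if_pos hw, if_pos (hstab σ hσ w hw), hequiv σ hσ w hw]
    · rw [if_neg hw, if_neg (fun h => hw (hstab' σ hσ w h)), map_zero]
  obtain ⟨K, hK⟩ := spanB_full P hP (dvdProp hp hP) O φ hφequiv
  have hφw : ∀ x, ∀ n ∈ N, φ (x + n) = ι n * φ x := by
    intro x n hn
    simp only [hφ]
    by_cases hx : x ∈ N
    · rw [if_pos hx, if_pos (N.add_mem hx hn), hmul x hx n hn, mul_comm]
    · have hx' : x + n ∉ N := fun h => hx (by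
        have := N.sub_mem h hn
        rwa [add_sub_cancel_right] at this)
      rw [if_neg hx, if_neg hx', mul_zero]
  set f : M → Kb := fun w => (p : Kb) ^ K * φ w with hf
  have hfw : ∀ x, ∀ n ∈ N, f (x + n) = ι n * f x := by
    intro x n hn
    simp only [hf]
    rw [hφw x n hn]
    ring
  have hfB : f ∈ etB1 P O N' := by
    refine ⟨hK K le_rfl, fun v w hw => ?_⟩
    rw [hfw v w hw.1, hw.2, one_mul]
  refine ⟨f, hfB, ?_⟩
  rw [H.peuE_of_weight hn₀ f hfw 0]
  simp only [hf, hφ]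
  rw [if_pos N.zero_mem, h0, mul_one]
  exact pow_ne_zero K hp0

/-- **FFL-PEU** in the form of Lib/FFL/PeuDefs.lean, for every prime `p`. -/
theorem peuFlat (hp : p.Prime) (hP : P.LiesOverPrime p) : PeuFlat p P := by
  intro M _ act hflat N ι hquot hmul hpow hequiv m
  obtain ⟨O⟩ := nonempty_hopfOrder_of_isFlat hflat
  exact peu_of_hopfOrder hp hP O N ι hquot hmul hpow hequiv m

end Fermat.Agent.FFL
end MergeWrap_Lib_FFL_PeuFlat

section MergeWrap_Lib_FlatMod_Zero -- from Lib/FlatMod/Zero.lean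

set_option autoImplicit false

namespace Fermat.Agent.FlatMod

variable {p : ℕ}

/-- The zero module (same statement as the stub `isFlatGaloisModule_of_subsingleton`). -/
theorem isFlat_zero_aux [Fact p.Prime] {M : Type} [AddCommGroup M]
    [Subsingleton M]
    (act : (AlgebraicClosure ℚ ≃ₐ[ℚ] AlgebraicClosure ℚ) → M → M) :
    IsFlatGaloisModule p M act := by
  refine ⟨GaloisRep.ratLocalizedAt p, inferInstance, inferInstance, inferInstance, inferInstance,
    inferInstance, ?_⟩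
  have : Subsingleton (WithConv (GaloisRep.ratLocalizedAt p →ₐ[GaloisRep.ratLocalizedAt p]
      AlgebraicClosure ℚ)) :=
    (WithConv.equiv _).subsingleton
  refine ⟨⟨fun _ => 0, fun _ => WithConv.toConv (Algebra.ofId _ _),
    fun _ => Subsingleton.elim _ _, fun _ => Subsingleton.elim _ _⟩, fun f g => ?_,
    fun σ f g _ => ?_⟩
  · exact Subsingleton.elim _ _
  · exact Subsingleton.elim _ _

end Fermat.Agent.FlatMod
end MergeWrap_Lib_FlatMod_Zero

section MergeWrap_Lib_FlatMod_Prod -- from Lib/FlatMod/Prod.lean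

set_option autoImplicit false

noncomputable section

namespace Fermat.Agent.FlatMod

open TensorProduct WithConv

section Tensor

variable {R : Type} [CommRing R] {H₁ H₂ C : Type} [CommRing H₁] [CommRing H₂] [CommRing C]
  [Bialgebra R H₁] [Bialgebra R H₂] [Algebra R C]

/-- `h ↦ h ⊗ 1` as a bialgebra homomorphism. -/
def inclLeftBialg (R H₁ H₂ : Type) [CommRing R] [CommRing H₁] [CommRing H₂]
    [Bialgebra R H₁] [Bialgebra R H₂] : H₁ →ₐc[R] H₁ ⊗[R] H₂ :=
  (Bialgebra.TensorProduct.map (BialgHom.id R H₁) (Bialgebra.unitBialgHom R H₂)).comp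
    (Bialgebra.TensorProduct.rid R R H₁).symm.toBialgHom

/-- `h ↦ 1 ⊗ h` as a bialgebra homomorphism. -/
def inclRightBialg (R H₁ H₂ : Type) [CommRing R] [CommRing H₁] [CommRing H₂]
    [Bialgebra R H₁] [Bialgebra R H₂] : H₂ →ₐc[R] H₁ ⊗[R] H₂ :=
  (Bialgebra.TensorProduct.map (Bialgebra.unitBialgHom R H₁) (BialgHom.id R H₂)).comp
    (Bialgebra.TensorProduct.lid R H₂).symm.toBialgHom

@[simp] theorem inclLeftBialg_apply (h : H₁) : inclLeftBialg R H₁ H₂ h = h ⊗ₜ[R] 1 := by
  simp [inclLeftBialg, Bialgebra.unitBialgHom]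

@[simp] theorem inclRightBialg_apply (h : H₂) : inclRightBialg R H₁ H₂ h = 1 ⊗ₜ[R] h := by
  simp [inclRightBialg, Bialgebra.unitBialgHom]

/-- restriction of a point of `H₁ ⊗ H₂` to `H₁`. -/
def ptLeft (F : WithConv ((H₁ ⊗[R] H₂) →ₐ[R] C)) : WithConv (H₁ →ₐ[R] C) :=
  toConv (F.ofConv.comp ((inclLeftBialg R H₁ H₂ : H₁ →ₐc[R] H₁ ⊗[R] H₂) : H₁ →ₐ[R] H₁ ⊗[R] H₂))

/-- restriction of a point of `H₁ ⊗ H₂` to `H₂`. -/
def ptRight (F : WithConv ((H₁ ⊗[R] H₂) →ₐ[R] C)) : WithConv (H₂ →ₐ[R] C) :=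
  toConv (F.ofConv.comp ((inclRightBialg R H₁ H₂ : H₂ →ₐc[R] H₁ ⊗[R] H₂) : H₂ →ₐ[R] H₁ ⊗[R] H₂))

/-- the point of `H₁ ⊗ H₂` attached to a pair of points. -/
def ptPair (f₁ : WithConv (H₁ →ₐ[R] C)) (f₂ : WithConv (H₂ →ₐ[R] C)) :
    WithConv ((H₁ ⊗[R] H₂) →ₐ[R] C) :=
  toConv (Algebra.TensorProduct.productMap f₁.ofConv f₂.ofConv)

@[simp] theorem ptLeft_apply (F : WithConv ((H₁ ⊗[R] H₂) →ₐ[R] C)) (h : H₁) :
    ptLeft F h = F (h ⊗ₜ[R] 1) := by
  show F.ofConv ((inclLeftBialg R H₁ H₂) h) = _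
  rw [inclLeftBialg_apply]

@[simp] theorem ptRight_apply (F : WithConv ((H₁ ⊗[R] H₂) →ₐ[R] C)) (h : H₂) :
    ptRight F h = F (1 ⊗ₜ[R] h) := by
  show F.ofConv ((inclRightBialg R H₁ H₂) h) = _
  rw [inclRightBialg_apply]

@[simp] theorem ptPair_tmul (f₁ : WithConv (H₁ →ₐ[R] C)) (f₂ : WithConv (H₂ →ₐ[R] C))
    (a : H₁) (b : H₂) : ptPair f₁ f₂ (a ⊗ₜ[R] b) = f₁ a * f₂ b := by
  show Algebra.TensorProduct.productMap f₁.ofConv f₂.ofConv (a ⊗ₜ[R] b) = _
  rw [Algebra.TensorProduct.productMap_apply_tmul]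

/-- points of `H₁ ⊗ H₂` are pairs of points. -/
def ptEquiv : WithConv ((H₁ ⊗[R] H₂) →ₐ[R] C) ≃
    WithConv (H₁ →ₐ[R] C) × WithConv (H₂ →ₐ[R] C) where
  toFun F := (ptLeft F, ptRight F)
  invFun f := ptPair f.1 f.2
  left_inv F := by
    apply WithConv.ext
    apply Algebra.TensorProduct.ext'
    intro a b
    have h1 : (ptPair (ptLeft F) (ptRight F)) (a ⊗ₜ[R] b) = F (a ⊗ₜ[R] 1) * F (1 ⊗ₜ[R] b) := by
      rw [ptPair_tmul, ptLeft_apply, ptRight_apply]
    have h2 : F (a ⊗ₜ[R] 1) * F (1 ⊗ₜ[R] b) = F (a ⊗ₜ[R] b) := by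
      show F.ofConv (a ⊗ₜ[R] 1) * F.ofConv (1 ⊗ₜ[R] b) = F.ofConv (a ⊗ₜ[R] b)
      rw [← map_mul, Algebra.TensorProduct.tmul_mul_tmul, mul_one, one_mul]
    exact h1.trans h2
  right_inv f := by
    apply Prod.ext
    · apply WithConv.ext
      ext a
      show (ptLeft (ptPair f.1 f.2)) a = f.1 a
      rw [ptLeft_apply, ptPair_tmul, map_one]
      show f.1.ofConv a * 1 = _
      rw [mul_one]
    · apply WithConv.ext
      ext b
      show (ptRight (ptPair f.1 f.2)) b = f.2 b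
      rw [ptRight_apply, ptPair_tmul, map_one]
      show 1 * f.2.ofConv b = _
      rw [one_mul]

theorem ptLeft_mul (F G : WithConv ((H₁ ⊗[R] H₂) →ₐ[R] C)) :
    ptLeft (F * G) = ptLeft F * ptLeft G := by
  apply WithConv.ext
  exact AlgHom.convMul_comp_bialgHom_distrib F G (inclLeftBialg R H₁ H₂)

theorem ptRight_mul (F G : WithConv ((H₁ ⊗[R] H₂) →ₐ[R] C)) :
    ptRight (F * G) = ptRight F * ptRight G := by
  apply WithConv.ext
  exact AlgHom.convMul_comp_bialgHom_distrib F G (inclRightBialg R H₁ H₂)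

end Tensor

variable {p : ℕ}

/-- Products of flat Galois modules (exact statement of the stub `IsFlatGaloisModule.prod`). -/
theorem isFlat_prod_aux [Fact p.Prime] {M₁ M₂ : Type} [AddCommGroup M₁]
    [AddCommGroup M₂]
    {act₁ : (AlgebraicClosure ℚ ≃ₐ[ℚ] AlgebraicClosure ℚ) → M₁ → M₁}
    {act₂ : (AlgebraicClosure ℚ ≃ₐ[ℚ] AlgebraicClosure ℚ) → M₂ → M₂}
    (h₁ : IsFlatGaloisModule p M₁ act₁) (h₂ : IsFlatGaloisModule p M₂ act₂) :
    IsFlatGaloisModule p (M₁ × M₂) (fun σ x => (act₁ σ x.1, act₂ σ x.2)) := by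
  obtain ⟨H₁, i1, i2, hfin1, hflat1, hco1, e₁, he1, hσ1⟩ := h₁
  obtain ⟨H₂, j1, j2, hfin2, hflat2, hco2, e₂, he2, hσ2⟩ := h₂
  refine ⟨H₁ ⊗[GaloisRep.ratLocalizedAt p] H₂, inferInstance, inferInstance, inferInstance,
    inferInstance, inferInstance,
    (ptEquiv (R := GaloisRep.ratLocalizedAt p) (H₁ := H₁) (H₂ := H₂)
      (C := AlgebraicClosure ℚ)).trans (Equiv.prodCongr e₁ e₂), ?_, ?_⟩
  · intro f g
    show (e₁ (ptLeft (f * g)), e₂ (ptRight (f * g))) = (e₁ (ptLeft f), e₂ (ptRight f)) +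
      (e₁ (ptLeft g), e₂ (ptRight g))
    rw [ptLeft_mul, ptRight_mul, he1, he2]
    rfl
  · intro σ f g hfg
    show (e₁ (ptLeft g), e₂ (ptRight g)) = (act₁ σ (e₁ (ptLeft f)), act₂ σ (e₂ (ptRight f)))
    have h1 : e₁ (ptLeft g) = act₁ σ (e₁ (ptLeft f)) := by
      apply hσ1 σ (ptLeft f) (ptLeft g)
      intro h
      rw [ptLeft_apply, ptLeft_apply]
      exact hfg _
    have h2 : e₂ (ptRight g) = act₂ σ (e₂ (ptRight f)) := by
      apply hσ2 σ (ptRight f) (ptRight g)
      intro h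
      rw [ptRight_apply, ptRight_apply]
      exact hfg _
    rw [h1, h2]

end Fermat.Agent.FlatMod
end
end MergeWrap_Lib_FlatMod_Prod

section MergeWrap_Lib_FlatMod_HopfSub -- from Lib/FlatMod/HopfSub.lean

set_option autoImplicit false
set_option linter.style.haveILetI false

namespace Fermat.Agent.FlatMod

open TensorProduct Coalgebra

universe u v

variable {R : Type u} {H : Type v} [CommRing R] [CommRing H] [HopfAlgebra R H]
  (A : Subalgebra R H) (ρ : H →ₗ[R] A)

/-- `ρ ∘ ι = id`. -/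
theorem hopfSub_rho_comp_val (hρ : ∀ a : A, ρ (a : H) = a) :
    ρ ∘ₗ A.val.toLinearMap = LinearMap.id :=
  LinearMap.ext hρ

/-- `ι ⊗ ι` is injective. -/
theorem hopfSub_map_injective (hρ : ∀ a : A, ρ (a : H) = a) :
    Function.Injective (TensorProduct.map A.val.toLinearMap A.val.toLinearMap) := by
  refine Function.LeftInverse.injective (g := TensorProduct.map ρ ρ) fun x => ?_
  rw [← LinearMap.comp_apply, ← TensorProduct.map_comp, hopfSub_rho_comp_val A ρ hρ,
    TensorProduct.map_id, LinearMap.id_apply]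

/-- `ι ⊗ (ι ⊗ ι)` is injective. -/
theorem hopfSub_map₃_injective (hρ : ∀ a : A, ρ (a : H) = a) :
    Function.Injective (TensorProduct.map A.val.toLinearMap
      (TensorProduct.map A.val.toLinearMap A.val.toLinearMap)) := by
  refine Function.LeftInverse.injective (g := TensorProduct.map ρ (TensorProduct.map ρ ρ))
    fun x => ?_
  rw [← LinearMap.comp_apply, ← TensorProduct.map_comp, ← TensorProduct.map_comp,
    hopfSub_rho_comp_val A ρ hρ, TensorProduct.map_id, TensorProduct.map_id, LinearMap.id_apply]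

/-- `id ⊗ ι` is injective. -/
theorem hopfSub_lTensor_injective (hρ : ∀ a : A, ρ (a : H) = a) (M : Type*) [AddCommGroup M]
    [Module R M] :
    Function.Injective (TensorProduct.map (LinearMap.id : M →ₗ[R] M) A.val.toLinearMap) := by
  refine Function.LeftInverse.injective (g := TensorProduct.map LinearMap.id ρ) fun x => ?_
  rw [← LinearMap.comp_apply, ← TensorProduct.map_comp, hopfSub_rho_comp_val A ρ hρ,
    LinearMap.id_comp, TensorProduct.map_id, LinearMap.id_apply]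

/-- `ι ⊗ id` is injective. -/
theorem hopfSub_rTensor_injective (hρ : ∀ a : A, ρ (a : H) = a) (M : Type*) [AddCommGroup M]
    [Module R M] :
    Function.Injective (TensorProduct.map A.val.toLinearMap (LinearMap.id : M →ₗ[R] M)) := by
  refine Function.LeftInverse.injective (g := TensorProduct.map ρ LinearMap.id) fun x => ?_
  rw [← LinearMap.comp_apply, ← TensorProduct.map_comp, hopfSub_rho_comp_val A ρ hρ,
    LinearMap.id_comp, TensorProduct.map_id, LinearMap.id_apply]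

/-- The comultiplication of the sub-Hopf-algebra. -/
noncomputable def hopfSubComul : A →ₗ[R] A ⊗[R] A :=
  TensorProduct.map ρ ρ ∘ₗ (comul (R := R) (A := H)) ∘ₗ A.val.toLinearMap

/-- The counit of the sub-Hopf-algebra. -/
noncomputable def hopfSubCounit (A : Subalgebra R H) : A →ₗ[R] R :=
  (counit (R := R) (A := H)) ∘ₗ A.val.toLinearMap

theorem hopfSubComul_spec
    (hΔ : ∀ a : A, TensorProduct.map (A.val.toLinearMap ∘ₗ ρ) (A.val.toLinearMap ∘ₗ ρ)
      (Coalgebra.comul (R := R) (a : H)) = Coalgebra.comul (R := R) (a : H)) (a : A) :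
    TensorProduct.map A.val.toLinearMap A.val.toLinearMap (hopfSubComul A ρ a) =
      Coalgebra.comul (R := R) (a : H) := by
  rw [hopfSubComul, LinearMap.comp_apply, LinearMap.comp_apply, ← LinearMap.comp_apply,
    ← TensorProduct.map_comp]
  exact hΔ a

theorem hopfSubComul_spec'
    (hΔ : ∀ a : A, TensorProduct.map (A.val.toLinearMap ∘ₗ ρ) (A.val.toLinearMap ∘ₗ ρ)
      (Coalgebra.comul (R := R) (a : H)) = Coalgebra.comul (R := R) (a : H)) :
    TensorProduct.map A.val.toLinearMap A.val.toLinearMap ∘ₗ hopfSubComul A ρ =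
      Coalgebra.comul (R := R) (A := H) ∘ₗ A.val.toLinearMap :=
  LinearMap.ext fun a => hopfSubComul_spec A ρ hΔ a


/-- Naturality of the associator. -/
theorem hopfSub_assoc_nat :
    TensorProduct.map A.val.toLinearMap (TensorProduct.map A.val.toLinearMap A.val.toLinearMap) ∘ₗ
        (TensorProduct.assoc R A A A).toLinearMap =
      (TensorProduct.assoc R H H H).toLinearMap ∘ₗ
        TensorProduct.map (TensorProduct.map A.val.toLinearMap A.val.toLinearMap)
          A.val.toLinearMap :=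
  TensorProduct.ext_threefold fun _ _ _ => rfl

theorem hopfSub_coassoc (hρ : ∀ a : A, ρ (a : H) = a)
    (hΔ : ∀ a : A, TensorProduct.map (A.val.toLinearMap ∘ₗ ρ) (A.val.toLinearMap ∘ₗ ρ)
      (Coalgebra.comul (R := R) (a : H)) = Coalgebra.comul (R := R) (a : H)) :
    (TensorProduct.assoc R A A A).toLinearMap ∘ₗ (hopfSubComul A ρ).rTensor A ∘ₗ hopfSubComul A ρ =
      (hopfSubComul A ρ).lTensor A ∘ₗ hopfSubComul A ρ := by
  have hinj := hopfSub_map₃_injective A ρ hρ
  have h3 := hopfSubComul_spec' A ρ hΔ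
  refine LinearMap.ext fun a => hinj ?_
  have hL : TensorProduct.map A.val.toLinearMap
        (TensorProduct.map A.val.toLinearMap A.val.toLinearMap) ∘ₗ
        (TensorProduct.assoc R A A A).toLinearMap ∘ₗ (hopfSubComul A ρ).rTensor A ∘ₗ
          hopfSubComul A ρ =
      (TensorProduct.assoc R H H H).toLinearMap ∘ₗ (comul (R := R) (A := H)).rTensor H ∘ₗ
        comul (R := R) (A := H) ∘ₗ A.val.toLinearMap := by
    rw [← LinearMap.comp_assoc, hopfSub_assoc_nat, LinearMap.comp_assoc]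
    congr 1
    rw [← LinearMap.comp_assoc, LinearMap.rTensor, ← TensorProduct.map_comp, h3,
      LinearMap.comp_id, ← h3, ← LinearMap.comp_assoc, LinearMap.rTensor,
      ← TensorProduct.map_comp, LinearMap.id_comp, h3]
  have hR : TensorProduct.map A.val.toLinearMap
        (TensorProduct.map A.val.toLinearMap A.val.toLinearMap) ∘ₗ
        (hopfSubComul A ρ).lTensor A ∘ₗ hopfSubComul A ρ =
      (comul (R := R) (A := H)).lTensor H ∘ₗ
        comul (R := R) (A := H) ∘ₗ A.val.toLinearMap := by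
    rw [← LinearMap.comp_assoc, LinearMap.lTensor, ← TensorProduct.map_comp, h3,
      LinearMap.comp_id, ← h3, ← LinearMap.comp_assoc, LinearMap.lTensor,
      ← TensorProduct.map_comp, LinearMap.id_comp, h3]
  have := Coalgebra.coassoc (R := R) (A := H)
  calc _ = ((TensorProduct.assoc R H H H).toLinearMap ∘ₗ (comul (R := R) (A := H)).rTensor H ∘ₗ
        comul (R := R) (A := H) ∘ₗ A.val.toLinearMap) a := congrArg (fun f => f a) hL
    _ = ((comul (R := R) (A := H)).lTensor H ∘ₗ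
        comul (R := R) (A := H) ∘ₗ A.val.toLinearMap) a := by
      rw [← LinearMap.comp_assoc, ← LinearMap.comp_assoc, LinearMap.comp_assoc _ _
        (TensorProduct.assoc R H H H).toLinearMap, this, LinearMap.comp_assoc]
    _ = _ := (congrArg (fun f => f a) hR).symm


theorem hopfSub_rTensor_counit (hρ : ∀ a : A, ρ (a : H) = a)
    (hΔ : ∀ a : A, TensorProduct.map (A.val.toLinearMap ∘ₗ ρ) (A.val.toLinearMap ∘ₗ ρ)
      (Coalgebra.comul (R := R) (a : H)) = Coalgebra.comul (R := R) (a : H)) :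
    (hopfSubCounit A).rTensor A ∘ₗ hopfSubComul A ρ = TensorProduct.mk R R A 1 := by
  have hinj := hopfSub_lTensor_injective A ρ hρ R
  have h3 := hopfSubComul_spec' A ρ hΔ
  refine LinearMap.ext fun a => hinj ?_
  have hL : TensorProduct.map (LinearMap.id : R →ₗ[R] R) A.val.toLinearMap ∘ₗ
        (hopfSubCounit A).rTensor A ∘ₗ hopfSubComul A ρ =
      (counit (R := R) (A := H)).rTensor H ∘ₗ comul (R := R) (A := H) ∘ₗ A.val.toLinearMap := by
    rw [← LinearMap.comp_assoc, LinearMap.rTensor, ← TensorProduct.map_comp, LinearMap.id_comp,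
      LinearMap.comp_id, ← h3, ← LinearMap.comp_assoc, LinearMap.rTensor,
      ← TensorProduct.map_comp, LinearMap.id_comp]
    rfl
  have := Coalgebra.rTensor_counit_comp_comul (R := R) (A := H)
  calc _ = ((counit (R := R) (A := H)).rTensor H ∘ₗ comul (R := R) (A := H) ∘ₗ
        A.val.toLinearMap) a := congrArg (fun f => f a) hL
    _ = (TensorProduct.mk R R H 1 ∘ₗ A.val.toLinearMap) a := by
      rw [← LinearMap.comp_assoc, this]
    _ = _ := rfl

theorem hopfSub_lTensor_counit (hρ : ∀ a : A, ρ (a : H) = a)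
    (hΔ : ∀ a : A, TensorProduct.map (A.val.toLinearMap ∘ₗ ρ) (A.val.toLinearMap ∘ₗ ρ)
      (Coalgebra.comul (R := R) (a : H)) = Coalgebra.comul (R := R) (a : H)) :
    (hopfSubCounit A).lTensor A ∘ₗ hopfSubComul A ρ = (TensorProduct.mk R A R).flip 1 := by
  have hinj := hopfSub_rTensor_injective A ρ hρ R
  have h3 := hopfSubComul_spec' A ρ hΔ
  refine LinearMap.ext fun a => hinj ?_
  have hL : TensorProduct.map A.val.toLinearMap (LinearMap.id : R →ₗ[R] R) ∘ₗ
        (hopfSubCounit A).lTensor A ∘ₗ hopfSubComul A ρ =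
      (counit (R := R) (A := H)).lTensor H ∘ₗ comul (R := R) (A := H) ∘ₗ A.val.toLinearMap := by
    rw [← LinearMap.comp_assoc, LinearMap.lTensor, ← TensorProduct.map_comp, LinearMap.id_comp,
      LinearMap.comp_id, ← h3, ← LinearMap.comp_assoc, LinearMap.lTensor,
      ← TensorProduct.map_comp, LinearMap.id_comp]
    rfl
  have := Coalgebra.lTensor_counit_comp_comul (R := R) (A := H)
  calc _ = ((counit (R := R) (A := H)).lTensor H ∘ₗ comul (R := R) (A := H) ∘ₗ
        A.val.toLinearMap) a := congrArg (fun f => f a) hL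
    _ = ((TensorProduct.mk R H R).flip 1 ∘ₗ A.val.toLinearMap) a := by
      rw [← LinearMap.comp_assoc, this]
    _ = _ := rfl

/-- The coalgebra structure on the subalgebra. -/
@[instance_reducible]
noncomputable def hopfSubCoalgebra (hρ : ∀ a : A, ρ (a : H) = a)
    (hΔ : ∀ a : A, TensorProduct.map (A.val.toLinearMap ∘ₗ ρ) (A.val.toLinearMap ∘ₗ ρ)
      (Coalgebra.comul (R := R) (a : H)) = Coalgebra.comul (R := R) (a : H)) :
    Coalgebra R A where
  comul := hopfSubComul A ρ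
  counit := hopfSubCounit A
  coassoc := hopfSub_coassoc A ρ hρ hΔ
  rTensor_counit_comp_comul := hopfSub_rTensor_counit A ρ hρ hΔ
  lTensor_counit_comp_comul := hopfSub_lTensor_counit A ρ hρ hΔ


theorem hopfSub_map_mul (x y : A ⊗[R] A) :
    TensorProduct.map A.val.toLinearMap A.val.toLinearMap (x * y) =
      TensorProduct.map A.val.toLinearMap A.val.toLinearMap x *
        TensorProduct.map A.val.toLinearMap A.val.toLinearMap y :=
  map_mul (Algebra.TensorProduct.map A.val A.val) x y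

theorem hopfSub_map_one :
    TensorProduct.map A.val.toLinearMap A.val.toLinearMap (1 : A ⊗[R] A) = 1 :=
  map_one (Algebra.TensorProduct.map A.val A.val)

/-- The bialgebra structure on the subalgebra. -/
@[instance_reducible]
noncomputable def hopfSubBialgebra (hρ : ∀ a : A, ρ (a : H) = a)
    (hΔ : ∀ a : A, TensorProduct.map (A.val.toLinearMap ∘ₗ ρ) (A.val.toLinearMap ∘ₗ ρ)
      (Coalgebra.comul (R := R) (a : H)) = Coalgebra.comul (R := R) (a : H)) :
    Bialgebra R A :=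
  letI := hopfSubCoalgebra A ρ hρ hΔ
  Bialgebra.mk' R A
    (show counit (R := R) (A := H) ((1 : A) : H) = 1 by
      rw [OneMemClass.coe_one, Bialgebra.counit_one])
    (fun {a b} => show counit (R := R) (A := H) ((a * b : A) : H) =
        counit (R := R) (A := H) (a : H) * counit (R := R) (A := H) (b : H) by
      rw [MulMemClass.coe_mul, Bialgebra.counit_mul])
    (hopfSub_map_injective A ρ hρ (by
      show TensorProduct.map A.val.toLinearMap A.val.toLinearMap (hopfSubComul A ρ 1) = _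
      rw [hopfSubComul_spec A ρ hΔ, hopfSub_map_one, OneMemClass.coe_one, Bialgebra.comul_one]))
    (fun {a b} => hopfSub_map_injective A ρ hρ (by
      show TensorProduct.map A.val.toLinearMap A.val.toLinearMap (hopfSubComul A ρ (a * b)) =
        TensorProduct.map A.val.toLinearMap A.val.toLinearMap
          (hopfSubComul A ρ a * hopfSubComul A ρ b)
      rw [hopfSub_map_mul, hopfSubComul_spec A ρ hΔ, hopfSubComul_spec A ρ hΔ,
        hopfSubComul_spec A ρ hΔ, MulMemClass.coe_mul, Bialgebra.comul_mul]))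


/-- The antipode restricted to the subalgebra. -/
noncomputable def hopfSubAntipode (A : Subalgebra R H)
    (hS : ∀ a : A, HopfAlgebra.antipode R (a : H) ∈ A) : A →ₗ[R] A where
  toFun a := ⟨HopfAlgebra.antipode R (a : H), hS a⟩
  map_add' a b := Subtype.ext (by
    show HopfAlgebra.antipode R ((a + b : A) : H) =
      HopfAlgebra.antipode R (a : H) + HopfAlgebra.antipode R (b : H)
    rw [AddMemClass.coe_add, map_add])
  map_smul' r a := Subtype.ext (by
    show HopfAlgebra.antipode R ((r • a : A) : H) = r • HopfAlgebra.antipode R (a : H)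
    rw [SetLike.val_smul, map_smul])

theorem hopfSub_val_comp_antipode (hS : ∀ a : A, HopfAlgebra.antipode R (a : H) ∈ A) :
    A.val.toLinearMap ∘ₗ hopfSubAntipode A hS = HopfAlgebra.antipode R ∘ₗ A.val.toLinearMap :=
  LinearMap.ext fun _ => rfl

theorem hopfSub_val_comp_mul' :
    A.val.toLinearMap ∘ₗ LinearMap.mul' R A =
      LinearMap.mul' R H ∘ₗ TensorProduct.map A.val.toLinearMap A.val.toLinearMap :=
  TensorProduct.ext' fun _ _ => rfl

theorem hopfSub_antipode_rTensor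
    (hΔ : ∀ a : A, TensorProduct.map (A.val.toLinearMap ∘ₗ ρ) (A.val.toLinearMap ∘ₗ ρ)
      (Coalgebra.comul (R := R) (a : H)) = Coalgebra.comul (R := R) (a : H))
    (hS : ∀ a : A, HopfAlgebra.antipode R (a : H) ∈ A) :
    LinearMap.mul' R A ∘ₗ (hopfSubAntipode A hS).rTensor A ∘ₗ hopfSubComul A ρ =
      Algebra.linearMap R A ∘ₗ hopfSubCounit A := by
  have h3 := hopfSubComul_spec' A ρ hΔ
  refine LinearMap.ext fun a => Subtype.val_injective ?_
  have hL : A.val.toLinearMap ∘ₗ LinearMap.mul' R A ∘ₗ (hopfSubAntipode A hS).rTensor A ∘ₗ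
        hopfSubComul A ρ =
      LinearMap.mul' R H ∘ₗ (HopfAlgebra.antipode R).rTensor H ∘ₗ comul (R := R) (A := H) ∘ₗ
        A.val.toLinearMap := by
    rw [← LinearMap.comp_assoc, hopfSub_val_comp_mul', LinearMap.comp_assoc]
    congr 1
    rw [← LinearMap.comp_assoc, LinearMap.rTensor, ← TensorProduct.map_comp,
      hopfSub_val_comp_antipode, LinearMap.comp_id, ← h3, ← LinearMap.comp_assoc,
      LinearMap.rTensor, ← TensorProduct.map_comp, LinearMap.id_comp]
  have := HopfAlgebra.mul_antipode_rTensor_comul (R := R) (A := H)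
  calc _ = (LinearMap.mul' R H ∘ₗ (HopfAlgebra.antipode R).rTensor H ∘ₗ
        comul (R := R) (A := H) ∘ₗ A.val.toLinearMap) a := congrArg (fun f => f a) hL
    _ = ((Algebra.linearMap R H ∘ₗ counit (R := R) (A := H)) ∘ₗ A.val.toLinearMap) a := by
      rw [← this]; rfl
    _ = _ := rfl

theorem hopfSub_antipode_lTensor
    (hΔ : ∀ a : A, TensorProduct.map (A.val.toLinearMap ∘ₗ ρ) (A.val.toLinearMap ∘ₗ ρ)
      (Coalgebra.comul (R := R) (a : H)) = Coalgebra.comul (R := R) (a : H))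
    (hS : ∀ a : A, HopfAlgebra.antipode R (a : H) ∈ A) :
    LinearMap.mul' R A ∘ₗ (hopfSubAntipode A hS).lTensor A ∘ₗ hopfSubComul A ρ =
      Algebra.linearMap R A ∘ₗ hopfSubCounit A := by
  have h3 := hopfSubComul_spec' A ρ hΔ
  refine LinearMap.ext fun a => Subtype.val_injective ?_
  have hL : A.val.toLinearMap ∘ₗ LinearMap.mul' R A ∘ₗ (hopfSubAntipode A hS).lTensor A ∘ₗ
        hopfSubComul A ρ =
      LinearMap.mul' R H ∘ₗ (HopfAlgebra.antipode R).lTensor H ∘ₗ comul (R := R) (A := H) ∘ₗ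
        A.val.toLinearMap := by
    rw [← LinearMap.comp_assoc, hopfSub_val_comp_mul', LinearMap.comp_assoc]
    congr 1
    rw [← LinearMap.comp_assoc, LinearMap.lTensor, ← TensorProduct.map_comp,
      hopfSub_val_comp_antipode, LinearMap.comp_id, ← h3, ← LinearMap.comp_assoc,
      LinearMap.lTensor, ← TensorProduct.map_comp, LinearMap.id_comp]
  have := HopfAlgebra.mul_antipode_lTensor_comul (R := R) (A := H)
  calc _ = (LinearMap.mul' R H ∘ₗ (HopfAlgebra.antipode R).lTensor H ∘ₗ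
        comul (R := R) (A := H) ∘ₗ A.val.toLinearMap) a := congrArg (fun f => f a) hL
    _ = ((Algebra.linearMap R H ∘ₗ counit (R := R) (A := H)) ∘ₗ A.val.toLinearMap) a := by
      rw [← this]; rfl
    _ = _ := rfl

/-- **The Hopf algebra structure on a direct-summand subalgebra** stable under the
comultiplication and the antipode.  Its algebra structure is the subalgebra's. -/
@[instance_reducible]
noncomputable def hopfSub (hρ : ∀ a : A, ρ (a : H) = a)
    (hΔ : ∀ a : A, TensorProduct.map (A.val.toLinearMap ∘ₗ ρ) (A.val.toLinearMap ∘ₗ ρ)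
      (Coalgebra.comul (R := R) (a : H)) = Coalgebra.comul (R := R) (a : H))
    (hS : ∀ a : A, HopfAlgebra.antipode R (a : H) ∈ A) : HopfAlgebra R A where
  __ := hopfSubBialgebra A ρ hρ hΔ
  antipode := hopfSubAntipode A hS
  mul_antipode_rTensor_comul := hopfSub_antipode_rTensor A ρ hΔ hS
  mul_antipode_lTensor_comul := hopfSub_antipode_lTensor A ρ hΔ hS

section lemmas

variable (hρ : ∀ a : A, ρ (a : H) = a)
  (hΔ : ∀ a : A, TensorProduct.map (A.val.toLinearMap ∘ₗ ρ) (A.val.toLinearMap ∘ₗ ρ)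
    (Coalgebra.comul (R := R) (a : H)) = Coalgebra.comul (R := R) (a : H))
  (hS : ∀ a : A, HopfAlgebra.antipode R (a : H) ∈ A)

/-- The algebra structure of `hopfSub` is the subalgebra's. -/
theorem hopfSub_toAlgebra :
    (hopfSub A ρ hρ hΔ hS).toAlgebra = A.algebra :=
  rfl

theorem hopfSub_comul (a : A) :
    letI := hopfSub A ρ hρ hΔ hS
    TensorProduct.map A.val.toLinearMap A.val.toLinearMap (Coalgebra.comul (R := R) a) =
      Coalgebra.comul (R := R) (a : H) :=
  hopfSubComul_spec A ρ hΔ a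

theorem hopfSub_comul_eq (a : A) :
    letI := hopfSub A ρ hρ hΔ hS
    Coalgebra.comul (R := R) a = TensorProduct.map ρ ρ (Coalgebra.comul (R := R) (a : H)) :=
  rfl

theorem hopfSub_counit (a : A) :
    letI := hopfSub A ρ hρ hΔ hS
    Coalgebra.counit (R := R) a = Coalgebra.counit (R := R) (a : H) :=
  rfl

theorem hopfSub_antipode (a : A) :
    letI := hopfSub A ρ hρ hΔ hS
    ((HopfAlgebra.antipode R a : A) : H) = HopfAlgebra.antipode R (a : H) :=
  rfl

theorem hopfSub_isCocomm [Coalgebra.IsCocomm R H] :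
    letI := hopfSub A ρ hρ hΔ hS
    Coalgebra.IsCocomm R A := by
  letI := hopfSub A ρ hρ hΔ hS
  refine ⟨LinearMap.ext fun a => hopfSub_map_injective A ρ hρ ?_⟩
  have hnat : ∀ x : A ⊗[R] A,
      TensorProduct.map A.val.toLinearMap A.val.toLinearMap (TensorProduct.comm R A A x) =
        TensorProduct.comm R H H (TensorProduct.map A.val.toLinearMap A.val.toLinearMap x) := by
    intro x
    induction x using TensorProduct.induction_on with
    | zero => simp only [map_zero]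
    | tmul a b => rfl
    | add x y hx hy => simp only [map_add, hx, hy]
  show TensorProduct.map A.val.toLinearMap A.val.toLinearMap
      (TensorProduct.comm R A A (hopfSubComul A ρ a)) =
    TensorProduct.map A.val.toLinearMap A.val.toLinearMap (hopfSubComul A ρ a)
  rw [hnat, hopfSubComul_spec A ρ hΔ, Coalgebra.comm_comul]

end lemmas

end Fermat.Agent.FlatMod
end MergeWrap_Lib_FlatMod_HopfSub

section MergeWrap_Lib_FlatMod_QuotPts -- from Lib/FlatMod/QuotPts.lean

set_option autoImplicit false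
set_option linter.style.haveILetI false
set_option linter.unusedSectionVars false

namespace Fermat.Agent.FlatMod

open GaloisRep TensorProduct WithConv

local notation "Kb" => AlgebraicClosure ℚ
local notation "GK" => (AlgebraicClosure ℚ ≃ₐ[ℚ] AlgebraicClosure ℚ)

variable {p : ℕ}

namespace GalSub

variable {H : Type*} [CommRing H] [HopfAlgebra (ratLocalizedAt p) H] (N : GalSub p H)

/-- Restriction of a point to the invariant subalgebra. -/
noncomputable def resHom (f : WithConv (H →ₐ[ratLocalizedAt p] Kb)) :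
    N.invAlg →ₐ[ratLocalizedAt p] Kb :=
  f.ofConv.comp N.invAlg.val

@[simp] theorem resHom_apply (f : WithConv (H →ₐ[ratLocalizedAt p] Kb)) (a : N.invAlg) :
    N.resHom f a = f (a : H) := rfl

theorem resHom_mul_mem (g n : WithConv (H →ₐ[ratLocalizedAt p] Kb)) (hn : n ∈ N.carrier) :
    N.resHom (g * n) = N.resHom g := by
  apply AlgHom.ext
  intro a
  exact a.2 g n hn

variable [Fact p.Prime] [Module.Finite (ratLocalizedAt p) H] [Module.Flat (ratLocalizedAt p) H]
  [Coalgebra.IsCocomm (ratLocalizedAt p) H]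

theorem mul_mem_coset_iff (g f' n : WithConv (H →ₐ[ratLocalizedAt p] Kb))
    (hn : n ∈ N.carrier) :
    (∃ n' ∈ N.carrier, f' * n = g * n') ↔ (∃ n' ∈ N.carrier, f' = g * n') := by
  constructor
  · rintro ⟨n', hn', h⟩
    refine ⟨n' * invPt n, N.mul_mem _ hn' _ (N.inv_mem n hn), ?_⟩
    rw [← mul_assoc, ← h, mul_assoc, mul_invPt, mul_one]
  · rintro ⟨n', hn', h⟩
    refine ⟨n' * n, N.mul_mem _ hn' _ hn, ?_⟩
    rw [h, mul_assoc]

/-- Separation: two points with the same restriction to the invariants differ by an element of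
`N`. -/
theorem exists_mul_of_resHom_eq (f g : WithConv (H →ₐ[ratLocalizedAt p] Kb))
    (hfg : N.resHom f = N.resHom g) : ∃ n ∈ N.carrier, f = g * n := by
  classical
  haveI := finite_pts (p := p) (H := H)
  letI : Fintype (WithConv (H →ₐ[ratLocalizedAt p] Kb) × N.carrier) := Fintype.ofFinite _
  -- the functional `f - g` on the quotient
  let ψ : (H ⧸ (Subalgebra.toSubmodule N.invAlg)) →ₗ[ratLocalizedAt p] Kb :=
    (Subalgebra.toSubmodule N.invAlg).liftQ (f.ofConv.toLinearMap - g.ofConv.toLinearMap) (by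
      intro x hx
      rw [LinearMap.mem_ker, LinearMap.sub_apply, sub_eq_zero]
      exact congrArg (fun u : N.invAlg →ₐ[ratLocalizedAt p] Kb => u ⟨x, hx⟩) hfg)
  let b := Module.Free.chooseBasis (ratLocalizedAt p) (H ⧸ (Subalgebra.toSubmodule N.invAlg))
  obtain ⟨a, ha⟩ := exists_combination b N.dBar N.dBar_gal N.dBar_inj ψ
  have ha' : ∀ x : H, f x - g x = ∑ j, a j * ((j.1 * j.2.1) x - j.1 x) := by
    intro x
    exact ha (Submodule.Quotient.mk x)
  -- the finsupp relation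
  let ℓ : (H →ₐ[ratLocalizedAt p] Kb) →₀ Kb :=
    Finsupp.single f.ofConv 1 - Finsupp.single g.ofConv 1 -
      ∑ j, a j • (Finsupp.single (j.1 * j.2.1).ofConv 1 - Finsupp.single j.1.ofConv 1)
  have hℓ : Finsupp.linearCombination Kb
      (AlgHom.toLinearMap : (H →ₐ[ratLocalizedAt p] Kb) → H →ₗ[ratLocalizedAt p] Kb) ℓ = 0 := by
    apply LinearMap.ext
    intro x
    simp only [ℓ, map_sub, map_sum, map_smul, Finsupp.linearCombination_single, one_smul,
      LinearMap.sub_apply, LinearMap.sum_apply, LinearMap.smul_apply, AlgHom.toLinearMap_apply,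
      smul_eq_mul, LinearMap.zero_apply]
    rw [sub_eq_zero]
    exact ha' x
  have hℓ0 : ℓ = 0 :=
    (linearIndependent_iff.1 (linearIndependent_toLinearMap (ratLocalizedAt p) H Kb)) ℓ hℓ
  -- the indicator of the coset of `g`
  let χ : (H →ₐ[ratLocalizedAt p] Kb) → Kb := fun f' =>
    if ∃ n ∈ N.carrier, toConv f' = g * n then 1 else 0
  have hχ : ∀ (f' : WithConv (H →ₐ[ratLocalizedAt p] Kb)) (n : N.carrier),
      χ (f' * n.1).ofConv = χ f'.ofConv := by
    intro f' n
    show (if ∃ n' ∈ N.carrier, f' * n.1 = g * n' then (1 : Kb) else 0) =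
      (if ∃ n' ∈ N.carrier, f' = g * n' then (1 : Kb) else 0)
    rw [if_congr (N.mul_mem_coset_iff g f' n.1 n.2) rfl rfl]
  have h1 := congrArg (Finsupp.linearCombination Kb χ) hℓ0
  simp only [ℓ, map_sub, map_sum, map_smul, Finsupp.linearCombination_single,
    smul_eq_mul, map_zero, hχ, sub_self, mul_zero, Finset.sum_const_zero, sub_zero,
    one_mul] at h1
  have hχg : χ g.ofConv = 1 := by
    show (if ∃ n ∈ N.carrier, g = g * n then (1 : Kb) else 0) = 1
    rw [if_pos ⟨1, N.one_mem, (mul_one g).symm⟩]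
  rw [hχg, sub_eq_zero] at h1
  by_contra hcon
  have hχf : χ f.ofConv = 0 := by
    show (if ∃ n ∈ N.carrier, f = g * n then (1 : Kb) else 0) = 0
    rw [if_neg hcon]
  rw [hχf] at h1
  exact zero_ne_one h1

instance finite_invAlg : Module.Finite (ratLocalizedAt p) N.invAlg :=
  Module.Finite.of_injective N.invAlg.val.toLinearMap Subtype.val_injective

instance isTorsionFree_invAlg : Module.IsTorsionFree (ratLocalizedAt p) N.invAlg :=
  Function.Injective.moduleIsTorsionFree (fun a : N.invAlg => (a : H)) Subtype.val_injective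
    (fun _ _ => rfl)

example : Module.Free (ratLocalizedAt p) N.invAlg := inferInstance
example : Module.Flat (ratLocalizedAt p) N.invAlg := inferInstance

/-- Every point of the invariant subalgebra is the restriction of a point of `H`. -/
theorem resHom_surjective
    (hsep : ∀ x : H, (∀ f : WithConv (H →ₐ[ratLocalizedAt p] Kb), f x = 0) → x = 0) :
    Function.Surjective N.resHom := by
  classical
  haveI := finite_pts (p := p) (H := H)
  haveI : Finite (N.invAlg →ₐ[ratLocalizedAt p] Kb) := finite_algHom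
  letI : Fintype (N.invAlg →ₐ[ratLocalizedAt p] Kb) := Fintype.ofFinite _
  letI : Fintype (Set.range N.resHom) := Fintype.ofFinite _
  have h1 : Fintype.card (N.invAlg →ₐ[ratLocalizedAt p] Kb) ≤
      Module.finrank (ratLocalizedAt p) N.invAlg := card_algHom_le
  have h2 : Module.finrank (ratLocalizedAt p) N.invAlg ≤ Fintype.card (Set.range N.resHom) := by
    rw [Module.finrank_eq_card_chooseBasisIndex]
    refine card_basis_le (Module.Free.chooseBasis (ratLocalizedAt p) N.invAlg)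
      (fun j : Set.range N.resHom => j.1.toLinearMap) ?_ ?_
    · rintro σ ⟨_, f, rfl⟩
      exact ⟨⟨_, galPt σ f, rfl⟩, fun _ => rfl⟩
    · intro a ha
      apply Subtype.ext
      apply hsep
      intro f
      exact ha ⟨_, f, rfl⟩
  have h3 : Function.Injective (fun j : Set.range N.resHom => j.1) := Subtype.val_injective
  have h4 : Fintype.card (Set.range N.resHom) ≤
      Fintype.card (N.invAlg →ₐ[ratLocalizedAt p] Kb) := Fintype.card_le_of_injective _ h3
  have h5 := ((Fintype.bijective_iff_injective_and_card _).2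
    ⟨h3, le_antisymm h4 (h1.trans h2)⟩).2
  intro g'
  obtain ⟨⟨_, f, rfl⟩, hj⟩ := h5 g'
  exact ⟨f, hj⟩

end GalSub

end Fermat.Agent.FlatMod
end MergeWrap_Lib_FlatMod_QuotPts

section MergeWrap_Lib_FlatMod_Quot -- from Lib/FlatMod/Quot.lean

set_option autoImplicit false
set_option linter.style.haveILetI false
set_option linter.unusedSectionVars false

namespace Fermat.Agent.FlatMod

open GaloisRep TensorProduct WithConv

local notation "Kb" => AlgebraicClosure ℚ
local notation "GK" => (AlgebraicClosure ℚ ≃ₐ[ℚ] AlgebraicClosure ℚ)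

variable {p : ℕ} [Fact p.Prime]

/-- Quotients (same statement as the stub `IsFlatGaloisModule.quot`). -/
theorem isFlat_quot_aux {M M' : Type} [AddCommGroup M] [AddCommGroup M']
    {act : (AlgebraicClosure ℚ ≃ₐ[ℚ] AlgebraicClosure ℚ) → M → M}
    {act' : (AlgebraicClosure ℚ ≃ₐ[ℚ] AlgebraicClosure ℚ) → M' → M'}
    (h : IsFlatGaloisModule p M act) (π : M →+ M') (hπ : Function.Surjective π)
    (hact : ∀ σ x, π (act σ x) = act' σ (π x)) :
    IsFlatGaloisModule p M' act' := by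
  classical
  obtain ⟨H, i1, i2, h1, h2, h3, hsep, e, he1, he2⟩ := exists_separated h
  have hone : e 1 = 0 := by
    have := he1 1 1
    rw [mul_one] at this
    exact left_eq_add.1 this
  have hinv : ∀ f, e (invPt f) = - e f := by
    intro f
    have := he1 (invPt f) f
    rw [invPt_mul, hone] at this
    exact eq_neg_of_add_eq_zero_left this.symm
  have hgal : ∀ σ f, e (galPt σ f) = act σ (e f) := fun σ f =>
    he2 σ f (galPt σ f) (fun _ => rfl)
  have hact0 : ∀ σ, act' σ 0 = 0 := by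
    intro σ
    have h4 := hact σ 0
    rw [map_zero] at h4
    rw [← h4, ← hone, ← hgal, galPt_one_pt, hone, map_zero]
  let N₀ : GalSub p H :=
    { carrier := {f | π (e f) = 0}
      one_mem := by
        show π (e 1) = 0
        rw [hone, map_zero]
      mul_mem := by
        intro f hf g hg
        show π (e (f * g)) = 0
        rw [he1, map_add, hf, hg, add_zero]
      inv_mem := by
        intro f hf
        show π (e (invPt f)) = 0
        rw [hinv, map_neg, hf, neg_zero]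
      gal_mem := by
        intro σ f hf
        show π (e (galPt σ f)) = 0
        rw [hgal, hact, hf, hact0] }
  obtain ⟨ρ, hρ⟩ := exists_retraction_of_saturated (Subalgebra.toSubmodule N₀.invAlg)
    N₀.invAlg_saturated
  have hΔ : ∀ a : N₀.invAlg,
      TensorProduct.map (N₀.invAlg.val.toLinearMap ∘ₗ ρ) (N₀.invAlg.val.toLinearMap ∘ₗ ρ)
        (Coalgebra.comul (R := ratLocalizedAt p) (a : H)) =
      Coalgebra.comul (R := ratLocalizedAt p) (a : H) := fun a =>
    map_retraction_eq_self (Subalgebra.toSubmodule N₀.invAlg) ρ hρ _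
      (N₀.map_mkQ_id_comul hsep a a.2) (N₀.map_id_mkQ_comul hsep a a.2)
  have hS : ∀ a : N₀.invAlg, HopfAlgebra.antipode (ratLocalizedAt p) (a : H) ∈ N₀.invAlg :=
    fun a => N₀.antipode_mem_invAlg a a.2
  letI iH : HopfAlgebra (ratLocalizedAt p) N₀.invAlg := hopfSub N₀.invAlg ρ hρ hΔ hS
  have hcc : Coalgebra.IsCocomm (ratLocalizedAt p) N₀.invAlg :=
    hopfSub_isCocomm N₀.invAlg ρ hρ hΔ hS
  refine ⟨N₀.invAlg, inferInstance, iH, N₀.finite_invAlg, inferInstance, hcc, ?_⟩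
  -- multiplicativity of the restriction
  have hres_mul : ∀ f g : WithConv (H →ₐ[ratLocalizedAt p] Kb),
      (toConv (N₀.resHom (f * g)) : WithConv (N₀.invAlg →ₐ[ratLocalizedAt p] Kb)) =
        toConv (N₀.resHom f) * toConv (N₀.resHom g) := by
    intro f g
    apply WithConv.ext
    apply AlgHom.ext
    intro a
    have h5 := convMul_apply_eq_tmulFun (toConv (N₀.resHom f)) (toConv (N₀.resHom g)) a
    have h6 : tmulFun f.ofConv.toLinearMap g.ofConv.toLinearMap
        (TensorProduct.map N₀.invAlg.val.toLinearMap N₀.invAlg.val.toLinearMap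
          (Coalgebra.comul (R := ratLocalizedAt p) a)) =
        tmulFun (N₀.resHom f).toLinearMap (N₀.resHom g).toLinearMap
          (Coalgebra.comul (R := ratLocalizedAt p) a) := tmulFun_map _ _ _ _ _
    have h7 := hopfSub_comul N₀.invAlg ρ hρ hΔ hS a
    show N₀.resHom (f * g) a = (toConv (N₀.resHom f) * toConv (N₀.resHom g)) a
    rw [h5]
    show _ = tmulFun (N₀.resHom f).toLinearMap (N₀.resHom g).toLinearMap _
    rw [← h6, h7, ← convMul_apply_eq_tmulFun]
    rfl
  -- the map on points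
  have hsurj := N₀.resHom_surjective hsep
  let F : WithConv (N₀.invAlg →ₐ[ratLocalizedAt p] Kb) → M' := fun g' =>
    π (e (Classical.choose (hsurj g'.ofConv)))
  have hF : ∀ f, F (toConv (N₀.resHom f)) = π (e f) := by
    intro f
    have h8 : N₀.resHom (Classical.choose (hsurj (N₀.resHom f))) = N₀.resHom f :=
      Classical.choose_spec (hsurj (N₀.resHom f))
    obtain ⟨n, hn, h9⟩ := N₀.exists_mul_of_resHom_eq _ _ h8
    show π (e (Classical.choose (hsurj (N₀.resHom f)))) = π (e f)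
    rw [h9, he1, map_add]
    have hn' : π (e n) = 0 := hn
    rw [hn', add_zero]
  have hFinj : Function.Injective F := by
    intro g' g'' hgg
    obtain ⟨f, hf⟩ := hsurj g'.ofConv
    obtain ⟨g, hg⟩ := hsurj g''.ofConv
    have hf' : g' = toConv (N₀.resHom f) := WithConv.ext hf.symm
    have hg' : g'' = toConv (N₀.resHom g) := WithConv.ext hg.symm
    rw [hf', hg', hF, hF] at hgg
    have hn : f * invPt g ∈ N₀.carrier := by
      show π (e (f * invPt g)) = 0
      rw [he1, hinv, map_add, map_neg, hgg, add_neg_cancel]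
    have h10 : f = g * (f * invPt g) := by
      rw [mul_left_comm, mul_invPt, mul_one]
    rw [hf', hg']
    congr 1
    rw [h10]
    exact N₀.resHom_mul_mem g _ hn
  have hFsurj : Function.Surjective F := by
    intro m'
    obtain ⟨m, rfl⟩ := hπ m'
    refine ⟨toConv (N₀.resHom (e.symm m)), ?_⟩
    rw [hF, Equiv.apply_symm_apply]
  refine ⟨Equiv.ofBijective F ⟨hFinj, hFsurj⟩, fun g' g'' => ?_, fun σ f'' g'' hfg => ?_⟩
  · obtain ⟨f, hf⟩ := hsurj g'.ofConv
    obtain ⟨g, hg⟩ := hsurj g''.ofConv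
    have hf' : g' = toConv (N₀.resHom f) := WithConv.ext hf.symm
    have hg' : g'' = toConv (N₀.resHom g) := WithConv.ext hg.symm
    show F (g' * g'') = F g' + F g''
    rw [hf', hg', ← hres_mul, hF, hF, hF, he1, map_add]
  · obtain ⟨f, hf⟩ := hsurj f''.ofConv
    have hf' : f'' = toConv (N₀.resHom f) := WithConv.ext hf.symm
    have hg' : g'' = toConv (N₀.resHom (galPt σ f)) := by
      apply WithConv.ext
      apply AlgHom.ext
      intro a
      show g'' a = σ (f (a : H))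
      rw [hfg a, hf']
      rfl
    show F g'' = act' σ (F f'')
    rw [hg', hf', hF, hF, hgal, hact]

end Fermat.Agent.FlatMod
end MergeWrap_Lib_FlatMod_Quot

section MergeWrap_Lib_FlatMod_Closure -- from Lib/FlatMod/Closure.lean

set_option autoImplicit false

namespace Fermat.Agent.FlatMod

variable {p : ℕ}

/-- Transport along an equivariant additive equivalence. -/
theorem IsFlatGaloisModule.of_equiv {M M' : Type} [AddCommGroup M] [AddCommGroup M']
    {act : (AlgebraicClosure ℚ ≃ₐ[ℚ] AlgebraicClosure ℚ) → M → M}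
    {act' : (AlgebraicClosure ℚ ≃ₐ[ℚ] AlgebraicClosure ℚ) → M' → M'}
    (h : IsFlatGaloisModule p M act) (e : M ≃+ M')
    (he : ∀ σ x, e (act σ x) = act' σ (e x)) : IsFlatGaloisModule p M' act' := by
  obtain ⟨H, i1, i2, h1, h2, h3, e₀, he1, he2⟩ := h
  refine ⟨H, i1, i2, h1, h2, h3, e₀.trans e.toEquiv, fun f g => ?_, fun σ f g hfg => ?_⟩
  · show e (e₀ (f * g)) = e (e₀ f) + e (e₀ g)
    rw [he1, map_add]
  · show e (e₀ g) = act' σ (e (e₀ f))
    rw [he2 σ f g hfg, he]

/-- The zero module. -/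
theorem isFlatGaloisModule_of_subsingleton [Fact p.Prime] {M : Type} [AddCommGroup M]
    [Subsingleton M]
    (act : (AlgebraicClosure ℚ ≃ₐ[ℚ] AlgebraicClosure ℚ) → M → M) :
    IsFlatGaloisModule p M act :=
  isFlat_zero_aux act

/-- Products. -/
theorem IsFlatGaloisModule.prod [Fact p.Prime] {M₁ M₂ : Type} [AddCommGroup M₁]
    [AddCommGroup M₂]
    {act₁ : (AlgebraicClosure ℚ ≃ₐ[ℚ] AlgebraicClosure ℚ) → M₁ → M₁}
    {act₂ : (AlgebraicClosure ℚ ≃ₐ[ℚ] AlgebraicClosure ℚ) → M₂ → M₂}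
    (h₁ : IsFlatGaloisModule p M₁ act₁) (h₂ : IsFlatGaloisModule p M₂ act₂) :
    IsFlatGaloisModule p (M₁ × M₂) (fun σ x => (act₁ σ x.1, act₂ σ x.2)) :=
  isFlat_prod_aux h₁ h₂

/-- Sub-objects: a Galois-stable subgroup of a flat module is flat. -/
theorem IsFlatGaloisModule.sub [Fact p.Prime] {M : Type} [AddCommGroup M]
    {act : (AlgebraicClosure ℚ ≃ₐ[ℚ] AlgebraicClosure ℚ) → M → M}
    (h : IsFlatGaloisModule p M act) (N : AddSubgroup M)
    (hN : ∀ σ, ∀ x ∈ N, act σ x ∈ N) :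
    IsFlatGaloisModule p N (fun σ x => ⟨act σ x.1, hN σ x.1 x.2⟩) :=
  isFlat_sub_aux h N hN

/-- Quotients: the quotient of a flat module by a Galois-stable subgroup is flat
(stated for any surjective equivariant additive map). -/
theorem IsFlatGaloisModule.quot [Fact p.Prime] {M M' : Type} [AddCommGroup M]
    [AddCommGroup M']
    {act : (AlgebraicClosure ℚ ≃ₐ[ℚ] AlgebraicClosure ℚ) → M → M}
    {act' : (AlgebraicClosure ℚ ≃ₐ[ℚ] AlgebraicClosure ℚ) → M' → M'}
    (h : IsFlatGaloisModule p M act) (π : M →+ M') (hπ : Function.Surjective π)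
    (hact : ∀ σ x, π (act σ x) = act' σ (π x)) :
    IsFlatGaloisModule p M' act' :=
  isFlat_quot_aux h π hπ hact

/-- Sub-objects, stated for any injective equivariant additive map. -/
theorem IsFlatGaloisModule.of_injective [Fact p.Prime] {M M' : Type} [AddCommGroup M]
    [AddCommGroup M']
    {act : (AlgebraicClosure ℚ ≃ₐ[ℚ] AlgebraicClosure ℚ) → M → M}
    {act' : (AlgebraicClosure ℚ ≃ₐ[ℚ] AlgebraicClosure ℚ) → M' → M'}
    (h : IsFlatGaloisModule p M act) (ι : M' →+ M) (hι : Function.Injective ι)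
    (hact : ∀ σ x, ι (act' σ x) = act σ (ι x)) :
    IsFlatGaloisModule p M' act' :=
  isFlat_of_injective_aux h ι hι hact

end Fermat.Agent.FlatMod
end MergeWrap_Lib_FlatMod_Closure

section MergeWrap_E_Desc_FlatAsm -- from E/Desc/FlatAsm.lean

set_option autoImplicit false

noncomputable section

namespace Fermat.Agent.EDesc

open ModularCurve AlgebraicCurve Fermat.Agent.FlatMod Fermat.Agent.FFL

local notation "Qb" => AlgebraicClosure ℚ
local notation "GQb" => (AlgebraicClosure ℚ ≃ₐ[ℚ] AlgebraicClosure ℚ)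

/-! ### the abstract part -/

section Abstract

variable {W : Type} [AddCommGroup W] [DistribMulAction GQb W]

/-- the twisted action on `W × ℤ/n` defined by the function `c`:
`σ (t, m) = (σ t + m c(σ), m)`. -/
def twAct (n : ℕ) (c : GQb → W) (σ : GQb) (e : W × ZMod n) : W × ZMod n :=
  (σ • e.1 + e.2.val • c σ, e.2)

theorem twAct_apply (n : ℕ) (c : GQb → W) (σ : GQb) (t : W) (m : ZMod n) :
    twAct n c σ (t, m) = (σ • t + m.val • c σ, m) := rfl

theorem twAct_zero_snd (n : ℕ) (c : GQb → W) (σ : GQb) (t : W) :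
    twAct n c σ (t, 0) = (σ • t, 0) := by
  rw [twAct_apply, ZMod.val_zero, zero_smul, add_zero]

theorem twAct_sub_self (n : ℕ) (c : GQb → W) (σ : GQb) (t : W) (m : ZMod n) :
    twAct n c σ (t, m) - (t, m) = (σ • t - t + m.val • c σ, 0) := by
  rw [twAct_apply, Prod.mk_sub_mk, sub_self]
  congr 1
  abel

theorem twAct_one_sub (n : ℕ) (hn : (1 : ZMod n).val = 1) (c : GQb → W) (σ : GQb) :
    twAct n c σ (0, 1) - (0, 1) = (c σ, 0) := by
  rw [twAct_sub_self, hn, one_smul, smul_zero, sub_zero, zero_add]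

/-- **(et)**: if the extension `W × ℤ/n` twisted by `c` is flat, `F₁ ≤ W` is Galois-stable and
inertia acts trivially on `F₁ / F₀`, then a value `c σ ∈ F₁`, `σ` in the inertia group, lies in
`F₀`. -/
theorem et_unram_of_exact {p : ℕ} {P : ValuationSubring Qb} (hex : ExactProp p P) {n : ℕ}
    (hn : (1 : ZMod n).val = 1) (c : GQb → W)
    (hflat : IsFlatGaloisModule p (W × ZMod n) (twAct n c))
    (F₀ F₁ : AddSubgroup W) (hst : ∀ (σ : GQb) (w : W), w ∈ F₁ → σ • w ∈ F₁)
    (htriv : ∀ σ ∈ P.inertiaSubgroupIn ℚ, ∀ w ∈ F₁, σ • w - w ∈ F₀)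
    {σ : GQb} (hσ : σ ∈ P.inertiaSubgroupIn ℚ) (hc : c σ ∈ F₁) : c σ ∈ F₀ := by
  have hstab : ∀ τ : GQb, ∀ x ∈ F₁.prod (⊥ : AddSubgroup (ZMod n)),
      twAct n c τ x ∈ F₁.prod (⊥ : AddSubgroup (ZMod n)) := by
    rintro τ ⟨t, m⟩ hx
    obtain ⟨ht, hm⟩ := AddSubgroup.mem_prod.mp hx
    have hm0 : m = 0 := AddSubgroup.mem_bot.mp hm
    subst hm0
    rw [twAct_zero_snd]
    exact AddSubgroup.mem_prod.mpr ⟨hst τ t ht, AddSubgroup.mem_bot.mpr rfl⟩
  have h1 : ((c σ, 0) : W × ZMod n) ∈ F₁.prod (⊥ : AddSubgroup (ZMod n)) :=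
    AddSubgroup.mem_prod.mpr ⟨hc, AddSubgroup.mem_bot.mpr rfl⟩
  have h2 : ((c σ, 0) : W × ZMod n) ∈ augI P (twAct n c) := by
    rw [← twAct_one_sub n hn c σ]
    exact AddSubgroup.subset_closure ⟨σ, hσ, (0, 1), Set.mem_univ _, rfl⟩
  have h3 := hex (W × ZMod n) (twAct n c) hflat (F₁.prod ⊥) hstab _ h1 h2
  have h4 : augOn P (twAct n c) ((F₁.prod (⊥ : AddSubgroup (ZMod n)) : AddSubgroup _) :
      Set (W × ZMod n)) ≤ F₀.prod (⊥ : AddSubgroup (ZMod n)) := by
    unfold augOn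
    rw [AddSubgroup.closure_le]
    rintro w ⟨τ, hτ, ⟨t, m⟩, hv, rfl⟩
    obtain ⟨ht, hm⟩ := AddSubgroup.mem_prod.mp hv
    have hm0 : m = 0 := AddSubgroup.mem_bot.mp hm
    subst hm0
    rw [twAct_zero_snd, Prod.mk_sub_mk, sub_self]
    exact AddSubgroup.mem_prod.mpr ⟨htriv τ hτ t ht, AddSubgroup.mem_bot.mpr rfl⟩
  exact (AddSubgroup.mem_prod.mp (h4 h3)).1

/-- **(mu), on the inertia group**: if the extension `W × ℤ/n` twisted by `c` is flat, `c` has
values in the Galois-stable subgroup `F₁` and `ι : F₁ → μ_p` is multiplicative and equivariant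
for the inertia group, then `ι ∘ c` is on the inertia group the Kummer cocycle of a unit. -/
theorem mu_unit_inertia_of_peu {p : ℕ} [Fact p.Prime] {P : ValuationSubring Qb}
    (hpeu : PeuFlat p P) {n : ℕ} (hn : (1 : ZMod n).val = 1) (c : GQb → W)
    (hflat : IsFlatGaloisModule p (W × ZMod n) (twAct n c))
    (F₁ : AddSubgroup W) (hst : ∀ (σ : GQb) (w : W), w ∈ F₁ → σ • w ∈ F₁)
    (hc : ∀ σ, c σ ∈ F₁)
    (ι : W → Qb) (hmul : ∀ w ∈ F₁, ∀ w' ∈ F₁, ι (w + w') = ι w * ι w')
    (hpow : ∀ w ∈ F₁, ι w ^ p = 1)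
    (hsmul : ∀ σ ∈ P.inertiaSubgroupIn ℚ, ∀ w ∈ F₁, ι (σ • w) = σ (ι w)) :
    ∃ a : Qb, a ∈ P ∧ a⁻¹ ∈ P ∧ a ≠ 0 ∧
      ∀ σ ∈ P.inertiaSubgroupIn ℚ, σ a = ι (c σ) * a := by
  have hstab : ∀ τ : GQb, ∀ x ∈ F₁.prod (⊤ : AddSubgroup (ZMod n)),
      twAct n c τ x ∈ F₁.prod (⊤ : AddSubgroup (ZMod n)) := by
    rintro τ ⟨t, m⟩ hx
    obtain ⟨ht, -⟩ := AddSubgroup.mem_prod.mp hx
    rw [twAct_apply]
    exact AddSubgroup.mem_prod.mpr
      ⟨F₁.add_mem (hst τ t ht) (F₁.nsmul_mem (hc τ) _), AddSubgroup.mem_top _⟩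
  have hsub := hflat.sub (F₁.prod ⊤) hstab
  have hmem : ((0, 1) : W × ZMod n) ∈ F₁.prod (⊤ : AddSubgroup (ZMod n)) :=
    AddSubgroup.mem_prod.mpr ⟨F₁.zero_mem, AddSubgroup.mem_top _⟩
  obtain ⟨a, ha, ha', ha0, h⟩ : ∃ a : Qb, a ∈ P ∧ a⁻¹ ∈ P ∧ a ≠ 0 ∧
      ∀ σ ∈ P.inertiaSubgroupIn ℚ, σ a =
        ι (((⟨twAct n c σ (0, 1), hstab σ _ hmem⟩ : ↥(F₁.prod (⊤ : AddSubgroup (ZMod n)))) -
          ⟨(0, 1), hmem⟩ : ↥(F₁.prod (⊤ : AddSubgroup (ZMod n)))) : W × ZMod n).1 * a := by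
    refine hpeu _ _ hsub
      (((⊤ : AddSubgroup W).prod (⊥ : AddSubgroup (ZMod n))).addSubgroupOf (F₁.prod ⊤))
      (fun x => ι x.1.1) ?_ ?_ ?_ ?_ ⟨(0, 1), hmem⟩
    · rintro σ - ⟨⟨t, m⟩, hx⟩
      rw [AddSubgroup.mem_addSubgroupOf]
      have h6 : (((⟨twAct n c σ (t, m), hstab σ _ hx⟩ :
          ↥(F₁.prod (⊤ : AddSubgroup (ZMod n)))) -
          ⟨(t, m), hx⟩ : ↥(F₁.prod (⊤ : AddSubgroup (ZMod n)))) : W × ZMod n) =
          (σ • t - t + m.val • c σ, 0) := by
        rw [AddSubgroup.coe_sub]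
        exact twAct_sub_self n c σ t m
      show ((_ : ↥(F₁.prod (⊤ : AddSubgroup (ZMod n)))) : W × ZMod n) ∈ _
      rw [h6]
      exact AddSubgroup.mem_prod.mpr ⟨AddSubgroup.mem_top _, AddSubgroup.mem_bot.mpr rfl⟩
    · rintro ⟨⟨t, m⟩, hx⟩ - ⟨⟨t', m'⟩, hy⟩ -
      exact hmul t (AddSubgroup.mem_prod.mp hx).1 t' (AddSubgroup.mem_prod.mp hy).1
    · rintro ⟨⟨t, m⟩, hx⟩ -
      exact hpow t (AddSubgroup.mem_prod.mp hx).1
    · rintro σ hσ ⟨⟨t, m⟩, hx⟩ hxN
      have hm : m = 0 :=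
        AddSubgroup.mem_bot.mp
          (AddSubgroup.mem_prod.mp (AddSubgroup.mem_addSubgroupOf.mp hxN)).2
      subst hm
      show ι (twAct n c σ (t, 0)).1 = σ (ι t)
      rw [twAct_zero_snd]
      exact hsmul σ hσ t (AddSubgroup.mem_prod.mp hx).1
  refine ⟨a, ha, ha', ha0, fun σ hσ => ?_⟩
  have h5 := h σ hσ
  have h6 : (((⟨twAct n c σ (0, 1), hstab σ _ hmem⟩ : ↥(F₁.prod (⊤ : AddSubgroup (ZMod n)))) -
      ⟨(0, 1), hmem⟩ : ↥(F₁.prod (⊤ : AddSubgroup (ZMod n)))) : W × ZMod n) = (c σ, 0) := by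
    rw [AddSubgroup.coe_sub]
    exact twAct_one_sub n hn c σ
  rw [h6] at h5
  exact h5

/-- **from the inertia group to `G_ℚ`**: a continuous cocycle `κ : G_ℚ → ℚ̄ˣ` which on the
inertia group at `Al` is the Kummer cocycle of a unit is the Kummer cocycle of a unit
(Hilbert 90 + the value group of the inertia field is that of `ℚ`). -/
theorem unit_of_inertia_unit {l' : ℕ} (hl : l'.Prime) (Al : ValuationSubring Qb)
    (hAl : Al.LiesOverPrime l') (κ : GQb → Qb) (hne : ∀ σ, κ σ ≠ 0)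
    (hcoc : ∀ σ τ, κ (σ * τ) = κ σ * σ (κ τ))
    (hcts : ∃ E : IntermediateField ℚ Qb, FiniteDimensional ℚ E ∧
      ∀ σ τ, τ ∈ E.fixingSubgroup → κ (σ * τ) = κ σ)
    (hI : ∃ a : Qb, a ∈ Al ∧ a⁻¹ ∈ Al ∧ a ≠ 0 ∧
      ∀ σ ∈ Al.inertiaSubgroupIn ℚ, σ a = κ σ * a) :
    ∃ a : Qb, a ∈ Al ∧ a⁻¹ ∈ Al ∧ a ≠ 0 ∧ ∀ σ : GQb, κ σ * a = σ a := by
  obtain ⟨a, ha, ha', ha0, hIa⟩ := hI
  obtain ⟨b, hb0, hb⟩ := pcs_hilbert90 κ hcoc hne hcts
  have hfix : ∀ σ ∈ Al.inertiaSubgroupIn ℚ, σ (b / a) = b / a := by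
    intro σ hσ
    rw [map_div₀, ← hb σ, hIa σ hσ, mul_div_mul_left _ _ (hne σ)]
  obtain ⟨j, hj⟩ := pcs_val_fixed Al hl hAl (pcsUnr_holds l' Al hl hAl) (b / a)
    (div_ne_zero hb0 ha0) hfix
  have hva : Al.valuation a = 1 := by
    have h1 : Al.valuation a ≤ 1 := (Al.valuation_le_one_iff a).mpr ha
    have h2 : Al.valuation a⁻¹ ≤ 1 := (Al.valuation_le_one_iff _).mpr ha'
    rw [map_inv₀] at h2
    have h3 : Al.valuation a ≠ 0 := (Valuation.ne_zero_iff _).mpr ha0
    exact le_antisymm h1 ((inv_le_one₀ (zero_lt_iff.mpr h3)).mp h2)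
  have hvb : Al.valuation b = Al.valuation (l' : Qb) ^ j := by
    rw [← hj, map_div₀, hva, div_one]
  have hl0 : (l' : Qb) ≠ 0 := by exact_mod_cast hl.ne_zero
  have hv1 : Al.valuation (b / (l' : Qb) ^ j) = 1 := by
    rw [map_div₀, map_zpow₀, hvb]
    exact div_self (zpow_ne_zero j ((Valuation.ne_zero_iff _).mpr hl0))
  refine ⟨b / (l' : Qb) ^ j, ?_, ?_, div_ne_zero hb0 (zpow_ne_zero j hl0), fun σ => ?_⟩
  · exact (Al.valuation_le_one_iff _).mp hv1.le
  · refine (Al.valuation_le_one_iff _).mp ?_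
    rw [map_inv₀, hv1, inv_one]
  · rw [map_div₀, map_zpow₀, map_natCast, ← hb σ, mul_div_assoc]

end Abstract

/-! ### the flat condition on `W_k` -/

section Eis

variable (N : ℕ) [NeZero N]

/-- the local condition: `c` is the Kummer cocycle of a point `R` with `l'^k R` rational. -/
def KumFlatCond (l' : ℕ) (S : Finset ℕ) (k : ℕ) (c : GQb → EisW N l' S k) : Prop :=
  ∃ R : JZero N, RatPt (l' ^ k • R) ∧ ∀ σ, ((c σ : EisW N l' S k) : JZero N) = kum R σ

/-- **FL-K**, in the form consumed here: the extension of `ℤ/l'^k` by `W_k` defined by a Kummer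
cocycle with values in `W_k` is a flat Galois module at `l'`. -/
def EisKumFlat (l' : ℕ) (S : Finset ℕ) : Prop :=
  ∀ (k : ℕ) (R : JZero N) (c : GQb → EisW N l' S k), RatPt (l' ^ k • R) →
    (∀ σ, ((c σ : EisW N l' S k) : JZero N) = kum R σ) →
    IsFlatGaloisModule l' (EisW N l' S k × ZMod (l' ^ k)) (twAct (l' ^ k) c)

variable {N}

theorem eisW_ext {l' : ℕ} {S : Finset ℕ} {k : ℕ} {w w' : EisW N l' S k}
    (h : (w : JZero N) = w') : w = w' := Subtype.ext h

theorem eisW_eq_zero_of_zero {l' : ℕ} {S : Finset ℕ} (w : EisW N l' S 0) : w = 0 := by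
  apply Subtype.ext
  have h := w.2.1
  rw [pow_zero, one_smul] at h
  exact h

theorem val_one_pow {l' : ℕ} (hl : l'.Prime) {k : ℕ} (hk : k ≠ 0) :
    (1 : ZMod (l' ^ k)).val = 1 := by
  have h : 1 < l' ^ k := Nat.one_lt_pow hk hl.one_lt
  have : Fact (1 < l' ^ k) := ⟨h⟩
  exact ZMod.val_one (l' ^ k)

theorem kumFlatCond_add {l' : ℕ} {S : Finset ℕ} {k : ℕ} {c c' : GQb → EisW N l' S k}
    (h : KumFlatCond N l' S k c) (h' : KumFlatCond N l' S k c') :
    KumFlatCond N l' S k (c + c') := by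
  obtain ⟨R, hR, hc⟩ := h
  obtain ⟨R', hR', hc'⟩ := h'
  refine ⟨R + R', ?_, fun σ => ?_⟩
  · rw [nsmul_add]
    exact hR.add hR'
  · rw [kum_add, ← hc, ← hc']
    rfl

theorem kumFlatCond_neg {l' : ℕ} {S : Finset ℕ} {k : ℕ} {c : GQb → EisW N l' S k}
    (h : KumFlatCond N l' S k c) : KumFlatCond N l' S k (-c) := by
  obtain ⟨R, hR, hc⟩ := h
  refine ⟨-R, ?_, fun σ => ?_⟩
  · rw [neg_nsmul]
    exact hR.neg
  · rw [kum_neg, ← hc]
    rfl

theorem kumFlatCond_cob {l' : ℕ} {S : Finset ℕ} {k : ℕ} (w : EisW N l' S k) :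
    KumFlatCond N l' S k (fun σ => σ • w - w) := by
  refine ⟨(w : JZero N), ?_, fun σ => ?_⟩
  · rw [w.2.1]
    exact ratPt_zero
  · rfl

/-- a flat cocycle is continuous. -/
theorem kumFlatCond_cts {l' : ℕ} {S : Finset ℕ} {k : ℕ} {c : GQb → EisW N l' S k}
    (h : KumFlatCond N l' S k c) : IsCtsCoc c := by
  obtain ⟨R, -, hc⟩ := h
  exact isCtsCoc_of_emb (eisEmb N l' S k) hc (kum_isCtsCoc R)

end Eis

/-- the coordinate of a `mu`-piece is a homomorphism to `μ_{l'}`. -/
theorem typedChain_ι_zero {W : Type*} [AddCommGroup W] [DistribMulAction GQb W] {l' : ℕ}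
    (C : TypedChain W l') {i : ℕ} (hi : i < C.L) (hnet : ¬ C.et i) : C.ι i 0 = 1 :=
  (C.ι_one_iff i hi hnet 0 (zero_mem _)).mpr (zero_mem _)

theorem typedChain_ι_nsmul {W : Type*} [AddCommGroup W] [DistribMulAction GQb W] {l' : ℕ}
    (C : TypedChain W l') {i : ℕ} (hi : i < C.L) (hnet : ¬ C.et i) {w : W}
    (hw : w ∈ C.F (i + 1)) (m : ℕ) : C.ι i (m • w) = C.ι i w ^ m := by
  induction m with
  | zero => rw [zero_smul, pow_zero, typedChain_ι_zero C hi hnet]
  | succ m ih =>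
    rw [succ_nsmul, C.ι_mul i hi hnet _ _ ((C.F (i + 1)).nsmul_mem hw m) hw, ih, pow_succ]

theorem typedChain_nsmul_mem {W : Type*} [AddCommGroup W] [DistribMulAction GQb W] {l' : ℕ}
    (C : TypedChain W l') {i : ℕ} (hi : i < C.L) {w : W} (hw : w ∈ C.F (i + 1)) :
    l' • w ∈ C.F i := by
  have h1 := C.index i hi
  have h2 := AddSubgroup.nsmul_index_mem ((C.F i).addSubgroupOf (C.F (i + 1))) ⟨w, hw⟩
  rw [AddSubgroup.relIndex] at h1
  rw [h1, AddSubgroup.mem_addSubgroupOf] at h2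
  exact h2

theorem typedChain_ι_pow {W : Type*} [AddCommGroup W] [DistribMulAction GQb W] {l' : ℕ}
    (C : TypedChain W l') {i : ℕ} (hi : i < C.L) (hnet : ¬ C.et i) {w : W}
    (hw : w ∈ C.F (i + 1)) : C.ι i w ^ l' = 1 := by
  rw [← typedChain_ι_nsmul C hi hnet hw]
  exact (C.ι_one_iff i hi hnet _ ((C.F (i + 1)).nsmul_mem hw l')).mpr
    (typedChain_nsmul_mem C hi hw)

/-- the coordinate of a cocycle with values in a `mu`-piece is a cocycle with values in
`μ_{l'}`. -/
theorem typedChain_ι_coc {W : Type*} [AddCommGroup W] [DistribMulAction GQb W] {l' : ℕ}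
    (C : TypedChain W l') {i : ℕ} (hi : i < C.L) (hnet : ¬ C.et i) {c : GQb → W}
    (hcoc : IsCoc c) (hval : ∀ σ, c σ ∈ C.F (i + 1)) (σ τ : GQb) :
    C.ι i (c (σ * τ)) = C.ι i (c σ) * σ (C.ι i (c τ)) := by
  rw [hcoc σ τ, C.ι_mul i hi hnet _ _ (hval σ) (C.stable (i + 1) σ _ (hval τ)),
    C.ι_smul i hi hnet σ _ (hval τ)]

section Eis2

variable {N : ℕ} [NeZero N]

/-- **DESC-FL at one place**: the Kummer condition is a flat condition for every typed chain of
`W_k`, given EXACT and PEU at the place `Al` and FL-K. -/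
theorem eisFlatAt_of {l' : ℕ} (hl : l'.Prime) {S : Finset ℕ} (k : ℕ)
    (C : TypedChain (EisW N l' S k) l') (Al : ValuationSubring Qb) (hAl : Al.LiesOverPrime l')
    (hex : ExactProp l' Al) (hpeu : PeuFlat l' Al) (hK : EisKumFlat N l' S) :
    EisFlatAt N l' S k C Al := by
  have : Fact l'.Prime := ⟨hl⟩
  refine ⟨KumFlatCond N l' S k,
    ⟨fun c c' => kumFlatCond_add, fun c => kumFlatCond_neg, kumFlatCond_cob, ?_, ?_⟩,
    fun R c hR hc => ⟨R, hR, hc⟩⟩
  · -- `et_unram`
    intro i hi het c _ hfl hval σ hσ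
    by_cases hk : k = 0
    · subst hk
      rw [eisW_eq_zero_of_zero (c σ)]
      exact (C.F i).zero_mem
    · obtain ⟨R, hR, hc⟩ := hfl
      exact et_unram_of_exact hex (val_one_pow hl hk) c (hK k R c hR hc) (C.F i) (C.F (i + 1))
        (C.stable (i + 1)) (fun τ _ w hw => C.et_triv i hi het τ w hw) hσ (hval σ)
  · -- `mu_unit`
    intro i hi hnet c hcoc hfl hval
    by_cases hk : k = 0
    · subst hk
      refine ⟨1, Al.one_mem, by rw [inv_one]; exact Al.one_mem, one_ne_zero, fun σ _ => ?_⟩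
      rw [eisW_eq_zero_of_zero (c σ), typedChain_ι_zero C hi hnet, map_one, mul_one]
    · have hcts := kumFlatCond_cts hfl
      obtain ⟨R, hR, hc⟩ := hfl
      have hI := mu_unit_inertia_of_peu hpeu (val_one_pow hl hk) c (hK k R c hR hc)
        (C.F (i + 1)) (C.stable (i + 1)) hval (C.ι i)
        (fun w hw w' hw' => C.ι_mul i hi hnet w w' hw hw')
        (fun w hw => typedChain_ι_pow C hi hnet hw)
        (fun σ _ w hw => C.ι_smul i hi hnet σ w hw)
      obtain ⟨a, ha, ha', ha0, h⟩ := unit_of_inertia_unit hl Al hAl (fun σ => C.ι i (c σ))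
        (fun σ h0 => by
          have h1 := typedChain_ι_pow C hi hnet (hval σ)
          rw [h0, zero_pow hl.ne_zero] at h1
          exact zero_ne_one h1)
        (typedChain_ι_coc C hi hnet hcoc hval)
        (by
          obtain ⟨E, hE, hE'⟩ := hcts
          exact ⟨E, hE, fun σ τ hτ => by rw [hE' σ τ hτ]⟩)
        hI
      exact ⟨a, ha, ha', ha0, fun σ _ => h σ⟩

/-- **DESC-FL at one place**, with EXACT (odd `l'`) and PEU discharged. -/
theorem eisFlatAt_of_kum {l' : ℕ} (hl : l'.Prime) (hodd : l' ≠ 2) {S : Finset ℕ} (k : ℕ)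
    (C : TypedChain (EisW N l' S k) l') (Al : ValuationSubring Qb) (hAl : Al.LiesOverPrime l')
    (hK : EisKumFlat N l' S) : EisFlatAt N l' S k C Al :=
  eisFlatAt_of hl k C Al hAl (exactProp hl hodd Al hAl) (peuFlat hl hAl) hK

/-- **DESC-FL-ASM (odd `l'`)**: the flat local condition exists for every typed chain of `W_k`
at every place over `l'`, from FL-K. -/
theorem eisFlat {l' : ℕ} (hl : l'.Prime) (hodd : l' ≠ 2) {S : Finset ℕ}
    (hK : EisKumFlat N l' S) : EisFlat N l' S :=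
  fun k C Al hAl => eisFlatAt_of_kum hl hodd k C Al hAl hK

end Eis2

end Fermat.Agent.EDesc
end
end MergeWrap_E_Desc_FlatAsm

section MergeWrap_E_Desc_FlatAsmK -- from E/Desc/FlatAsmK.lean

set_option autoImplicit false

noncomputable section

namespace Fermat.Agent.EDesc

open ModularCurve AlgebraicCurve Fermat.Agent.FlatMod Fermat.Agent.FFL

local notation "Qb" => AlgebraicClosure ℚ
local notation "GQb" => (AlgebraicClosure ℚ ≃ₐ[ℚ] AlgebraicClosure ℚ)

variable {N : ℕ} [NeZero N]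

/-- FL-K in the form of `FlatAsm.lean` from FL-K at the level `N`. -/
theorem eisKumFlat_of_flatKummerAt {l' : ℕ} (hl : l'.Prime) (S : Finset ℕ)
    (h : ∀ k : ℕ, Fermat.Agent.FFKum.FlatKummerAt N l' k) : EisKumFlat N l' S := by
  intro k R c hR hc
  have : Fact l'.Prime := ⟨hl⟩
  exact Fermat.Agent.FFKum.isFlat_extAct_of_flatKummerAt (h k) (fun σ w => σ • w)
    (eisTors N l' S k).subtype Subtype.coe_injective (fun _ _ => rfl) (fun w => w.2.1) R hR c hc

/-- **FL-K** for the Eisenstein part `W_k` of `J₀(N)[l'^k]`, `l' ∤ N`. -/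
theorem eisKumFlat {l' : ℕ} (hl : l'.Prime) (hlN : ¬ l' ∣ N) (S : Finset ℕ) :
    EisKumFlat N l' S :=
  have : Fact l'.Prime := ⟨hl⟩
  eisKumFlat_of_flatKummerAt hl S fun k => Fermat.Agent.FFKum.flatKummerAt N l' k hlN

/-- **the flat condition at one place over `l'`**, for EVERY prime `l' ∤ N`, given EXACT at the
place (automatic for odd `l'`). -/
theorem eisFlatAt_of_exact {l' : ℕ} (hl : l'.Prime) (hlN : ¬ l' ∣ N) {S : Finset ℕ} (k : ℕ)
    (C : TypedChain (EisW N l' S k) l') (Al : ValuationSubring Qb) (hAl : Al.LiesOverPrime l')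
    (hex : ExactProp l' Al) : EisFlatAt N l' S k C Al :=
  eisFlatAt_of hl k C Al hAl hex (peuFlat hl hAl) (eisKumFlat hl hlN S)

/-- **DESC-FL (odd `l'`)**: `EisFlat N l' S` for every odd prime `l' ∤ N`. -/
theorem eisFlat_odd {l' : ℕ} (hl : l'.Prime) (hodd : l' ≠ 2) (hlN : ¬ l' ∣ N) (S : Finset ℕ) :
    EisFlat N l' S :=
  eisFlat hl hodd (eisKumFlat hl hlN S)

end Fermat.Agent.EDesc
end
end MergeWrap_E_Desc_FlatAsmK
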