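import Fermat.Agent.MU.E.Desc.MainDefs

section MergeWrap_E_Desc_Main2Defs -- from E/Desc/Main2Defs.lean

/-!
# E' / Desc / Main2Defs : the interface of DESC-MAIN for every `l'` (REAL route at `l' = 2`)
(helper90)

For `l' = 2` the local condition `Flat` contains the condition at the real place
(`c (c_∞) ∈ (c_∞ - 1) W`).  The Kummer cocycle of a root `R⁰` of a rational point need not be
real, but that of `R⁰ + c_∞ R⁰` (a root of twice the point) VANISHES at `c_∞`.  So the interface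
asks `Flat` only for the Kummer cocycles of the points `R⁰ + τ R⁰`, `l'^k R⁰` rational, for a
fixed `τ ∈ G_ℚ` (`τ = c_∞` at `l' = 2`; any `τ` for odd `l'`).

* `EisFlatAtTw N τ l' S k C Al`, `EisLocalTw N τ l' S` : the twisted forms of `EisFlatAt`,
  `EisLocal`;
* `eisLocalTw_of` : `EisLocal → EisLocalTw τ` for every `τ`.
-/

set_option autoImplicit false

noncomputable section

namespace Fermat.Agent.EDesc

open ModularCurve AlgebraicCurve

local notation "Qb" => AlgebraicClosure ℚ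
local notation "GQb" => (AlgebraicClosure ℚ ≃ₐ[ℚ] AlgebraicClosure ℚ)

variable (N : ℕ) [NeZero N]

/-- the flat local condition for the chain `C` of `W_k` at the place `Al`, containing the Kummer
cocycles of the points `R⁰ + τ R⁰` with `l'^k R⁰` rational. -/
def EisFlatAtTw (τ : GQb) (l' : ℕ) (S : Finset ℕ) (k : ℕ) (C : TypedChain (EisW N l' S k) l')
    (Al : ValuationSubring Qb) : Prop :=
  ∃ Flat : (GQb → EisW N l' S k) → Prop, FlatCond C Al Flat ∧
    ∀ (R₀ : JZero N) (c : GQb → EisW N l' S k), RatPt (l' ^ k • R₀) →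
      (∀ σ, ((c σ : EisW N l' S k) : JZero N) = kum (R₀ + τ • R₀) σ) → Flat c

/-- **(W) + (FL)**, twisted form: SOME typed chain of `W_k` has at least half of its pieces `et`
and carries a flat condition containing the Kummer cocycles of the points `R⁰ + τ R⁰`. -/
def EisLocalTw (τ : GQb) (l' : ℕ) (S : Finset ℕ) : Prop :=
  ∃ c : ℕ, 0 < c ∧ ∀ k : ℕ, ∃ C : TypedChain (EisW N l' S k) l',
    Nat.card (EisW N l' S k) ≤ c * l' ^ (2 * C.alpha) ∧
    ∀ Al : ValuationSubring Qb, Al.LiesOverPrime l' → EisFlatAtTw N τ l' S k C Al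

variable {N}

theorem eisFlatAtTw_of (τ : GQb) {l' : ℕ} {S : Finset ℕ} {k : ℕ}
    {C : TypedChain (EisW N l' S k) l'} {Al : ValuationSubring Qb}
    (h : EisFlatAt N l' S k C Al) : EisFlatAtTw N τ l' S k C Al := by
  obtain ⟨Flat, hF, hK⟩ := h
  refine ⟨Flat, hF, fun R₀ c hR hc => hK (R₀ + τ • R₀) c ?_ hc⟩
  intro σ
  rw [nsmul_add, ← gal_smul_nsmul, hR τ, gal_smul_add, hR σ]

theorem eisLocalTw_of (τ : GQb) {l' : ℕ} {S : Finset ℕ} (h : EisLocal N l' S) :
    EisLocalTw N τ l' S := by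
  obtain ⟨c, hc, h⟩ := h
  refine ⟨c, hc, fun k => ?_⟩
  obtain ⟨C, hC, hF⟩ := h k
  exact ⟨C, hC, fun Al hAl => eisFlatAtTw_of τ (hF Al hAl)⟩

end Fermat.Agent.EDesc
end
end MergeWrap_E_Desc_Main2Defs
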