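import Fermat.Prelude.Def_GaloisRep_ComplexConjugation
import Fermat.Agent.MU.E.Desc.MainDefs

section MergeWrap_E_Desc_RealDefs -- from E/Desc/RealDefs.lean

set_option autoImplicit false

noncomputable section

namespace Fermat.Agent.EDesc

open ModularCurve AlgebraicCurve

local notation "Qb" => AlgebraicClosure ℚ
local notation "GQb" => (AlgebraicClosure ℚ ≃ₐ[ℚ] AlgebraicClosure ℚ)

variable (N : ℕ) [NeZero N]

/-- `w ↦ τ w - w` on `W_k`. -/
def eisTwist (τ : GQb) (l' : ℕ) (S : Finset ℕ) (k : ℕ) : EisW N l' S k →+ EisW N l' S k :=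
  DistribSMul.toAddMonoidHom (EisW N l' S k) τ - AddMonoidHom.id (EisW N l' S k)

theorem eisTwist_apply (τ : GQb) (l' : ℕ) (S : Finset ℕ) (k : ℕ) (w : EisW N l' S k) :
    eisTwist N τ l' S k w = τ • w - w := rfl

/-- `(τ - 1) W_k`. -/
def eisRealSub (τ : GQb) (l' : ℕ) (S : Finset ℕ) (k : ℕ) : AddSubgroup (EisW N l' S k) :=
  (eisTwist N τ l' S k).range

/-- **EisReal**: `(τ - 1) W_k` is at most "half" of `W_k`. -/
def EisReal (τ : GQb) (l' : ℕ) (S : Finset ℕ) : Prop :=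
  ∃ c : ℕ, 0 < c ∧ ∀ k : ℕ,
    Nat.card (eisRealSub N τ l' S k) ^ 2 ≤ c * Nat.card (EisW N l' S k)

/-- a typed chain whose types are read off `(τ - 1) W`: `et i ↔ F (i+1) ∩ (τ - 1) W ⊆ F i`. -/
def RealTyped {l' : ℕ} {S : Finset ℕ} {k : ℕ} (C : TypedChain (EisW N l' S k) l') (τ : GQb) :
    Prop :=
  ∀ i, i < C.L → (C.et i ↔ C.F (i + 1) ⊓ eisRealSub N τ l' S k ≤ C.F i)

end Fermat.Agent.EDesc
end
end MergeWrap_E_Desc_RealDefs
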