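import Mathlib
import Fermat.Prelude.Def_GaloisRep_ComplexConjugation
import Fermat.Agent.MU.E.Desc.PCSMain
import Fermat.Agent.Lib.Cyclo.RootsReduce
import Fermat.Agent.E.Desc.Defs
import Fermat.Agent.MU.E.Desc.FlatAsmK
import Fermat.Agent.MU.E.Desc.Main2Defs
import Fermat.Agent.MU.E.Desc.RealDefs

section MergeWrap_E_Desc_FlatKum2 -- from E/Desc/FlatKum2.lean

set_option autoImplicit false

noncomputable section

namespace Fermat.Agent.EDesc

local notation "Qb" => AlgebraicClosure ℚ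
local notation "GQb" => (AlgebraicClosure ℚ ≃ₐ[ℚ] AlgebraicClosure ℚ)

/-- a nonzero element of `ℚ̄` fixed by the complex conjugation, with rational square, has a
positive square. -/
theorem fk2_sq_pos {a : Qb} {q : ℚ} (hq : (q : Qb) = a ^ 2) (ha0 : a ≠ 0)
    (hreal : complexConjugation a = a) : 0 < q := by
  have h1 := complexEmbedding_complexConjugation a
  rw [hreal] at h1
  obtain ⟨r, hr⟩ := Complex.conj_eq_iff_real.mp h1.symm
  have hq2 : (q : ℂ) = (r : ℂ) ^ 2 := by
    have h2 := congrArg complexEmbedding hq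
    rw [map_ratCast, map_pow, hr] at h2
    exact h2
  have hr0 : r ≠ 0 := by
    intro h
    rw [h, Complex.ofReal_zero] at hr
    exact ha0 ((map_eq_zero complexEmbedding).mp hr)
  have hq3 : (q : ℝ) = r ^ 2 := by
    apply Complex.ofReal_injective
    push_cast
    exact hq2
  have hq4 : (0 : ℝ) < q := by
    rw [hq3]
    positivity
  exact_mod_cast hq4

/-- `x² = x + c` with `c` an integer forces `x` to be integral at every place. -/
theorem fk2_mem_of_quadratic (A : ValuationSubring Qb) {x : Qb} (c : ℤ)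
    (h : x ^ 2 = x + (c : Qb)) : x ∈ A := by
  rw [← A.valuation_le_one_iff]
  by_contra hlt
  rw [not_le] at hlt
  have hpos : 0 < A.valuation x := lt_trans zero_lt_one hlt
  have h1 : A.valuation (x ^ 2) ≤ A.valuation x := by
    rw [h]
    refine le_trans (A.valuation.map_add _ _) (max_le le_rfl ?_)
    exact le_trans (pcs_val_int_le_one A c) hlt.le
  rw [map_pow, sq] at h1
  have h2 : A.valuation x * 1 < A.valuation x * A.valuation x :=
    mul_lt_mul_of_pos_left hlt hpos
  rw [mul_one] at h2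
  exact lt_irrefl _ (lt_of_lt_of_le h2 h1)

/-- the `p`-adic valuation of a prime `r ≠ p`. -/
theorem fk2_padicValRat_prime {r p : ℕ} (hr : r.Prime) (hp : p.Prime) (hrp : r ≠ p) :
    padicValRat r (p : ℚ) = 0 := by
  have : Fact r.Prime := ⟨hr⟩
  rw [padicValRat.of_nat]
  have h : ¬ r ∣ p := fun h => hrp ((Nat.prime_dvd_prime_iff_eq hr hp).mp h)
  exact_mod_cast padicValNat.eq_zero_of_not_dvd h

/-- **Kummer theory at `2`.** -/
theorem fk2_sign_unram (p : ℕ) (hp : p.Prime) (hp4 : p % 4 = 1)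
    (κ : GQb → Qb) (hκ : ∀ σ, κ σ ^ 2 = 1)
    (hunr : ∀ r : ℕ, r.Prime → r ≠ 2 → r ≠ p → ∃ A : ValuationSubring Qb,
      A.LiesOverPrime r ∧ ∀ σ ∈ A.inertiaSubgroupIn ℚ, κ σ = 1)
    (hreal : κ complexConjugation = 1)
    (Al : ValuationSubring Qb) (hAl : Al.LiesOverPrime 2)
    (hunit : ∃ a : Qb, a ∈ Al ∧ a⁻¹ ∈ Al ∧ a ≠ 0 ∧ ∀ σ : GQb, κ σ * a = σ a) :
    ∀ σ ∈ Al.inertiaSubgroupIn ℚ, κ σ = 1 := by
  obtain ⟨a, ha, ha', ha0, hκa⟩ := hunit
  have hp2 : p ≠ 2 := by
    rintro rfl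
    norm_num at hp4
  have hfix : ∀ σ : GQb, σ (a ^ 2) = a ^ 2 := fun σ => by
    rw [map_pow, ← hκa σ, mul_pow, hκ σ, one_mul]
  obtain ⟨q, hq⟩ := pcs_rational_of_fixed (a ^ 2) hfix
  have hq0 : q ≠ 0 := by
    intro h
    rw [h, Rat.cast_zero] at hq
    exact pow_ne_zero 2 ha0 hq.symm
  have hqpos : 0 < q := fk2_sq_pos hq ha0 (by rw [← hκa, hreal, one_mul])
  have hva : Al.valuation a = 1 := by
    have h1 : Al.valuation a ≤ 1 := (Al.valuation_le_one_iff _).mpr ha
    have h2 : Al.valuation a⁻¹ ≤ 1 := (Al.valuation_le_one_iff _).mpr ha'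
    rw [map_inv₀] at h2
    have h3 : Al.valuation a ≠ 0 := (Valuation.ne_zero_iff _).mpr ha0
    exact le_antisymm h1 ((inv_le_one₀ (zero_lt_iff.mpr h3)).mp h2)
  -- the valuations of `q` outside `p` are even
  have key : ∀ (r : ℕ) (hr : r.Prime) (A : ValuationSubring Qb), A.LiesOverPrime r →
      (∃ n : ℤ, A.valuation a = A.valuation (r : Qb) ^ n) → (2 : ℤ) ∣ padicValRat r q := by
    intro r hr A hA ⟨n, hn⟩
    have h1 := pcs_val_rat A hr hA q hq0
    rw [hq, map_pow, hn, ← zpow_natCast, ← zpow_mul] at h1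
    have h2 := pcs_zpow_inj A hr hA h1
    exact ⟨n, by rw [← h2, mul_comm]; rfl⟩
  have hdiv : ∀ r : ℕ, r.Prime → r ≠ p → (2 : ℤ) ∣ padicValRat r q := by
    intro r hr hrp
    by_cases hr2 : r = 2
    · subst hr2
      exact key 2 hr Al hAl ⟨0, by rw [hva, zpow_zero]⟩
    · obtain ⟨A, hA, hκA⟩ := hunr r hr hr2 hrp
      exact key r hr A hA (pcs_val_fixed A hr hA (pcsUnr_holds r A hr hA) a ha0
        (fun σ hσ => by rw [← hκa σ, hκA σ hσ, one_mul]))
  -- `q = p ^ e * b ^ 2`, `e ≤ 1`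
  obtain ⟨e, he, hm⟩ : ∃ e : ℕ, e ≤ 1 ∧ (2 : ℤ) ∣ padicValRat p q - e := by
    rcases Int.emod_two_eq_zero_or_one (padicValRat p q) with h | h
    · exact ⟨0, by omega, by rw [Nat.cast_zero, sub_zero]; exact Int.dvd_of_emod_eq_zero h⟩
    · refine ⟨1, le_rfl, ?_⟩
      rw [Nat.cast_one]
      omega
  have hpQ : (p : ℚ) ≠ 0 := by exact_mod_cast hp.ne_zero
  have hq₁0 : q / (p : ℚ) ^ e ≠ 0 := div_ne_zero hq0 (pow_ne_zero _ hpQ)
  have hq₁ : ∀ r : ℕ, r.Prime → ((2 : ℕ) : ℤ) ∣ padicValRat r (q / (p : ℚ) ^ e) := by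
    intro r hr
    have : Fact r.Prime := ⟨hr⟩
    rw [padicValRat.div hq0 (pow_ne_zero _ hpQ), padicValRat.pow]
    by_cases hrp : r = p
    · subst hrp
      rw [padicValRat.self hr.one_lt, mul_one]
      exact_mod_cast hm
    · rw [fk2_padicValRat_prime hr hp hrp, mul_zero, sub_zero]
      exact_mod_cast hdiv r hr hrp
  obtain ⟨b, hb0, hb⟩ := pcs_rat_eq_pow 2 (q / (p : ℚ) ^ e) hq₁0 hq₁
  have hq₁pos : 0 < q / (p : ℚ) ^ e := div_pos hqpos (pow_pos (by exact_mod_cast hp.pos) _)
  have hb2 : q / (p : ℚ) ^ e = b ^ 2 := by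
    rcases hb with h | h
    · exact h
    · exfalso
      have h1 : (0 : ℚ) < b ^ 2 := by positivity
      rw [h] at hq₁pos
      linarith
  have hbQ : (b : Qb) ≠ 0 := by exact_mod_cast hb0
  have hpQb : (p : Qb) ≠ 0 := by exact_mod_cast hp.ne_zero
  -- `s = a / b` is a square root of `p ^ e`
  have hs2 : (a / (b : Qb)) ^ 2 = (p : Qb) ^ e := by
    have h1 : q = (p : ℚ) ^ e * b ^ 2 := by
      rw [← hb2]
      field_simp
    rw [div_pow, ← hq, h1]
    push_cast
    field_simp
  have hs0 : a / (b : Qb) ≠ 0 := div_ne_zero ha0 hbQ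
  have hσs : ∀ σ : GQb, σ (a / (b : Qb)) = κ σ * (a / (b : Qb)) := fun σ => by
    rw [map_div₀, map_ratCast, ← hκa σ, mul_div_assoc]
  intro σ hσ
  rcases sq_eq_one_iff.mp (hκ σ) with h | h
  · exact h
  · exfalso
    have hσs' : σ (a / (b : Qb)) = -(a / (b : Qb)) := by rw [hσs σ, h, neg_one_mul]
    have he' : e = 0 ∨ e = 1 := by omega
    rcases he' with he0 | he1
    · -- `s = ± 1` is rational
      rw [he0, pow_zero] at hs2
      rcases sq_eq_one_iff.mp hs2 with h1 | h1
      · rw [h1, map_one] at hσs'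
        have : (2 : Qb) = 0 := by linear_combination hσs'
        exact two_ne_zero this
      · rw [h1, map_neg, map_one, neg_neg] at hσs'
        have : (2 : Qb) = 0 := by linear_combination -hσs'
        exact two_ne_zero this
    · -- `s ^ 2 = p`
      rw [he1, pow_one] at hs2
      obtain ⟨c, hc⟩ : ∃ c : ℕ, p = 4 * c + 1 := ⟨p / 4, by omega⟩
      have hx : ((1 + a / (b : Qb)) / 2) ^ 2 = (1 + a / (b : Qb)) / 2 + ((c : ℤ) : Qb) := by
        have h4 : (p : Qb) = 4 * (c : Qb) + 1 := by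
          rw [hc]
          push_cast
          ring
        rw [h4] at hs2
        push_cast
        linear_combination hs2 / 4
      have hxA : (1 + a / (b : Qb)) / 2 ∈ Al := fk2_mem_of_quadratic Al c hx
      have h5 := Fermat.Agent.Cyclo.inertia_sub_mem_nonunits Al hσ hxA
      have h6 : σ ((1 + a / (b : Qb)) / 2) - (1 + a / (b : Qb)) / 2 = -(a / (b : Qb)) := by
        rw [map_div₀, map_add, map_one, hσs', map_ofNat]
        ring
      rw [h6] at h5
      have h7 : Al.valuation (a / (b : Qb)) < 1 := by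
        have := (ValuationSubring.mem_nonunits_iff Al).mp h5
        rwa [Valuation.map_neg] at this
      have h8 : Al.valuation ((p : ℤ) : Qb) = 1 := by
        refine pcs_val_int_eq_one Al Nat.prime_two hAl p ?_
        intro hd
        have hd' : 2 ∣ p := by exact_mod_cast hd
        exact hp2 ((Nat.prime_dvd_prime_iff_eq Nat.prime_two hp).mp hd').symm
      have h9 : Al.valuation (a / (b : Qb)) ^ 2 = 1 := by
        rw [← map_pow, hs2]
        exact_mod_cast h8
      have h10 : Al.valuation (a / (b : Qb)) ^ 2 < 1 := pow_lt_one₀ zero_le h7 two_ne_zero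
      rw [h9] at h10
      exact lt_irrefl _ h10

end Fermat.Agent.EDesc
end
end MergeWrap_E_Desc_FlatKum2

section MergeWrap_E_Desc_Retype2 -- from E/Desc/Retype2.lean

set_option autoImplicit false

noncomputable section

namespace Fermat.Agent.EDesc

local notation "Qb" => AlgebraicClosure ℚ
local notation "GQb" => (AlgebraicClosure ℚ ≃ₐ[ℚ] AlgebraicClosure ℚ)

section Two

variable {W : Type*} [AddCommGroup W]

/-- in a step of index `2`: `w + w' ∈ F ↔ (w ∈ F ↔ w' ∈ F)`. -/
theorem retype_add_mem_iff {F F' : AddSubgroup W} (h : F.relIndex F' = 2) {w w' : W}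
    (hw : w ∈ F') (hw' : w' ∈ F') : w + w' ∈ F ↔ (w ∈ F ↔ w' ∈ F) := by
  have h2 : (F.addSubgroupOf F').index = 2 := h
  have := AddSubgroup.add_mem_iff_of_index_two h2 (a := (⟨w, hw⟩ : F')) (b := ⟨w', hw'⟩)
  simpa [AddSubgroup.mem_addSubgroupOf] using this

/-- the coordinate `±1` of a step of index `2`. -/
def retypeSign (F : AddSubgroup W) (w : W) : Qb := open Classical in if w ∈ F then 1 else -1

theorem retypeSign_eq_one_iff (F : AddSubgroup W) (w : W) : retypeSign F w = 1 ↔ w ∈ F := by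
  classical
  unfold retypeSign
  by_cases h : w ∈ F
  · simp [h]
  · simp only [h, if_false, iff_false]
    intro h1
    have h2 : (2 : Qb) = 0 := by linear_combination -h1
    exact two_ne_zero h2

theorem retypeSign_map (F : AddSubgroup W) (w : W) (σ : GQb) :
    σ (retypeSign F w) = retypeSign F w := by
  classical
  unfold retypeSign
  by_cases h : w ∈ F
  · simp [h]
  · simp [h]

variable [DistribMulAction GQb W]

/-- **a chain with steps of index `2` is a typed chain for any choice of the types.** -/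
theorem typedChain_two_of_chain (L : ℕ) (F : ℕ → AddSubgroup W) (F_zero : F 0 = ⊥)
    (F_top : F L = ⊤) (mono : ∀ i, F i ≤ F (i + 1))
    (stable : ∀ i (σ : GQb) (w : W), w ∈ F i → σ • w ∈ F i)
    (index : ∀ i, i < L → (F i).relIndex (F (i + 1)) = 2) (et : ℕ → Prop) :
    ∃ C : TypedChain W 2, C.L = L ∧ C.F = F ∧ C.et = et := by
  classical
  have hstab' : ∀ i (σ : GQb) (w : W), σ • w ∈ F i ↔ w ∈ F i := by
    intro i σ w
    constructor
    · intro h
      have := stable i σ⁻¹ _ h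
      rwa [inv_smul_smul] at this
    · exact stable i σ w
  refine ⟨{ L := L
            F := F
            et := et
            ι := fun i w => retypeSign (F i) w
            F_zero := F_zero
            F_top := F_top
            mono := mono
            stable := stable
            index := index
            et_triv := ?_
            ι_mul := ?_
            ι_one_iff := ?_
            ι_smul := ?_ }, rfl, rfl, rfl⟩
  · intro i hi _ σ w hw
    have hσw : σ • w ∈ F (i + 1) := stable (i + 1) σ w hw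
    have h1 : σ • w + w ∈ F i := (retype_add_mem_iff (index i hi) hσw hw).mpr (hstab' i σ w)
    have h2 : w + w ∈ F i := (retype_add_mem_iff (index i hi) hw hw).mpr Iff.rfl
    have e : σ • w - w = (σ • w + w) - (w + w) := by abel
    rw [e]
    exact (F i).sub_mem h1 h2
  · intro i hi _ w w' hw hw'
    have h := retype_add_mem_iff (index i hi) hw hw'
    unfold retypeSign
    by_cases h1 : w ∈ F i <;> by_cases h2 : w' ∈ F i
    · have h3 : w + w' ∈ F i := h.mpr (by simp [h1, h2])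
      simp [h1, h2, h3]
    · have h3 : w + w' ∉ F i := fun h3 => h2 ((h.mp h3).mp h1)
      simp [h1, h2, h3]
    · have h3 : w + w' ∉ F i := fun h3 => h1 ((h.mp h3).mpr h2)
      simp [h1, h2, h3]
    · have h3 : w + w' ∈ F i := h.mpr (by simp [h1, h2])
      simp [h1, h2, h3]
  · intro i _ _ w _
    exact retypeSign_eq_one_iff (F i) w
  · intro i _ _ σ w _
    rw [retypeSign_map]
    unfold retypeSign
    by_cases h : w ∈ F i
    · simp [h, (hstab' i σ w).mpr h]
    · have h' : σ • w ∉ F i := fun h' => h ((hstab' i σ w).mp h')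
      simp [h, h']

/-- re-typing a typed chain at `l' = 2`: same chain, prescribed types. -/
theorem TypedChain.exists_retype_two (C : TypedChain W 2) (et : ℕ → Prop) :
    ∃ C' : TypedChain W 2, C'.L = C.L ∧ C'.F = C.F ∧ C'.et = et :=
  typedChain_two_of_chain C.L C.F C.F_zero C.F_top C.mono C.stable C.index et

end Two

end Fermat.Agent.EDesc
end
end MergeWrap_E_Desc_Retype2

section MergeWrap_E_Desc_FlatPiece -- from E/Desc/FlatPiece.lean

set_option autoImplicit false

noncomputable section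

namespace Fermat.Agent.EDesc

open ModularCurve AlgebraicCurve Fermat.Agent.FlatMod Fermat.Agent.FFL

local notation "Qb" => AlgebraicClosure ℚ
local notation "GQb" => (AlgebraicClosure ℚ ≃ₐ[ℚ] AlgebraicClosure ℚ)

variable {N : ℕ} [NeZero N]

/-- **PEU for the Kummer cocycles, piece form.** -/
theorem kumFlat_unit_of_coord {l' : ℕ} (hl : l'.Prime) (hlN : ¬ l' ∣ N) {S : Finset ℕ} {k : ℕ}
    (Al : ValuationSubring Qb) (hAl : Al.LiesOverPrime l')
    (F₁ : AddSubgroup (EisW N l' S k))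
    (hst : ∀ (σ : GQb) (w : EisW N l' S k), w ∈ F₁ → σ • w ∈ F₁)
    (ι : EisW N l' S k → Qb)
    (hmul : ∀ w ∈ F₁, ∀ w' ∈ F₁, ι (w + w') = ι w * ι w')
    (hpow : ∀ w ∈ F₁, ι w ^ l' = 1)
    (hsmul : ∀ (σ : GQb), ∀ w ∈ F₁, ι (σ • w) = σ (ι w))
    (c : GQb → EisW N l' S k) (hcoc : IsCoc c) (hfl : KumFlatCond N l' S k c)
    (hval : ∀ σ, c σ ∈ F₁) :
    ∃ a : Qb, a ∈ Al ∧ a⁻¹ ∈ Al ∧ a ≠ 0 ∧ ∀ σ : GQb, ι (c σ) * a = σ a := by
  have : Fact l'.Prime := ⟨hl⟩
  have hne : ∀ w ∈ F₁, ι w ≠ 0 := by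
    intro w hw h0
    have h1 := hpow w hw
    rw [h0, zero_pow hl.ne_zero] at h1
    exact zero_ne_one h1
  by_cases hk : k = 0
  · subst hk
    have h0 : ι 0 = 1 := by
      have h1 := hmul 0 F₁.zero_mem 0 F₁.zero_mem
      rw [add_zero] at h1
      exact (mul_eq_left₀ (hne 0 F₁.zero_mem)).mp h1.symm
    refine ⟨1, Al.one_mem, by rw [inv_one]; exact Al.one_mem, one_ne_zero, fun σ => ?_⟩
    rw [eisW_eq_zero_of_zero (c σ), h0, map_one, mul_one]
  · have hcts := kumFlatCond_cts hfl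
    obtain ⟨R, hR, hc⟩ := hfl
    have hI := mu_unit_inertia_of_peu (peuFlat hl hAl) (val_one_pow hl hk) c
      (eisKumFlat hl hlN S k R c hR hc) F₁ hst hval ι hmul hpow
      (fun σ _ w hw => hsmul σ w hw)
    refine unit_of_inertia_unit hl Al hAl (fun σ => ι (c σ)) (fun σ => hne _ (hval σ))
      (fun σ τ => ?_) ?_ hI
    · show ι (c (σ * τ)) = ι (c σ) * σ (ι (c τ))
      rw [hcoc σ τ, hmul _ (hval σ) _ (hst σ _ (hval τ)), hsmul σ _ (hval τ)]
    · obtain ⟨E, hE, hE'⟩ := hcts
      exact ⟨E, hE, fun σ τ hτ => by rw [hE' σ τ hτ]⟩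

/-- the sign of a step of index `2` is multiplicative. -/
theorem retypeSign_add {W : Type*} [AddCommGroup W] {F₀ F₁ : AddSubgroup W}
    (h : F₀.relIndex F₁ = 2) {w w' : W} (hw : w ∈ F₁) (hw' : w' ∈ F₁) :
    retypeSign F₀ (w + w') = retypeSign F₀ w * retypeSign F₀ w' := by
  classical
  have h' := retype_add_mem_iff h hw hw'
  unfold retypeSign
  by_cases h1 : w ∈ F₀ <;> by_cases h2 : w' ∈ F₀
  · have h3 : w + w' ∈ F₀ := h'.mpr (by simp [h1, h2])
    simp [h1, h2, h3]
  · have h3 : w + w' ∉ F₀ := fun h3 => h2 ((h'.mp h3).mp h1)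
    simp [h1, h2, h3]
  · have h3 : w + w' ∉ F₀ := fun h3 => h1 ((h'.mp h3).mpr h2)
    simp [h1, h2, h3]
  · have h3 : w + w' ∈ F₀ := h'.mpr (by simp [h1, h2])
    simp [h1, h2, h3]

theorem retypeSign_sq {W : Type*} [AddCommGroup W] (F₀ : AddSubgroup W) (w : W) :
    retypeSign F₀ w ^ 2 = 1 := by
  classical
  unfold retypeSign
  by_cases h1 : w ∈ F₀
  · simp [h1]
  · simp [h1]

theorem retypeSign_smul {W : Type*} [AddCommGroup W] [DistribMulAction GQb W]
    {F₀ : AddSubgroup W} (hst : ∀ (σ : GQb) (w : W), w ∈ F₀ → σ • w ∈ F₀) (σ : GQb) (w : W) :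
    retypeSign F₀ (σ • w) = σ (retypeSign F₀ w) := by
  classical
  rw [retypeSign_map]
  have hiff : σ • w ∈ F₀ ↔ w ∈ F₀ := by
    constructor
    · intro h
      have := hst σ⁻¹ _ h
      rwa [inv_smul_smul] at this
    · exact hst σ w
  unfold retypeSign
  by_cases h : w ∈ F₀
  · simp [h, hiff.mpr h]
  · have h' : σ • w ∉ F₀ := fun h' => h (hiff.mp h')
    simp [h, h']

/-- **PEU on every piece at `l' = 2`**: the sign of a Kummer cocycle with values in `F₁` modulo a
subgroup `F₀` of index `2` is the Kummer cocycle of a unit at every place over `2`. -/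
theorem kumFlat_unit_of_index_two (hN2 : ¬ 2 ∣ N) {S : Finset ℕ} {k : ℕ}
    (Al : ValuationSubring Qb) (hAl : Al.LiesOverPrime 2)
    (F₀ F₁ : AddSubgroup (EisW N 2 S k))
    (hst₀ : ∀ (σ : GQb) (w : EisW N 2 S k), w ∈ F₀ → σ • w ∈ F₀)
    (hst₁ : ∀ (σ : GQb) (w : EisW N 2 S k), w ∈ F₁ → σ • w ∈ F₁)
    (hidx : F₀.relIndex F₁ = 2)
    (c : GQb → EisW N 2 S k) (hcoc : IsCoc c) (hfl : KumFlatCond N 2 S k c)
    (hval : ∀ σ, c σ ∈ F₁) :
    ∃ a : Qb, a ∈ Al ∧ a⁻¹ ∈ Al ∧ a ≠ 0 ∧ ∀ σ : GQb, retypeSign F₀ (c σ) * a = σ a :=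
  kumFlat_unit_of_coord Nat.prime_two hN2 Al hAl F₁ hst₁ (retypeSign F₀)
    (fun _ hw _ hw' => retypeSign_add hidx hw hw') (fun w _ => retypeSign_sq F₀ w)
    (fun σ w _ => retypeSign_smul hst₀ σ w) c hcoc hfl hval

end Fermat.Agent.EDesc
end
end MergeWrap_E_Desc_FlatPiece

section MergeWrap_E_Desc_FlatTw2 -- from E/Desc/FlatTw2.lean

set_option autoImplicit false

noncomputable section

namespace Fermat.Agent.EDesc

open ModularCurve AlgebraicCurve Fermat.Agent.FlatMod Fermat.Agent.FFL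

local notation "Qb" => AlgebraicClosure ℚ
local notation "GQb" => (AlgebraicClosure ℚ ≃ₐ[ℚ] AlgebraicClosure ℚ)

variable {N : ℕ} [NeZero N]

/-- the flat condition at `2` on the REAL route. -/
def KumRealCond (N : ℕ) [NeZero N] (τ : GQb) (S : Finset ℕ) (k : ℕ)
    (c : GQb → EisW N 2 S k) : Prop :=
  KumFlatCond N 2 S k c ∧ ∃ w : EisW N 2 S k, c τ = τ • w - w

theorem kumRealCond_add {τ : GQb} {S : Finset ℕ} {k : ℕ} {c c' : GQb → EisW N 2 S k}
    (h : KumRealCond N τ S k c) (h' : KumRealCond N τ S k c') :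
    KumRealCond N τ S k (c + c') := by
  obtain ⟨h1, w, hw⟩ := h
  obtain ⟨h1', w', hw'⟩ := h'
  refine ⟨kumFlatCond_add h1 h1', w + w', ?_⟩
  rw [Pi.add_apply, hw, hw', smul_add]
  abel

theorem kumRealCond_neg {τ : GQb} {S : Finset ℕ} {k : ℕ} {c : GQb → EisW N 2 S k}
    (h : KumRealCond N τ S k c) : KumRealCond N τ S k (-c) := by
  obtain ⟨h1, w, hw⟩ := h
  refine ⟨kumFlatCond_neg h1, -w, ?_⟩
  rw [Pi.neg_apply, hw, smul_neg]
  abel

theorem kumRealCond_cob {τ : GQb} {S : Finset ℕ} {k : ℕ} (w : EisW N 2 S k) :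
    KumRealCond N τ S k (fun σ => σ • w - w) :=
  ⟨kumFlatCond_cob w, w, rfl⟩

/-- a Kummer cocycle with values in `W_k` vanishes on the inertia groups at the primes
`r ∤ 2 N`. -/
theorem kumFlatCond_unram {l' : ℕ} (hl : l'.Prime) {S : Finset ℕ} {k : ℕ}
    {c : GQb → EisW N l' S k} (h : KumFlatCond N l' S k c) {r : ℕ} (hr : r.Prime)
    (hrN : ¬ r ∣ N) (hrl : r ≠ l') (A : ValuationSubring Qb) (hA : A.LiesOverPrime r)
    {σ : GQb} (hσ : σ ∈ A.inertiaSubgroupIn ℚ) : c σ = 0 := by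
  obtain ⟨R, hR, hc⟩ := h
  have hu : UnramCoc {r' : ℕ | r' ∣ N * l' ^ k} (kum R) :=
    kum_unramCoc (pow_ne_zero k hl.ne_zero) hR _ (fun r' _ h' => h')
  have hr' : r ∉ {r' : ℕ | r' ∣ N * l' ^ k} := by
    intro h'
    rcases (Nat.Prime.dvd_mul hr).mp h' with h1 | h1
    · exact hrN h1
    · exact hrl ((Nat.prime_dvd_prime_iff_eq hr hl).mp (hr.dvd_of_dvd_pow h1))
  apply Subtype.ext
  rw [hc σ]
  exact hu r hr hr' A hA σ hσ

omit [NeZero N] in
/-- the Kummer cocycle of `R⁰ + τ R⁰` vanishes at an involution `τ`. -/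
theorem kum_add_smul_self {τ : GQb} (hτ : τ * τ = 1) (R₀ : JZero N) :
    kum (R₀ + τ • R₀) τ = 0 := by
  rw [kum_apply, gal_smul_add, ← mul_smul, hτ, one_smul]
  abel

/-- **the flat condition at `2` (REAL route)** for a real-typed chain, at a prime level
`N ≡ 1 mod 4`. -/
theorem eisFlatAtTw_two (hN : N.Prime) (hN4 : N % 4 = 1) {S : Finset ℕ} (k : ℕ)
    (C : TypedChain (EisW N 2 S k) 2) (hC : RealTyped N C complexConjugation)
    (Al : ValuationSubring Qb) (hAl : Al.LiesOverPrime 2) :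
    EisFlatAtTw N complexConjugation 2 S k C Al := by
  have hN2 : ¬ 2 ∣ N := by
    intro h
    have h2 := (Nat.prime_dvd_prime_iff_eq Nat.prime_two hN).mp h
    omega
  refine ⟨KumRealCond N complexConjugation S k,
    ⟨fun c c' => kumRealCond_add, fun c => kumRealCond_neg, kumRealCond_cob, ?_, ?_⟩, ?_⟩
  · -- `et_unram`
    intro i hi het c hcoc hfl hval σ hσ
    obtain ⟨hK, w, hw⟩ := hfl
    have hsub := (hC i hi).mp het
    have hunit := kumFlat_unit_of_index_two hN2 Al hAl (C.F i) (C.F (i + 1)) (C.stable i)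
      (C.stable (i + 1)) (C.index i hi) c hcoc hK hval
    have hreal : retypeSign (C.F i) (c complexConjugation) = 1 := by
      rw [retypeSign_eq_one_iff]
      refine hsub ⟨hval _, ?_⟩
      exact ⟨w, by rw [eisTwist_apply, hw]⟩
    have hunr : ∀ r : ℕ, r.Prime → r ≠ 2 → r ≠ N → ∃ A : ValuationSubring Qb,
        A.LiesOverPrime r ∧ ∀ σ ∈ A.inertiaSubgroupIn ℚ, retypeSign (C.F i) (c σ) = 1 := by
      intro r hr hr2 hrN
      obtain ⟨A, hA⟩ := Fermat.Agent.FrobExists.exists_valuationSubring_liesOver r hr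
      refine ⟨A, hA, fun σ hσ => ?_⟩
      have hrN' : ¬ r ∣ N := fun h => hrN ((Nat.prime_dvd_prime_iff_eq hr hN).mp h)
      rw [kumFlatCond_unram Nat.prime_two hK hr hrN' hr2 A hA hσ, retypeSign_eq_one_iff]
      exact (C.F i).zero_mem
    have h1 := fk2_sign_unram N hN hN4 (fun σ => retypeSign (C.F i) (c σ))
      (fun σ => retypeSign_sq _ _) hunr hreal Al hAl hunit σ hσ
    exact (retypeSign_eq_one_iff (C.F i) (c σ)).mp h1
  · -- `mu_unit`
    intro i hi hnet c hcoc hfl hval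
    obtain ⟨a, ha, ha', ha0, h⟩ := kumFlat_unit_of_coord Nat.prime_two hN2 Al hAl
      (C.F (i + 1)) (C.stable (i + 1)) (C.ι i)
      (fun w hw w' hw' => C.ι_mul i hi hnet w w' hw hw')
      (fun w hw => typedChain_ι_pow C hi hnet hw)
      (fun σ w hw => C.ι_smul i hi hnet σ w hw) c hcoc hfl.1 hval
    exact ⟨a, ha, ha', ha0, fun σ _ => h σ⟩
  · -- the Kummer cocycles of `R⁰ + c_∞ R⁰`
    intro R₀ c hR hc
    refine ⟨⟨R₀ + complexConjugation • R₀, fun σ => ?_, hc⟩, 0, ?_⟩
    · rw [nsmul_add, ← gal_smul_nsmul, hR complexConjugation, gal_smul_add, hR σ]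
    · rw [smul_zero, sub_zero]
      apply Subtype.ext
      rw [hc]
      exact kum_add_smul_self complexConjugation_mul_self R₀

end Fermat.Agent.EDesc
end
end MergeWrap_E_Desc_FlatTw2

section MergeWrap_E_Desc_LocalTw2 -- from E/Desc/LocalTw2.lean

set_option autoImplicit false

noncomputable section

namespace Fermat.Agent.EDesc

open ModularCurve AlgebraicCurve

local notation "Qb" => AlgebraicClosure ℚ
local notation "GQb" => (AlgebraicClosure ℚ ≃ₐ[ℚ] AlgebraicClosure ℚ)

section Count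

variable {W : Type*} [AddCommGroup W] [DistribMulAction GQb W] [Finite W]

/-- the number of `et` pieces among the first `i`. -/
def etCount (et : ℕ → Prop) (i : ℕ) : ℕ :=
  open Classical in ((Finset.range i).filter et).card

theorem etCount_zero (et : ℕ → Prop) : etCount et 0 = 0 := by
  classical
  simp [etCount]

theorem etCount_succ_of (et : ℕ → Prop) {i : ℕ} (h : et i) :
    etCount et (i + 1) = etCount et i + 1 := by
  classical
  unfold etCount
  rw [Finset.range_add_one, Finset.filter_insert, if_pos h, Finset.card_insert_of_notMem]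
  intro h'
  exact Finset.notMem_range_self (Finset.mem_filter.mp h').1

theorem etCount_succ_of_not (et : ℕ → Prop) {i : ℕ} (h : ¬ et i) :
    etCount et (i + 1) = etCount et i := by
  classical
  unfold etCount
  rw [Finset.range_add_one, Finset.filter_insert, if_neg h]

omit [Finite W] in
theorem typedChain_alpha_eq {l' : ℕ} (C : TypedChain W l') : C.alpha = etCount C.et C.L := rfl

omit [DistribMulAction GQb W] in
/-- a proper step of subgroups of a finite group has relative index at least `2`. -/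
theorem two_le_relIndex_of_not_le {H K : AddSubgroup W} (h : ¬ K ≤ H) : 2 ≤ H.relIndex K := by
  have h0 : H.relIndex K ≠ 0 := by
    rw [AddSubgroup.relIndex]
    exact AddSubgroup.index_ne_zero_of_finite
  have h1 : H.relIndex K ≠ 1 := fun h1 => h (AddSubgroup.relIndex_eq_one.mp h1)
  omega

omit [DistribMulAction GQb W] in
theorem one_le_relIndex (H K : AddSubgroup W) : 1 ≤ H.relIndex K := by
  have h0 : H.relIndex K ≠ 0 := by
    rw [AddSubgroup.relIndex]
    exact AddSubgroup.index_ne_zero_of_finite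
  omega

/-- **the count**: if every piece which is not `et` meets `R` properly, then
`#W ≤ #R · 2^α`. -/
theorem typedChain_card_le (C : TypedChain W 2) (R : AddSubgroup W)
    (h : ∀ i, i < C.L → ¬ C.et i → ¬ (C.F (i + 1) ⊓ R ≤ C.F i)) :
    Nat.card W ≤ Nat.card R * 2 ^ C.alpha := by
  have key : ∀ i, i ≤ C.L → (⊥ : AddSubgroup W).relIndex (C.F i) ≤
      (⊥ : AddSubgroup W).relIndex (C.F i ⊓ R) * 2 ^ etCount C.et i := by
    intro i
    induction i with
    | zero =>
      intro _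
      rw [C.F_zero, bot_inf_eq, etCount_zero, pow_zero, mul_one]
    | succ i ih =>
      intro hi
      have hi' : i < C.L := hi
      have ih' := ih hi'.le
      have h1 : (⊥ : AddSubgroup W).relIndex (C.F (i + 1)) =
          (⊥ : AddSubgroup W).relIndex (C.F i) * 2 := by
        have h0 := AddSubgroup.relIndex_mul_relIndex (⊥ : AddSubgroup W) (C.F i) (C.F (i + 1))
          bot_le (C.mono i)
        rw [C.index i hi'] at h0
        exact h0.symm
      have hle : C.F i ⊓ R ≤ C.F (i + 1) ⊓ R := inf_le_inf_right R (C.mono i)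
      have h2 : (⊥ : AddSubgroup W).relIndex (C.F (i + 1) ⊓ R) =
          (⊥ : AddSubgroup W).relIndex (C.F i ⊓ R) *
            (C.F i ⊓ R).relIndex (C.F (i + 1) ⊓ R) :=
        (AddSubgroup.relIndex_mul_relIndex _ _ _ bot_le hle).symm
      rw [h1, h2]
      by_cases het : C.et i
      · rw [etCount_succ_of C.et het, pow_succ]
        have h3 := one_le_relIndex (C.F i ⊓ R) (C.F (i + 1) ⊓ R)
        calc (⊥ : AddSubgroup W).relIndex (C.F i) * 2
            ≤ ((⊥ : AddSubgroup W).relIndex (C.F i ⊓ R) * 2 ^ etCount C.et i) * 2 :=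
              Nat.mul_le_mul_right 2 ih'
          _ = (⊥ : AddSubgroup W).relIndex (C.F i ⊓ R) * 1 * (2 ^ etCount C.et i * 2) := by
              ring
          _ ≤ (⊥ : AddSubgroup W).relIndex (C.F i ⊓ R) *
                (C.F i ⊓ R).relIndex (C.F (i + 1) ⊓ R) * (2 ^ etCount C.et i * 2) :=
              Nat.mul_le_mul_right _ (Nat.mul_le_mul_left _ h3)
      · rw [etCount_succ_of_not C.et het]
        have hnle : ¬ (C.F (i + 1) ⊓ R ≤ C.F i ⊓ R) := fun h' =>
          h i hi' het (le_trans h' inf_le_left)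
        have h3 := two_le_relIndex_of_not_le hnle
        calc (⊥ : AddSubgroup W).relIndex (C.F i) * 2
            ≤ ((⊥ : AddSubgroup W).relIndex (C.F i ⊓ R) * 2 ^ etCount C.et i) * 2 :=
              Nat.mul_le_mul_right 2 ih'
          _ = (⊥ : AddSubgroup W).relIndex (C.F i ⊓ R) * 2 * 2 ^ etCount C.et i := by ring
          _ ≤ (⊥ : AddSubgroup W).relIndex (C.F i ⊓ R) *
                (C.F i ⊓ R).relIndex (C.F (i + 1) ⊓ R) * 2 ^ etCount C.et i :=
              Nat.mul_le_mul_right _ (Nat.mul_le_mul_left _ h3)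
  have h1 := key C.L le_rfl
  rw [C.F_top, top_inf_eq, AddSubgroup.relIndex_bot_left, AddSubgroup.relIndex_bot_left,
    ← typedChain_alpha_eq] at h1
  have h2 : Nat.card (⊤ : AddSubgroup W) = Nat.card W := AddSubgroup.card_top
  rw [h2] at h1
  exact h1

/-- from `#R² ≤ c #W` and `#W ≤ #R 2^α` to `#W ≤ c 2^(2α)`. -/
theorem card_le_of_real {w r c α : ℕ} (hw : 0 < w) (h1 : r ^ 2 ≤ c * w) (h2 : w ≤ r * 2 ^ α) :
    w ≤ c * 2 ^ (2 * α) := by
  have h3 : w * w ≤ (c * 2 ^ (2 * α)) * w := by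
    calc w * w ≤ (r * 2 ^ α) * (r * 2 ^ α) := Nat.mul_le_mul h2 h2
      _ = r ^ 2 * 2 ^ (2 * α) := by ring
      _ ≤ (c * w) * 2 ^ (2 * α) := Nat.mul_le_mul_right _ h1
      _ = (c * 2 ^ (2 * α)) * w := by ring
  exact Nat.le_of_mul_le_mul_right h3 hw

end Count

variable {N : ℕ} [NeZero N]

/-- **the local input of DESC-MAIN at `l' = 2`** (REAL route), for a prime level
`N ≡ 1 mod 4`. -/
theorem eisLocalTw_two (hN : N.Prime) (hN4 : N % 4 = 1) {S : Finset ℕ}
    (hC : EisChain N 2 S) (hR : EisReal N complexConjugation 2 S) :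
    EisLocalTw N complexConjugation 2 S := by
  have : Fact (Nat.Prime 2) := ⟨Nat.prime_two⟩
  obtain ⟨c, hc, hRk⟩ := hR
  refine ⟨c, hc, fun k => ?_⟩
  obtain ⟨C₀⟩ := hC k
  obtain ⟨C, hL, hF, het⟩ := C₀.exists_retype_two
    (fun i => C₀.F (i + 1) ⊓ eisRealSub N complexConjugation 2 S k ≤ C₀.F i)
  have hreal : RealTyped N C complexConjugation := by
    intro i _
    rw [het, hF]
  refine ⟨C, ?_, fun Al hAl => eisFlatAtTw_two hN hN4 k C hreal Al hAl⟩
  have h2 := typedChain_card_le C (eisRealSub N complexConjugation 2 S k)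
    (fun i hi hnet => fun h' => hnet ((hreal i hi).mpr h'))
  exact card_le_of_real Nat.card_pos (hRk k) h2

end Fermat.Agent.EDesc
end
end MergeWrap_E_Desc_LocalTw2
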